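import Mathlib
import Fermat.Prelude.Def_ModularCurve_ArithmeticGalois

/-!
# Programme III (S48), J1-port: generators of `laurentBaseChange L F₀` for `F₀ = ℚ(S)`

Generic version of `ES/Generators.lean`.  `F₀ = IntermediateField.adjoin ℚ S ⊂ ℚ((q))`,
`F̄ = laurentBaseChange L F₀ ⊂ L((q))`.

* `mem_of_mem_laurentBaseChange_adjoin` : a subfield of `L((q))` containing the constants and the
  series `coeffEmb L s`, `s ∈ S`, contains `F̄`;
* `ringHom_ext_laurentBaseChange_adjoin` : two ring homs out of `F̄` into a field that agree on the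
  constants and on the `coeffEmb L s`, `s ∈ S`, are equal.
-/

set_option autoImplicit false
set_option linter.unusedSectionVars false

noncomputable section

namespace Fermat.Agent.DS.ES

open ModularCurve IntermediateField

variable {L : Type*} [Field L] [Algebra ℚ L]

theorem coeffEmb_algebraMap_rat (r : ℚ) :
    coeffEmb L (algebraMap ℚ (LaurentSeries ℚ) r) =
      algebraMap L (LaurentSeries L) (algebraMap ℚ L r) := by
  rw [coeffEmb, algebraMap_laurentSeries_eq_single, coeffMap_single,
    algebraMap_laurentSeries_eq_single]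

/-- A subfield of `L((q))` containing the constants and `coeffEmb L s`, `s ∈ S`, contains
`coeffEmb L x` for every `x ∈ ℚ(S)`. -/
theorem coeffEmb_mem_of_mem_adjoin (S : Set (LaurentSeries ℚ)) (T : Subfield (LaurentSeries L))
    (hT : ∀ a : L, algebraMap L (LaurentSeries L) a ∈ T)
    (hS : ∀ s ∈ S, coeffEmb L s ∈ T) {z : LaurentSeries ℚ}
    (hz : z ∈ IntermediateField.adjoin ℚ S) : coeffEmb L z ∈ T := by
  let T' : Subfield (LaurentSeries ℚ) := T.comap (coeffEmb L)
  have hT' : ∀ r : ℚ, algebraMap ℚ (LaurentSeries ℚ) r ∈ T' := by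
    intro r
    show coeffEmb L (algebraMap ℚ (LaurentSeries ℚ) r) ∈ T
    rw [coeffEmb_algebraMap_rat]
    exact hT _
  have hle : IntermediateField.adjoin ℚ S ≤ T'.toIntermediateField hT' := by
    rw [IntermediateField.adjoin_le_iff]
    intro s hs
    exact hS s hs
  exact hle hz

/-- A subfield of `L((q))` containing the constants and the `coeffEmb L s`, `s ∈ S`, contains
`laurentBaseChange L (ℚ(S))`. -/
theorem mem_of_mem_laurentBaseChange_adjoin (S : Set (LaurentSeries ℚ))
    (T : Subfield (LaurentSeries L))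
    (hT : ∀ a : L, algebraMap L (LaurentSeries L) a ∈ T)
    (hS : ∀ s ∈ S, coeffEmb L s ∈ T) {x : LaurentSeries L}
    (hx : x ∈ laurentBaseChange L (IntermediateField.adjoin ℚ S)) : x ∈ T := by
  rw [mem_laurentBaseChange_iff] at hx
  induction hx using Subfield.closure_induction with
  | mem y hy =>
    rcases hy with ⟨a, rfl⟩ | ⟨z, hz, rfl⟩
    · exact hT a
    · exact coeffEmb_mem_of_mem_adjoin S T hT hS hz
  | one => exact one_mem T
  | add x y _ _ hx hy => exact add_mem hx hy
  | neg x _ hx => exact neg_mem hx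
  | inv x _ hx => exact inv_mem hx
  | mul x y _ _ hx hy => exact mul_mem hx hy

/-- Two ring homs out of `laurentBaseChange L (ℚ(S))` into a field which agree on the constants
and on the `coeffEmb L s`, `s ∈ S`, are equal. -/
theorem ringHom_ext_laurentBaseChange_adjoin {E : Type*} [Field E] (S : Set (LaurentSeries ℚ))
    (f g : laurentBaseChange L (IntermediateField.adjoin ℚ S) →+* E)
    (hK : ∀ a : L, f (algebraMap L _ a) = g (algebraMap L _ a))
    (hS : ∀ s (hs : s ∈ S),
      f ⟨coeffEmb L s, coeffEmb_mem_laurentBaseChange L (IntermediateField.subset_adjoin ℚ S hs)⟩ =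
      g ⟨coeffEmb L s, coeffEmb_mem_laurentBaseChange L (IntermediateField.subset_adjoin ℚ S hs)⟩) :
    f = g := by
  let T : Subfield (LaurentSeries L) :=
    (RingHom.eqLocusField f g).map
      (laurentBaseChange L (IntermediateField.adjoin ℚ S)).val.toRingHom
  have hmem : ∀ x : laurentBaseChange L (IntermediateField.adjoin ℚ S),
      (x : LaurentSeries L) ∈ T → f x = g x := by
    rintro x ⟨y, hy, hyx⟩
    have : y = x := Subtype.ext hyx
    rw [← this]
    exact hy
  ext x
  apply hmem
  refine mem_of_mem_laurentBaseChange_adjoin S T ?_ ?_ x.2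
  · intro a
    exact ⟨algebraMap L (laurentBaseChange L (IntermediateField.adjoin ℚ S)) a, hK a, rfl⟩
  · intro s hs
    exact ⟨⟨coeffEmb L s,
      coeffEmb_mem_laurentBaseChange L (IntermediateField.subset_adjoin ℚ S hs)⟩, hS s hs, rfl⟩

end Fermat.Agent.DS.ES
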