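import Mathlib
import Fermat.Agent.X0.QDict
import Fermat.Agent.Igusa.Subst
import Fermat.Agent.ES.LaurentFrob

/-!
# Programme III (S48), J1-port leaf ES₁: analytic transport of `q`-expansions

`K` a field with an embedding `ι : K →+* ℂ`, `m : ℍ → ℍ` any map.  A pair of Laurent series
`(s, s')` over `K` is a *transport pair along `m`* if `ι s` is the `q`-expansion of a (holomorphic)
function `f : ℍ → ℂ` and `ι s'` is the `q`-expansion of `f ∘ m` (`X0.IsQExp`).

* `transSub ι m` : the `K`-subalgebra of `K((q))` of the series having a transport;
* `transHom ι m : transSub ι m →ₐ[K] K((q))`, `s ↦ s'` (well defined by uniqueness of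
  `q`-expansions), injective when `m` is surjective;
* `transField ι m` : the subfield of `K((q))` generated by `transSub ι m` (its fraction field) and
  `transFieldHom ι m hm : transField ι m →ₐ[K] K((q))` the extension (`m` surjective);
* `transFieldHom_apply_of_pair` : `transFieldHom s = s'` for a transport pair.

This is the tool which turns the analytic action of a coset representative `γ` on modular functions
into an embedding of a function field given by `q`-expansions (the conjugates of `β y` in the
product formula for the Hecke norm).

Also: `IsQExp.vadd_real` : `f (r + τ)` has `q`-expansion `s (u q)`, `u = exp (2πi r)`.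
-/

set_option autoImplicit false
set_option linter.unusedSectionVars false

noncomputable section

namespace Fermat.Agent.DS.ES

open UpperHalfPlane HahnSeries ModularCurve Fermat.Agent.X0 Fermat.Agent.Igusa Fermat.Agent.ES

/-! ### Translation of the variable -/

/-- `f (r + τ)` has `q`-expansion `s (u q)` where `u = exp (2πi r)`. -/
theorem isQExp_vadd_real {s : LaurentSeries ℂ} {f : ℍ → ℂ} (hs : IsQExp s f) (r : ℝ) (u : ℂˣ)
    (hu : (u : ℂ) = Complex.exp (2 * Real.pi * Complex.I * r)) :
    IsQExp (scale u s) (fun τ => f (r +ᵥ τ)) := by
  intro z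
  have h := hs (r +ᵥ z)
  have hq : Function.Periodic.qParam 1 (((r +ᵥ z : ℍ)) : ℂ) =
      (u : ℂ) * Function.Periodic.qParam 1 (z : ℂ) := by
    rw [hu, UpperHalfPlane.coe_vadd, Function.Periodic.qParam, Function.Periodic.qParam,
      ← Complex.exp_add]
    congr 1
    push_cast
    ring
  rw [hq] at h
  convert h using 2 with n
  rw [scale_coeff, mul_zpow]
  push_cast
  ring

variable {K : Type*} [Field K] (ι : K →+* ℂ) (m : ℍ → ℍ)

/-- `s'` is the transport of `s` along `m`: `ι s` is the `q`-expansion of some `f` and `ι s'` the
`q`-expansion of `f ∘ m`. -/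
def TransPair (s s' : LaurentSeries K) : Prop :=
  ∃ f : ℍ → ℂ, IsQExp (coeffMap ι s) f ∧ IsQExp (coeffMap ι s') (f ∘ m)

theorem coeffMap_injective_field : Function.Injective (coeffMap ι : LaurentSeries K → _) :=
  coeffMap_injective_of_injective ι ι.injective

namespace TransPair

variable {ι m} {s s' t t' : LaurentSeries K}

theorem add (h1 : TransPair ι m s s') (h2 : TransPair ι m t t') :
    TransPair ι m (s + t) (s' + t') := by
  obtain ⟨f, hf, hf'⟩ := h1
  obtain ⟨g, hg, hg'⟩ := h2
  refine ⟨f + g, ?_, ?_⟩
  · rw [map_add]; exact hf.add hg
  · rw [map_add]; exact hf'.add hg'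

theorem mul (h1 : TransPair ι m s s') (h2 : TransPair ι m t t') :
    TransPair ι m (s * t) (s' * t') := by
  obtain ⟨f, hf, hf'⟩ := h1
  obtain ⟨g, hg, hg'⟩ := h2
  refine ⟨f * g, ?_, ?_⟩
  · rw [map_mul]; exact hf.mul hg
  · rw [map_mul]; exact hf'.mul hg'

theorem const (a : K) : TransPair ι m (HahnSeries.C a) (HahnSeries.C a) := by
  refine ⟨fun _ => ι a, ?_, ?_⟩
  · rw [HahnSeries.C_apply, coeffMap_single, ← HahnSeries.C_apply]
    exact IsQExp.const (ι a)
  · rw [HahnSeries.C_apply, coeffMap_single, ← HahnSeries.C_apply]
    exact IsQExp.const (ι a)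

/-- the transport is unique -/
theorem unique (h1 : TransPair ι m s s') (h2 : TransPair ι m s t') : s' = t' := by
  obtain ⟨f, hf, hf'⟩ := h1
  obtain ⟨g, hg, hg'⟩ := h2
  have hfg : f = g := hf.fun_unique hg
  subst hfg
  exact coeffMap_injective_field ι (hf'.series_unique hg')

/-- the transport is injective when `m` is surjective -/
theorem injective (hm : Function.Surjective m) (h1 : TransPair ι m s s')
    (h2 : TransPair ι m t s') : s = t := by
  obtain ⟨f, hf, hf'⟩ := h1
  obtain ⟨g, hg, hg'⟩ := h2
  have h : f ∘ m = g ∘ m := hf'.fun_unique hg'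
  have hfg : f = g := by
    funext z
    obtain ⟨w, rfl⟩ := hm z
    exact congrFun h w
  subst hfg
  exact coeffMap_injective_field ι (hf.series_unique hg)

end TransPair

/-- The subalgebra of the series having a transport along `m`. -/
def transSub : Subalgebra K (LaurentSeries K) where
  carrier := {s | ∃ s', TransPair ι m s s'}
  mul_mem' := by
    rintro a b ⟨a', ha⟩ ⟨b', hb⟩
    exact ⟨a' * b', ha.mul hb⟩
  add_mem' := by
    rintro a b ⟨a', ha⟩ ⟨b', hb⟩
    exact ⟨a' + b', ha.add hb⟩
  algebraMap_mem' := by
    intro a
    refine ⟨HahnSeries.C a, ?_⟩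
    rw [algebraMap_laurentSeries_eq_single, ← HahnSeries.C_apply]
    exact TransPair.const a

theorem mem_transSub {s : LaurentSeries K} : s ∈ transSub ι m ↔ ∃ s', TransPair ι m s s' :=
  Iff.rfl

/-- The transport of an element of `transSub`. -/
def transFun (s : transSub ι m) : LaurentSeries K := Classical.choose s.2

theorem transFun_spec (s : transSub ι m) : TransPair ι m (s : LaurentSeries K) (transFun ι m s) :=
  Classical.choose_spec s.2

theorem transFun_eq {s : transSub ι m} {s' : LaurentSeries K}
    (h : TransPair ι m (s : LaurentSeries K) s') : transFun ι m s = s' :=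
  (transFun_spec ι m s).unique h

/-- The transport, as an algebra homomorphism. -/
def transHom : transSub ι m →ₐ[K] LaurentSeries K where
  toFun := transFun ι m
  map_one' := by
    apply transFun_eq
    have h := TransPair.const (ι := ι) (m := m) (1 : K)
    rwa [map_one] at h
  map_mul' a b := transFun_eq ι m ((transFun_spec ι m a).mul (transFun_spec ι m b))
  map_zero' := by
    apply transFun_eq
    have h := TransPair.const (ι := ι) (m := m) (0 : K)
    rwa [map_zero] at h
  map_add' a b := transFun_eq ι m ((transFun_spec ι m a).add (transFun_spec ι m b))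
  commutes' a := by
    apply transFun_eq
    show TransPair ι m (algebraMap K (LaurentSeries K) a) (algebraMap K (LaurentSeries K) a)
    rw [algebraMap_laurentSeries_eq_single, ← HahnSeries.C_apply]
    exact TransPair.const a

theorem transHom_apply_of_pair {s s' : LaurentSeries K} (h : TransPair ι m s s') :
    transHom ι m ⟨s, s', h⟩ = s' :=
  transFun_eq ι m h

theorem transHom_injective (hm : Function.Surjective m) :
    Function.Injective (transHom ι m) := by
  intro a b hab
  apply Subtype.ext
  have ha := transFun_spec ι m a
  have hb := transFun_spec ι m b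
  have hab' : transFun ι m a = transFun ι m b := hab
  rw [hab'] at ha
  exact ha.injective hm hb

/-- The field generated by the series having a transport along `m`. -/
abbrev transField : IntermediateField K (LaurentSeries K) :=
  IntermediateField.adjoin K (transSub ι m : Set (LaurentSeries K))

theorem mem_transField_of_pair {s s' : LaurentSeries K} (h : TransPair ι m s s') :
    s ∈ transField ι m :=
  IntermediateField.subset_adjoin K _ ⟨s', h⟩

open scoped IntermediateField.algebraAdjoinAdjoin in
/-- auxiliary: the transport on `Algebra.adjoin K (transSub ι m)` -/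
def transHomAdjoin :
    Algebra.adjoin K (transSub ι m : Set (LaurentSeries K)) →ₐ[K] LaurentSeries K :=
  (transHom ι m).comp (Subalgebra.inclusion (le_of_eq (Algebra.adjoin_eq (transSub ι m))))

theorem transHomAdjoin_injective (hm : Function.Surjective m) :
    Function.Injective (transHomAdjoin ι m) :=
  (transHom_injective ι m hm).comp
    (Subalgebra.inclusion_injective (le_of_eq (Algebra.adjoin_eq (transSub ι m))))

open scoped IntermediateField.algebraAdjoinAdjoin in
/-- The transport on the field generated by the transportable series (`m` surjective). -/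
def transFieldHom (hm : Function.Surjective m) : transField ι m →ₐ[K] LaurentSeries K :=
  IsFractionRing.liftAlgHom (K := transField ι m) (transHomAdjoin_injective ι m hm)

open scoped IntermediateField.algebraAdjoinAdjoin in
theorem transFieldHom_apply_of_pair (hm : Function.Surjective m) {s s' : LaurentSeries K}
    (h : TransPair ι m s s') :
    transFieldHom ι m hm ⟨s, mem_transField_of_pair ι m h⟩ = s' := by
  have hs : s ∈ Algebra.adjoin K (transSub ι m : Set (LaurentSeries K)) :=
    Algebra.subset_adjoin ⟨s', h⟩
  have e : (⟨s, mem_transField_of_pair ι m h⟩ : transField ι m) =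
      algebraMap (Algebra.adjoin K (transSub ι m : Set (LaurentSeries K))) (transField ι m)
        ⟨s, hs⟩ := rfl
  rw [e, transFieldHom, IsFractionRing.liftAlgHom_apply, IsFractionRing.lift_algebraMap]
  exact transHom_apply_of_pair ι m h

end Fermat.Agent.DS.ES
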