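import Mathlib
import Fermat.Agent.DS.X1.Defs
import Fermat.Agent.DS.ES.Transport
import Fermat.Agent.DS.ES.GeneratorsGen
import Fermat.Agent.X0.Psi
import Fermat.Agent.X0.KRat

/-!
# Programme III (S48), J1-port leaf ES₁: the Atkin–Lehner embedding of the level `(M; ℓ)` field

`M ≥ 1`, `ℓ` prime to `M`, `u M + v ℓ = 1`.  Put `γ₀ = [1, -u; M, vℓ] ∈ Γ₁(M)`,
`γ' = [ℓ, -u; M, v] ∈ Γ₀(M)`; then `ℓ · γ₀ (ℓ τ) = γ' τ`.  With `m₀ τ := γ₀ (ℓ τ)` the analytic
transport along `m₀` (`Transport.lean`) gives a `ℚ̄`-algebra embedding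

  `Φ₀ : K1LevBar M ℓ → ℚ̄((q))`  with  `Φ₀ (α x) = x(q^ℓ)`,  `Φ₀ (β x) = ⟨ℓ⟩ x`   (`x ∈ K1Bar M`),

given the analytic inputs `WeberAnalytic M` (AN-1/AN-4: the Weber functions `W_a` are the
`q`-expansions of functions `W x : ℍ → ℂ` with `W x (γ τ) = W (x · a_γ) τ` for `γ ∈ Γ₀(M)`) and the
diamond automorphism `δ = ⟨ℓ⟩` of `K1Bar M` (`W_a ↦ W_{ℓ a}`, `j(q^d) ↦ j(q^d)`).
-/

set_option autoImplicit false
set_option linter.unusedSectionVars false
set_option linter.style.haveILetI false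

noncomputable section

namespace Fermat.Agent.DS.ES

open UpperHalfPlane HahnSeries ModularCurve IntermediateField Fermat.Agent.X0 Fermat.Agent.Igusa
  Fermat.Agent.ES Fermat.Agent.DS.X1 Fermat.Agent.S23 Fermat.Agent.S23.PrimEltQExp
open scoped MatrixGroups

/-! ### The matrices -/

section Matrices

variable (M ℓ : ℕ) [NeZero M] [NeZero ℓ] (u v : ℤ) (huv : u * M + v * ℓ = 1)

/-- `γ₀ = [1, -u; M, vℓ] ∈ Γ₁(M)`. -/
def gammaZero : SL(2, ℤ) :=
  ⟨!![1, -u; (M : ℤ), v * ℓ], by rw [Matrix.det_fin_two_of]; linarith⟩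

/-- `γ' = [ℓ, -u; M, v] ∈ Γ₀(M)`, upper left entry `ℓ`. -/
def gammaPrime : SL(2, ℤ) :=
  ⟨!![(ℓ : ℤ), -u; (M : ℤ), v], by rw [Matrix.det_fin_two_of]; linarith⟩

theorem gammaZero_mem_Gamma0 : gammaZero M ℓ u v huv ∈ CongruenceSubgroup.Gamma0 M := by
  rw [CongruenceSubgroup.Gamma0_mem]
  show (((M : ℤ)) : ZMod M) = 0
  simp

theorem gammaPrime_mem_Gamma0 : gammaPrime M ℓ u v huv ∈ CongruenceSubgroup.Gamma0 M := by
  rw [CongruenceSubgroup.Gamma0_mem]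
  show (((M : ℤ)) : ZMod M) = 0
  simp

@[simp] theorem gammaZero_zero_zero : (gammaZero M ℓ u v huv) 0 0 = 1 := rfl
@[simp] theorem gammaPrime_zero_zero : (gammaPrime M ℓ u v huv) 0 0 = (ℓ : ℤ) := rfl

/-- `ℓ · γ₀ (ℓ τ) = γ' τ`. -/
theorem scaleH_gammaZero_smul (τ : ℍ) :
    scaleH ℓ (gammaZero M ℓ u v huv • scaleH ℓ τ) = gammaPrime M ℓ u v huv • τ := by
  apply UpperHalfPlane.ext
  rw [coe_scaleH, coe_specialLinearGroup_apply, coe_specialLinearGroup_apply, coe_scaleH]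
  have h00 : (gammaZero M ℓ u v huv) 0 0 = 1 := rfl
  have h01 : (gammaZero M ℓ u v huv) 0 1 = -u := rfl
  have h10 : (gammaZero M ℓ u v huv) 1 0 = (M : ℤ) := rfl
  have h11 : (gammaZero M ℓ u v huv) 1 1 = v * ℓ := rfl
  have g00 : (gammaPrime M ℓ u v huv) 0 0 = (ℓ : ℤ) := rfl
  have g01 : (gammaPrime M ℓ u v huv) 0 1 = -u := rfl
  have g10 : (gammaPrime M ℓ u v huv) 1 0 = (M : ℤ) := rfl
  have g11 : (gammaPrime M ℓ u v huv) 1 1 = v := rfl
  rw [h00, h01, h10, h11, g00, g01, g10, g11]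
  have hℓ : (ℓ : ℂ) ≠ 0 := Nat.cast_ne_zero.mpr (NeZero.ne ℓ)
  have hτ := UpperHalfPlane.denom_ne_zero (gammaPrime M ℓ u v huv) τ
  have hden' : ((M : ℂ) * (τ : ℂ) + (v : ℂ)) ≠ 0 := by
    have h := hτ
    rw [UpperHalfPlane.denom] at h
    simpa [g10, g11] using h
  simp only [algebraMap_int_eq, eq_intCast]
  push_cast
  have hden : (M : ℂ) * ((ℓ : ℂ) * (τ : ℂ)) + (v : ℂ) * (ℓ : ℂ) =
      (ℓ : ℂ) * ((M : ℂ) * (τ : ℂ) + (v : ℂ)) := by ring
  rw [hden]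
  field_simp

/-- `m₀ τ = γ₀ (ℓ τ)`. -/
def mZero (τ : ℍ) : ℍ := gammaZero M ℓ u v huv • scaleH ℓ τ

theorem scaleH_mZero (τ : ℍ) :
    scaleH ℓ (mZero M ℓ u v huv τ) = gammaPrime M ℓ u v huv • τ :=
  scaleH_gammaZero_smul M ℓ u v huv τ

theorem mZero_surjective : Function.Surjective (mZero M ℓ u v huv) := by
  intro w
  refine ⟨unscaleH ℓ ((gammaZero M ℓ u v huv)⁻¹ • w), ?_⟩
  unfold mZero
  have h : scaleH ℓ (unscaleH ℓ ((gammaZero M ℓ u v huv)⁻¹ • w)) =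
      (gammaZero M ℓ u v huv)⁻¹ • w := scaleH_unscaleH ℓ _
  rw [h, smul_inv_smul]

end Matrices

/-! ### The analytic inputs (AN-1 / AN-4) -/

/-- **Analytic inputs for the Weber functions** (to be supplied by X1-AN): functions
`W x : ℍ → ℂ`, `x ∈ ℤ/M`, such that `weberQ M a` is the `q`-expansion of `W a` and
`W x (γ τ) = W (x · a_γ) τ` for `γ = [a_γ, b; c, d] ∈ Γ₀(M)`.  (`W x τ = f₀(x τ; ℤMτ+ℤ)`; then
`(Λ_{Mγτ}, γτ) ∼ (Λ_{Mτ}, a_γ τ)`.) -/
structure WeberAnalytic (M : ℕ) [NeZero M] where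
  /-- the analytic Weber functions -/
  W : ZMod M → ℍ → ℂ
  isQExp : ∀ a : ℕ, 0 < a → a < M →
    IsQExp (coeffMap (algebraMap ℚ ℂ) (weberQ M a)) (W (a : ZMod M))
  slash : ∀ γ : SL(2, ℤ), γ ∈ CongruenceSubgroup.Gamma0 M → ∀ (x : ZMod M) (τ : ℍ),
    W x (γ • τ) = W (x * ((γ 0 0 : ℤ) : ZMod M)) τ

section Pairs

variable {L : Type*} [Field L] [Algebra ℚ L] (ι : L →+* ℂ)
variable (M ℓ : ℕ) [NeZero M] [NeZero ℓ] (u v : ℤ) (huv : u * M + v * ℓ = 1)
  (An : WeberAnalytic M)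

local notation "m₀" => mZero M ℓ u v huv

theorem coeffMap_iota_coeffEmb (s : LaurentSeries ℚ) :
    coeffMap ι (coeffEmb L s) = coeffMap (algebraMap ℚ ℂ) s := by
  rw [coeffEmb, coeffMap_coeffMap]
  exact coeffMap_congr (Subsingleton.elim _ _) s

theorem qExpand_qExpand_rat (a b c : ℕ) [NeZero a] [NeZero b] [NeZero c] (h : c = a * b)
    (x : LaurentSeries ℚ) : qExpand ℚ a (qExpand ℚ b x) = qExpand ℚ c x := by
  subst h
  exact qExpand_qExpand b a x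

theorem scaleH_scaleH (a b c : ℕ) [NeZero a] [NeZero b] [NeZero c] (h : c = a * b) (τ : ℍ) :
    scaleH a (scaleH b τ) = scaleH c τ := by
  apply UpperHalfPlane.ext
  rw [coe_scaleH, coe_scaleH, coe_scaleH, h]
  push_cast
  ring

/-- `f (d z)` has `q`-expansion `s(q^d)`, in `scaleH` form. -/
theorem isQExp_scaleH {s : LaurentSeries ℂ} {f : ℍ → ℂ} (hs : IsQExp s f) (d : ℕ) [NeZero d] :
    IsQExp (qExpand ℂ d s) (fun z => f (scaleH d z)) :=
  hs.scale d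

/-- (g1) `j(q^d) ↦ j(q^{dℓ})`, `d ∣ M`. -/
theorem transPair_j (d : ℕ) [NeZero d] (hd : d ∣ M) :
    TransPair ι m₀ (coeffEmb L (qExpand ℚ d jq))
      (coeffEmb L (qExpand ℚ ℓ (qExpand ℚ d jq))) := by
  haveI : NeZero (ℓ * d) := ⟨mul_ne_zero (NeZero.ne ℓ) (NeZero.ne d)⟩
  refine ⟨fun z => jAn (scaleH d z), ?_, ?_⟩
  · rw [coeffMap_iota_coeffEmb ι]
    exact isQExp_jAn_scale d
  · rw [coeffMap_iota_coeffEmb ι, qExpand_qExpand_rat ℓ d (ℓ * d) rfl]
    have h := isQExp_jAn_scale (ℓ * d)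
    have e : ((fun z => jAn (scaleH d z)) ∘ m₀) = fun z => jAn (scaleH (ℓ * d) z) := by
      funext τ
      show jAn (scaleH d (gammaZero M ℓ u v huv • scaleH ℓ τ)) = _
      rw [jAn_scaleH_smul hd _ (gammaZero_mem_Gamma0 M ℓ u v huv),
        scaleH_scaleH d ℓ (ℓ * d) (mul_comm ℓ d)]
    rw [e]
    exact h

/-- (g2) `j(q^{dℓ}) ↦ j(q^d)`, `d ∣ M`. -/
theorem transPair_j_beta (d : ℕ) [NeZero d] (hd : d ∣ M) :
    TransPair ι m₀ (coeffEmb L (qExpand ℚ ℓ (qExpand ℚ d jq)))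
      (coeffEmb L (qExpand ℚ d jq)) := by
  haveI : NeZero (ℓ * d) := ⟨mul_ne_zero (NeZero.ne ℓ) (NeZero.ne d)⟩
  refine ⟨fun z => jAn (scaleH (ℓ * d) z), ?_, ?_⟩
  · rw [coeffMap_iota_coeffEmb ι, qExpand_qExpand_rat ℓ d (ℓ * d) rfl]
    exact isQExp_jAn_scale (ℓ * d)
  · rw [coeffMap_iota_coeffEmb ι]
    have e : ((fun z => jAn (scaleH (ℓ * d) z)) ∘ m₀) = fun z => jAn (scaleH d z) := by
      funext τ
      show jAn (scaleH (ℓ * d) (m₀ τ)) = _
      rw [← scaleH_scaleH d ℓ (ℓ * d) (mul_comm ℓ d), scaleH_mZero,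
        jAn_scaleH_smul hd _ (gammaPrime_mem_Gamma0 M ℓ u v huv)]
    rw [e]
    exact isQExp_jAn_scale d

include An in
/-- (g3) `W_a ↦ W_a(q^ℓ)`. -/
theorem transPair_weber (a : ℕ) (ha : 0 < a) (haM : a < M) :
    TransPair ι m₀ (coeffEmb L (weberQ M a)) (coeffEmb L (qExpand ℚ ℓ (weberQ M a))) := by
  refine ⟨An.W (a : ZMod M), ?_, ?_⟩
  · rw [coeffMap_iota_coeffEmb ι]
    exact An.isQExp a ha haM
  · rw [coeffMap_iota_coeffEmb ι, coeffMap_qExpand]
    have h := isQExp_scaleH (An.isQExp a ha haM) ℓ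
    have e : (An.W (a : ZMod M) ∘ m₀) = fun z => An.W (a : ZMod M) (scaleH ℓ z) := by
      funext τ
      show An.W (a : ZMod M) (gammaZero M ℓ u v huv • scaleH ℓ τ) = _
      rw [An.slash _ (gammaZero_mem_Gamma0 M ℓ u v huv), gammaZero_zero_zero, Int.cast_one,
        mul_one]
    rw [e]
    exact h

/-- (g4) `W_a(q^ℓ) ↦ W_{a'}` where `W a' = W (a ℓ)` analytically. -/
theorem transPair_weber_beta (a a' : ℕ) (ha : 0 < a) (haM : a < M) (ha' : 0 < a') (haM' : a' < M)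
    (hW : An.W (a' : ZMod M) = An.W ((a : ZMod M) * (ℓ : ZMod M))) :
    TransPair ι m₀ (coeffEmb L (qExpand ℚ ℓ (weberQ M a))) (coeffEmb L (weberQ M a')) := by
  refine ⟨fun z => An.W (a : ZMod M) (scaleH ℓ z), ?_, ?_⟩
  · rw [coeffMap_iota_coeffEmb ι, coeffMap_qExpand]
    exact isQExp_scaleH (An.isQExp a ha haM) ℓ
  · rw [coeffMap_iota_coeffEmb ι]
    have e : ((fun z => An.W (a : ZMod M) (scaleH ℓ z)) ∘ m₀) = An.W (a' : ZMod M) := by
      funext τ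
      show An.W (a : ZMod M) (scaleH ℓ (m₀ τ)) = _
      rw [scaleH_mZero, An.slash _ (gammaPrime_mem_Gamma0 M ℓ u v huv), gammaPrime_zero_zero, hW]
      simp
    rw [e]
    exact An.isQExp a' ha' haM'

end Pairs

/-! ### The level `(M; ℓ)` field lies in the transport field -/

section Embedding

variable {L : Type*} [Field L] [Algebra ℚ L] (ι : L →+* ℂ)
variable (M ℓ : ℕ) [NeZero M] [hℓ : Fact ℓ.Prime] [NeZero ℓ] (u v : ℤ)
  (huv : u * M + v * ℓ = 1) (An : WeberAnalytic M)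

local notation "m₀" => mZero M ℓ u v huv

/-- the function field of `X(Γ₁(M) ∩ Γ₀(ℓ))` over `ℚ̄` -/
abbrev K1LevBar : IntermediateField Kb (LaurentSeries Kb) :=
  laurentBaseChange Kb (K1Lev M ℓ)

/-- the function field of `X(Γ₁(M) ∩ Γ₀(ℓ))` over a general field `L` -/
abbrev K1LevL (L : Type*) [Field L] [Algebra ℚ L] : IntermediateField L (LaurentSeries L) :=
  laurentBaseChange L (K1Lev M ℓ)

include huv in
theorem coprime_of_bezout : Nat.Coprime M ℓ := by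
  have h : IsCoprime (M : ℤ) (ℓ : ℤ) := ⟨u, v, huv⟩
  exact Nat.isCoprime_iff_coprime.mp h

/-- the index `a ℓ mod M` -/
def diaIndex (a : ℕ) : ℕ := (a * ℓ) % M

include huv in
theorem diaIndex_pos {a : ℕ} (ha : 0 < a) (haM : a < M) : 0 < diaIndex M ℓ a := by
  rw [diaIndex, Nat.pos_iff_ne_zero]
  intro h
  have hdvd : M ∣ a * ℓ := Nat.dvd_of_mod_eq_zero h
  have := (coprime_of_bezout M ℓ u v huv).dvd_of_dvd_mul_right hdvd
  exact absurd (Nat.le_of_dvd ha this) (not_le.mpr haM)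

theorem diaIndex_lt (a : ℕ) : diaIndex M ℓ a < M := Nat.mod_lt _ (NeZero.pos M)

theorem diaIndex_cast (a : ℕ) : ((diaIndex M ℓ a : ℕ) : ZMod M) = (a : ZMod M) * (ℓ : ZMod M) := by
  rw [diaIndex, ZMod.natCast_mod, Nat.cast_mul]

include An in
/-- the generators of `K1 M` are transportable: first copy -/
theorem coeffEmb_gen_mem_transField {s : LaurentSeries ℚ}
    (hs : s ∈ divisorExpansions M ∪ weberSet M) :
    coeffEmb L s ∈ transField ι m₀ := by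
  rcases hs with ⟨d, hd, hdM, rfl⟩ | ⟨a, ha, haM, rfl⟩
  · haveI := hd
    exact mem_transField_of_pair _ _ (transPair_j ι M ℓ u v huv d hdM)
  · exact mem_transField_of_pair _ _ (transPair_weber ι M ℓ u v huv An a ha haM)

include An in
/-- the generators of `K1 M` are transportable: second copy (after `q ↦ q^ℓ`) -/
theorem coeffEmb_qExpand_gen_mem_transField {s : LaurentSeries ℚ}
    (hs : s ∈ divisorExpansions M ∪ weberSet M) :
    coeffEmb L (qExpand ℚ ℓ s) ∈ transField ι m₀ := by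
  rcases hs with ⟨d, hd, hdM, rfl⟩ | ⟨a, ha, haM, rfl⟩
  · haveI := hd
    exact mem_transField_of_pair _ _ (transPair_j_beta ι M ℓ u v huv d hdM)
  · exact mem_transField_of_pair _ _
      (transPair_weber_beta ι M ℓ u v huv An a (diaIndex M ℓ a) ha haM
        (diaIndex_pos M ℓ u v huv ha haM) (diaIndex_lt M ℓ a)
        (by rw [diaIndex_cast]))

theorem qExpand_algebraMap (a : L) :
    qExpand L ℓ (algebraMap L (LaurentSeries L) a) = algebraMap L (LaurentSeries L) a := by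
  rw [algebraMap_laurentSeries_eq_single, qExpand_single, mul_zero]

theorem coeffEmb_qExpand (x : LaurentSeries ℚ) :
    coeffEmb L (qExpand ℚ ℓ x) = qExpand L ℓ (coeffEmb L x) :=
  coeffMap_qExpand _ ℓ x

include An in
theorem K1LevL_le_transField : K1LevL M ℓ L ≤ transField ι m₀ := by
  intro x hx
  let T : Subfield (LaurentSeries L) := (transField ι m₀).toSubfield
  have hT : ∀ a : L, algebraMap L (LaurentSeries L) a ∈ T :=
    fun a => (transField ι m₀).algebraMap_mem a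
  have hK1 : ∀ z ∈ K1 M, coeffEmb L z ∈ T := fun z hz =>
    coeffEmb_mem_of_mem_adjoin (divisorExpansions M ∪ weberSet M) T hT
      (fun s hs => coeffEmb_gen_mem_transField ι M ℓ u v huv An hs) hz
  have hK1β : ∀ z ∈ K1 M, coeffEmb L (qExpand ℚ ℓ z) ∈ T := by
    intro z hz
    let T₂ : Subfield (LaurentSeries L) := T.comap (qExpand L ℓ)
    have hT₂ : ∀ a : L, algebraMap L (LaurentSeries L) a ∈ T₂ := by
      intro a
      show qExpand L ℓ (algebraMap L (LaurentSeries L) a) ∈ T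
      rw [qExpand_algebraMap]
      exact hT a
    have h := coeffEmb_mem_of_mem_adjoin (divisorExpansions M ∪ weberSet M) T₂ hT₂
      (fun s hs => by
        show qExpand L ℓ (coeffEmb L s) ∈ T
        rw [← coeffEmb_qExpand]
        exact coeffEmb_qExpand_gen_mem_transField ι M ℓ u v huv An hs) hz
    rw [coeffEmb_qExpand]
    exact h
  refine mem_of_mem_laurentBaseChange_adjoin
    (divisorExpansions (M * ℓ) ∪ (K1 M : Set (LaurentSeries ℚ)) ∪
      (qExpand ℚ ℓ '' (K1 M : Set (LaurentSeries ℚ)))) T hT ?_ hx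
  rintro s ((⟨d', hd', hdvd, rfl⟩ | hs) | ⟨z, hz, rfl⟩)
  · -- `j(q^{d'})`, `d' ∣ M ℓ`
    haveI := hd'
    obtain ⟨d₁, d₂, h₁, h₂, rfl⟩ := (Nat.dvd_mul).mp hdvd
    rcases (Nat.dvd_prime hℓ.out).mp h₂ with rfl | rfl
    · have hd₁ : NeZero d₁ := ⟨fun h => by
        rw [h, zero_mul] at hd'
        exact hd'.out rfl⟩
      haveI := hd₁
      have e : qExpand ℚ (d₁ * 1) jq = qExpand ℚ d₁ jq := qExpand_congr (mul_one d₁) jq
      rw [e]
      exact hK1 _ (IntermediateField.subset_adjoin ℚ _ (Or.inl ⟨d₁, hd₁, h₁, rfl⟩))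
    · have hd₁ : NeZero d₁ := ⟨fun h => by
        rw [h, zero_mul] at hd'
        exact hd'.out rfl⟩
      haveI := hd₁
      have e : qExpand ℚ (d₁ * d₂) jq = qExpand ℚ d₂ (qExpand ℚ d₁ jq) :=
        (qExpand_qExpand_rat d₂ d₁ (d₁ * d₂) (mul_comm d₁ d₂) jq).symm
      rw [e]
      exact hK1β _ (IntermediateField.subset_adjoin ℚ _ (Or.inl ⟨d₁, hd₁, h₁, rfl⟩))
  · exact hK1 s hs
  · exact hK1β z hz

/-- **The Atkin–Lehner embedding** `Φ₀ : K1LevBar M ℓ → ℚ̄((q))`. -/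
def atkinEmb : K1LevL M ℓ L →ₐ[L] LaurentSeries L :=
  (transFieldHom ι m₀ (mZero_surjective M ℓ u v huv)).comp
    (IntermediateField.inclusion (K1LevL_le_transField ι M ℓ u v huv An))

theorem atkinEmb_of_pair {s s' : LaurentSeries L} (h : TransPair ι m₀ s s')
    (hs : s ∈ K1LevL M ℓ L) : atkinEmb ι M ℓ u v huv An ⟨s, hs⟩ = s' :=
  transFieldHom_apply_of_pair ι m₀ (mZero_surjective M ℓ u v huv) h

/-- ring-hom form of `atkinEmb` (convenient when `L = ℚ`, where the `ℚ`-algebra structures on the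
subfield are only propositionally equal) -/
def atkinEmbRing : K1LevL M ℓ L →+* LaurentSeries L :=
  (atkinEmb ι M ℓ u v huv An).toRingHom

theorem atkinEmbRing_of_pair {s s' : LaurentSeries L} (h : TransPair ι m₀ s s')
    (hs : s ∈ K1LevL M ℓ L) : atkinEmbRing ι M ℓ u v huv An ⟨s, hs⟩ = s' :=
  atkinEmb_of_pair ι M ℓ u v huv An h hs

end Embedding

end Fermat.Agent.DS.ES
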