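import Mathlib
import Fermat.Agent.DS.ES.AtkinEmbedding

/-!
# Programme III (S48), X1-IRR leaf IRR-4: the second embedding `ι'` of the level `(M; p)` field,
over `ℚ`

`atkinEmbQ : K1Lev M ℓ →+* ℚ((q))` (the rational form of `atkinEmb`, `AtkinEmbedding.lean` with
`L = ℚ`): the expansion of the level `(M; ℓ)` functions at the cusp `((Tate(q^M), q), C = ⟨q^{M/ℓ}⟩)`
in the variable `t`, `t^ℓ = q`, renamed `q`:

* `atkinEmbQ_of_mem_K1` : `atkinEmbQ x = x(q^ℓ)` for `x ∈ K1 M`            (`ι' ∘ α = (q ↦ t^ℓ)`);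
* `atkinEmbQ_qExpand`   : `atkinEmbQ (x(q^ℓ)) = d x` for `x ∈ K1 M` and any ring hom
  `d : K1 M →+* ℚ((q))` with `d j(q^e) = j(q^e)` (`e ∣ M`), `d W_a = W_{aℓ mod M}`
  (the diamond `⟨ℓ⟩`, AN-4)                                               (`ι' ∘ β = ⟨ℓ⟩`).

Input: the analytic data `WeberAnalytic M` (AN-1).
-/

set_option autoImplicit false
set_option linter.unusedSectionVars false
set_option linter.style.haveILetI false

noncomputable section

namespace Fermat.Agent.DS.ES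

open HahnSeries ModularCurve IntermediateField Fermat.Agent.DS.X1

variable (M ℓ : ℕ) [NeZero M] [hℓ : Fact ℓ.Prime] [NeZero ℓ] (u v : ℤ)
  (huv : u * M + v * ℓ = 1) (An : WeberAnalytic M)

theorem coeffEmb_rat (x : LaurentSeries ℚ) : coeffEmb ℚ x = x := by
  rw [coeffEmb]
  have : algebraMap ℚ ℚ = RingHom.id ℚ := rfl
  rw [this, coeffMap_id]

theorem mem_laurentBaseChange_rat {F₀ : IntermediateField ℚ (LaurentSeries ℚ)}
    {x : LaurentSeries ℚ} (hx : x ∈ F₀) : x ∈ laurentBaseChange ℚ F₀ := by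
  have := coeffEmb_mem_laurentBaseChange ℚ hx
  rwa [coeffEmb_rat] at this

/-- the inclusion `K1Lev M ℓ → K1LevL M ℓ ℚ` as a ring hom -/
def inclQ : K1Lev M ℓ →+* K1LevL M ℓ ℚ where
  toFun x := ⟨(x : LaurentSeries ℚ), mem_laurentBaseChange_rat x.2⟩
  map_one' := rfl
  map_mul' _ _ := rfl
  map_zero' := rfl
  map_add' _ _ := rfl

/-- **`ι'`**: the second embedding of `K1Lev M ℓ` into `ℚ((q))`. -/
def atkinEmbQ : K1Lev M ℓ →+* LaurentSeries ℚ :=
  (atkinEmbRing (algebraMap ℚ ℂ) M ℓ u v huv An).comp (inclQ M ℓ)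

theorem atkinEmbQ_apply (x : K1Lev M ℓ) :
    atkinEmbQ M ℓ u v huv An x =
      atkinEmbRing (algebraMap ℚ ℂ) M ℓ u v huv An
        ⟨(x : LaurentSeries ℚ), mem_laurentBaseChange_rat x.2⟩ := rfl

/-- on the generators of `K1 M`: `ι' s = s(q^ℓ)` -/
theorem atkinEmbQ_gen {s : LaurentSeries ℚ} (hs : s ∈ divisorExpansions M ∪ weberSet M)
    (hmem : s ∈ K1Lev M ℓ) :
    atkinEmbQ M ℓ u v huv An ⟨s, hmem⟩ = qExpand ℚ ℓ s := by
  rw [atkinEmbQ_apply]
  rcases hs with ⟨d, hd, hdM, rfl⟩ | ⟨a, ha, haM, rfl⟩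
  · haveI := hd
    have h := transPair_j (algebraMap ℚ ℂ) M ℓ u v huv d hdM
    rw [coeffEmb_rat, coeffEmb_rat] at h
    exact atkinEmbRing_of_pair (algebraMap ℚ ℂ) M ℓ u v huv An h _
  · have h := transPair_weber (algebraMap ℚ ℂ) M ℓ u v huv An a ha haM
    rw [coeffEmb_rat, coeffEmb_rat] at h
    exact atkinEmbRing_of_pair (algebraMap ℚ ℂ) M ℓ u v huv An h _

/-- on the `β`-images of the generators: `ι' (j(q^{dℓ})) = j(q^d)`, `ι' (W_a(q^ℓ)) = W_{aℓ mod M}` -/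
theorem atkinEmbQ_gen_beta_j (d : ℕ) [NeZero d] (hdM : d ∣ M)
    (hmem : qExpand ℚ ℓ (qExpand ℚ d jq) ∈ K1Lev M ℓ) :
    atkinEmbQ M ℓ u v huv An ⟨qExpand ℚ ℓ (qExpand ℚ d jq), hmem⟩ = qExpand ℚ d jq := by
  rw [atkinEmbQ_apply]
  have h := transPair_j_beta (algebraMap ℚ ℂ) M ℓ u v huv d hdM
  rw [coeffEmb_rat, coeffEmb_rat] at h
  exact atkinEmbRing_of_pair (algebraMap ℚ ℂ) M ℓ u v huv An h _

theorem atkinEmbQ_gen_beta_weber (a : ℕ) (ha : 0 < a) (haM : a < M)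
    (hmem : qExpand ℚ ℓ (weberQ M a) ∈ K1Lev M ℓ) :
    atkinEmbQ M ℓ u v huv An ⟨qExpand ℚ ℓ (weberQ M a), hmem⟩ = weberQ M (diaIndex M ℓ a) := by
  rw [atkinEmbQ_apply]
  have h := transPair_weber_beta (algebraMap ℚ ℂ) M ℓ u v huv An a (diaIndex M ℓ a) ha haM
    (diaIndex_pos M ℓ u v huv ha haM) (diaIndex_lt M ℓ a) (by rw [diaIndex_cast])
  rw [coeffEmb_rat, coeffEmb_rat] at h
  exact atkinEmbRing_of_pair (algebraMap ℚ ℂ) M ℓ u v huv An h _

/-- Two ring homs out of `K1 M` into a field agreeing on the generators are equal. -/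
theorem ringHom_ext_K1 {E : Type*} [Field E] (f g : K1 M →+* E)
    (h : ∀ s (hs : s ∈ divisorExpansions M ∪ weberSet M),
      f ⟨s, IntermediateField.subset_adjoin ℚ _ hs⟩ =
        g ⟨s, IntermediateField.subset_adjoin ℚ _ hs⟩) : f = g := by
  let T : Subfield (LaurentSeries ℚ) := (RingHom.eqLocusField f g).map (SubringClass.subtype (K1 M))
  have hmem : ∀ x : K1 M, (x : LaurentSeries ℚ) ∈ T → f x = g x := by
    rintro x ⟨y, hy, hyx⟩
    have : y = x := Subtype.ext hyx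
    rw [← this]
    exact hy
  have hT : ∀ r : ℚ, algebraMap ℚ (LaurentSeries ℚ) r ∈ T := by
    intro r
    refine ⟨((r : ℚ) : K1 M), ?_, ?_⟩
    · show f ((r : ℚ) : K1 M) = g ((r : ℚ) : K1 M)
      rw [map_ratCast, map_ratCast]
    · show (((r : ℚ) : K1 M) : LaurentSeries ℚ) = algebraMap ℚ (LaurentSeries ℚ) r
      rw [eq_ratCast]
      rfl
  have hle : K1 M ≤ T.toIntermediateField hT := by
    rw [K1, IntermediateField.adjoin_le_iff]
    intro s hs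
    exact ⟨⟨s, IntermediateField.subset_adjoin ℚ _ hs⟩, h s hs, rfl⟩
  ext x
  exact hmem x (hle x.2)

/-- `ι' ∘ α = (q ↦ q^ℓ)` on `K1 M`. -/
theorem atkinEmbQ_of_mem_K1 (x : K1 M) :
    atkinEmbQ M ℓ u v huv An ⟨(x : LaurentSeries ℚ), K1_le_K1Lev M ℓ x.2⟩ =
      qExpand ℚ ℓ (x : LaurentSeries ℚ) := by
  have key : (atkinEmbQ M ℓ u v huv An).comp (alphaOne M ℓ) =
      (qExpand ℚ ℓ).comp (SubringClass.subtype (K1 M)) := by
    refine ringHom_ext_K1 M _ _ ?_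
    intro s hs
    exact atkinEmbQ_gen M ℓ u v huv An hs _
  exact congrArg (fun f : K1 M →+* LaurentSeries ℚ => f x) key

/-- `ι' ∘ β = ⟨ℓ⟩` on `K1 M`, for any ring hom `d` acting as the diamond `⟨ℓ⟩` on the
generators. -/
theorem atkinEmbQ_qExpand (d : K1 M →+* LaurentSeries ℚ)
    (hdj : ∀ s (hs : s ∈ divisorExpansions M),
      d ⟨s, IntermediateField.subset_adjoin ℚ _ (Or.inl hs)⟩ = s)
    (hdW : ∀ (a : ℕ) (ha : 0 < a) (haM : a < M),
      d ⟨weberQ M a, weberQ_mem_K1 M ha haM⟩ = weberQ M (diaIndex M ℓ a))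
    (x : K1 M) :
    atkinEmbQ M ℓ u v huv An ⟨qExpand ℚ ℓ (x : LaurentSeries ℚ), qExpand_mem_K1Lev M ℓ x.2⟩ =
      d x := by
  have key : (atkinEmbQ M ℓ u v huv An).comp (betaOne M ℓ) = d := by
    refine ringHom_ext_K1 M _ _ ?_
    rintro s (⟨e, he, heM, rfl⟩ | ⟨a, ha, haM, rfl⟩)
    · haveI := he
      rw [hdj _ ⟨e, he, heM, rfl⟩]
      exact atkinEmbQ_gen_beta_j M ℓ u v huv An e heM _
    · rw [hdW a ha haM]
      exact atkinEmbQ_gen_beta_weber M ℓ u v huv An a ha haM _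
  exact congrArg (fun f : K1 M →+* LaurentSeries ℚ => f x) key

end Fermat.Agent.DS.ES
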