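import Mathlib
import Fermat.Agent.DS.ES.AtkinEmbedding

/-!
# Programme III (S48), X1-AN leaf AN-4: the diamond operators by analytic transport

`M ≥ 1`, `γ ∈ Γ₀(M)` with upper left entry `c = γ₀₀` (a unit mod `M`), `L` any field with an
embedding `ι : L →+* ℂ`, `An : WeberAnalytic M`.  The analytic transport along `τ ↦ γ τ`
(`Transport.lean`) is an `L`-algebra automorphism

  `diamondGamma ι M An γ hγ : K1L M L ≃ₐ[L] K1L M L`,    `K1L M L = laurentBaseChange L (K1 M)`,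

with `j(q^d) ↦ j(q^d)` (`d ∣ M`) and `W_a ↦ W_{a c mod M}` (convention C4).  For `d ≥ 1` prime to
`M` and a Bezout relation `u M + v d = 1` the matrix `γ' = [d, -u; M, v]` gives the diamond
`⟨d⟩ = diamondL ι M d u v huv An`; it satisfies `IsDiamondAt` (`ProductFormulaOne.lean`) when
`L = ℚ̄`, `d = ℓ`.
-/

set_option autoImplicit false
set_option linter.unusedSectionVars false
set_option linter.style.haveILetI false

noncomputable section

namespace Fermat.Agent.DS.ES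

open UpperHalfPlane HahnSeries ModularCurve IntermediateField Fermat.Agent.X0 Fermat.Agent.Igusa
  Fermat.Agent.ES Fermat.Agent.DS.X1 Fermat.Agent.S23 Fermat.Agent.S23.PrimEltQExp
open scoped MatrixGroups

/-- `K1 M` over the coefficient field `L` -/
abbrev K1L (M : ℕ) [NeZero M] (L : Type*) [Field L] [Algebra ℚ L] :
    IntermediateField L (LaurentSeries L) :=
  laurentBaseChange L (K1 M)

/-- the index `a · c mod M`, `c ∈ ℤ/M` -/
def diaVal (M : ℕ) [NeZero M] (c : ZMod M) (a : ℕ) : ℕ := ((a : ZMod M) * c).val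

theorem diaVal_lt (M : ℕ) [NeZero M] (c : ZMod M) (a : ℕ) : diaVal M c a < M := ZMod.val_lt _

theorem diaVal_cast (M : ℕ) [NeZero M] (c : ZMod M) (a : ℕ) :
    ((diaVal M c a : ℕ) : ZMod M) = (a : ZMod M) * c := by
  rw [diaVal, ZMod.natCast_zmod_val]

theorem diaVal_pos (M : ℕ) [NeZero M] {c : ZMod M} (hc : IsUnit c) {a : ℕ} (ha : 0 < a)
    (haM : a < M) : 0 < diaVal M c a := by
  rw [diaVal, Nat.pos_iff_ne_zero, Ne, ZMod.val_eq_zero]
  intro h
  have h2 : (a : ZMod M) = 0 := by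
    have := hc.mul_left_eq_zero.mp h
    exact this
  rw [ZMod.natCast_eq_zero_iff] at h2
  exact absurd (Nat.le_of_dvd ha h2) (not_le.mpr haM)

theorem diaVal_natCast (M : ℕ) [NeZero M] (d a : ℕ) :
    diaVal M (d : ZMod M) a = diaIndex M d a := by
  rw [diaVal, diaIndex, ← Nat.cast_mul, ZMod.val_natCast]

/-- the upper left entry of `γ ∈ Γ₀(M)` is a unit mod `M` -/
theorem isUnit_upperLeft {M : ℕ} [NeZero M] {γ : SL(2, ℤ)}
    (hγ : γ ∈ CongruenceSubgroup.Gamma0 M) : IsUnit (((γ 0 0 : ℤ)) : ZMod M) := by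
  rw [CongruenceSubgroup.Gamma0_mem] at hγ
  have hdet := Matrix.SpecialLinearGroup.det_coe γ
  rw [Matrix.det_fin_two] at hdet
  have h2 : (((γ 0 0 : ℤ)) : ZMod M) * (((γ 1 1 : ℤ)) : ZMod M) = 1 := by
    have := congrArg (fun t : ℤ => (t : ZMod M)) hdet
    simp only [Int.cast_sub, Int.cast_mul, Int.cast_one] at this
    rw [hγ, mul_zero, sub_zero] at this
    exact this
  exact IsUnit.of_mul_eq_one _ h2

section Pairs

variable {L : Type*} [Field L] [Algebra ℚ L] (ι : L →+* ℂ)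
variable (M : ℕ) [NeZero M] (An : WeberAnalytic M)
  (γ : SL(2, ℤ)) (hγ : γ ∈ CongruenceSubgroup.Gamma0 M)

include hγ in
/-- `j(q^d) ↦ j(q^d)`, `d ∣ M`. -/
theorem transPair_j_smul (d : ℕ) [NeZero d] (hd : d ∣ M) :
    TransPair ι (fun τ : ℍ => γ • τ) (coeffEmb L (qExpand ℚ d jq))
      (coeffEmb L (qExpand ℚ d jq)) := by
  refine ⟨fun z => jAn (scaleH d z), ?_, ?_⟩
  · rw [coeffMap_iota_coeffEmb ι]
    exact isQExp_jAn_scale d
  · rw [coeffMap_iota_coeffEmb ι]
    have e : ((fun z => jAn (scaleH d z)) ∘ (fun τ : ℍ => γ • τ)) =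
        fun z => jAn (scaleH d z) := by
      funext τ
      show jAn (scaleH d (γ • τ)) = _
      rw [jAn_scaleH_smul hd γ hγ]
    rw [e]
    exact isQExp_jAn_scale d

include An hγ in
/-- `W_a ↦ W_{a γ₀₀ mod M}`. -/
theorem transPair_weber_smul (a : ℕ) (ha : 0 < a) (haM : a < M) :
    TransPair ι (fun τ : ℍ => γ • τ) (coeffEmb L (weberQ M a))
      (coeffEmb L (weberQ M (diaVal M (((γ 0 0 : ℤ)) : ZMod M) a))) := by
  refine ⟨An.W (a : ZMod M), ?_, ?_⟩
  · rw [coeffMap_iota_coeffEmb ι]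
    exact An.isQExp a ha haM
  · rw [coeffMap_iota_coeffEmb ι]
    have e : (An.W (a : ZMod M) ∘ (fun τ : ℍ => γ • τ)) =
        An.W ((diaVal M (((γ 0 0 : ℤ)) : ZMod M) a : ℕ) : ZMod M) := by
      funext τ
      show An.W (a : ZMod M) (γ • τ) = _
      rw [An.slash γ hγ, diaVal_cast]
    rw [e]
    exact An.isQExp _ (diaVal_pos M (isUnit_upperLeft hγ) ha haM) (diaVal_lt M _ a)

end Pairs

section Hom

variable {L : Type*} [Field L] [Algebra ℚ L] (ι : L →+* ℂ)
variable (M : ℕ) [NeZero M] (An : WeberAnalytic M)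
  (γ : SL(2, ℤ)) (hγ : γ ∈ CongruenceSubgroup.Gamma0 M)

theorem smul_surjective_upperHalfPlane : Function.Surjective (fun τ : ℍ => γ • τ) :=
  MulAction.surjective γ

include An hγ in
theorem K1L_le_transField_smul : K1L M L ≤ transField ι (fun τ : ℍ => γ • τ) := by
  intro x hx
  refine mem_of_mem_laurentBaseChange_adjoin (divisorExpansions M ∪ weberSet M)
    (transField ι (fun τ : ℍ => γ • τ)).toSubfield
    (fun a => (transField ι (fun τ : ℍ => γ • τ)).algebraMap_mem a) ?_ hx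
  rintro s (⟨d, hd, hdM, rfl⟩ | ⟨a, ha, haM, rfl⟩)
  · haveI := hd
    exact mem_transField_of_pair _ _ (transPair_j_smul ι M γ hγ d hdM)
  · exact mem_transField_of_pair _ _ (transPair_weber_smul ι M An γ hγ a ha haM)

/-- the transport along `γ` as an algebra map `K1L M L → L((q))` -/
def diamondHom : K1L M L →ₐ[L] LaurentSeries L :=
  (transFieldHom ι (fun τ : ℍ => γ • τ) (smul_surjective_upperHalfPlane γ)).comp
    (IntermediateField.inclusion (K1L_le_transField_smul ι M An γ hγ))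

theorem diamondHom_of_pair {s s' : LaurentSeries L}
    (h : TransPair ι (fun τ : ℍ => γ • τ) s s') (hs : s ∈ K1L M L) :
    diamondHom ι M An γ hγ ⟨s, hs⟩ = s' :=
  transFieldHom_apply_of_pair ι _ (smul_surjective_upperHalfPlane γ) h

theorem coeffEmb_gen_mem_K1L {s : LaurentSeries ℚ}
    (hs : s ∈ divisorExpansions M ∪ weberSet M) : coeffEmb L s ∈ K1L M L :=
  coeffEmb_mem_laurentBaseChange L (IntermediateField.subset_adjoin ℚ _ hs)

theorem coeffEmb_weberQ_mem_K1L {a : ℕ} (ha : 0 < a) (haM : a < M) :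
    coeffEmb L (weberQ M a) ∈ K1L M L :=
  coeffEmb_gen_mem_K1L M (Or.inr ⟨a, ha, haM, rfl⟩)

theorem coeffEmb_jd_mem_K1L {d : ℕ} [hd : NeZero d] (hdM : d ∣ M) :
    coeffEmb L (qExpand ℚ d jq) ∈ K1L M L :=
  coeffEmb_gen_mem_K1L M (Or.inl ⟨d, hd, hdM, rfl⟩)

theorem diamondHom_j {d : ℕ} [hd : NeZero d] (hdM : d ∣ M) :
    diamondHom ι M An γ hγ ⟨coeffEmb L (qExpand ℚ d jq), coeffEmb_jd_mem_K1L M hdM⟩ =
      coeffEmb L (qExpand ℚ d jq) :=
  diamondHom_of_pair ι M An γ hγ (transPair_j_smul ι M γ hγ d hdM) _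

theorem diamondHom_weber {a : ℕ} (ha : 0 < a) (haM : a < M) :
    diamondHom ι M An γ hγ ⟨coeffEmb L (weberQ M a), coeffEmb_weberQ_mem_K1L M ha haM⟩ =
      coeffEmb L (weberQ M (diaVal M (((γ 0 0 : ℤ)) : ZMod M) a)) :=
  diamondHom_of_pair ι M An γ hγ (transPair_weber_smul ι M An γ hγ a ha haM) _

/-- the image of `diamondHom` lies in `K1L M L` -/
theorem diamondHom_mem (x : K1L M L) : diamondHom ι M An γ hγ x ∈ K1L M L := by
  let T : Subfield (LaurentSeries L) :=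
    ((K1L M L).toSubfield.comap (diamondHom ι M An γ hγ).toRingHom).map
      (SubringClass.subtype (K1L M L))
  have hmem : ∀ y : K1L M L, (y : LaurentSeries L) ∈ T →
      diamondHom ι M An γ hγ y ∈ K1L M L := by
    rintro y ⟨z, hz, hzy⟩
    have : z = y := Subtype.ext hzy
    rw [← this]
    exact hz
  apply hmem
  refine mem_of_mem_laurentBaseChange_adjoin (divisorExpansions M ∪ weberSet M) T ?_ ?_ x.2
  · intro a
    refine ⟨algebraMap L (K1L M L) a, ?_, rfl⟩
    show diamondHom ι M An γ hγ (algebraMap L (K1L M L) a) ∈ K1L M L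
    rw [AlgHom.commutes]
    exact (K1L M L).algebraMap_mem a
  · rintro s (⟨d, hd, hdM, rfl⟩ | ⟨a, ha, haM, rfl⟩)
    · haveI := hd
      refine ⟨⟨_, coeffEmb_jd_mem_K1L M hdM⟩, ?_, rfl⟩
      show diamondHom ι M An γ hγ _ ∈ K1L M L
      rw [diamondHom_j ι M An γ hγ hdM]
      exact coeffEmb_jd_mem_K1L M hdM
    · refine ⟨⟨_, coeffEmb_weberQ_mem_K1L M ha haM⟩, ?_, rfl⟩
      show diamondHom ι M An γ hγ _ ∈ K1L M L
      rw [diamondHom_weber ι M An γ hγ ha haM]
      exact coeffEmb_weberQ_mem_K1L M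
        (diaVal_pos M (isUnit_upperLeft hγ) ha haM) (diaVal_lt M _ a)

/-- the transport along `γ` as an endomorphism of `K1L M L` -/
def diamondEnd : K1L M L →ₐ[L] K1L M L :=
  (diamondHom ι M An γ hγ).codRestrict (K1L M L).toSubalgebra (diamondHom_mem ι M An γ hγ)

theorem coe_diamondEnd (x : K1L M L) :
    ((diamondEnd ι M An γ hγ x : K1L M L) : LaurentSeries L) = diamondHom ι M An γ hγ x := rfl

/-- Two `L`-algebra endomorphisms of `K1L M L` agreeing on the generators are equal. -/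
theorem algHom_ext_K1L {E : Type*} [Field E] [Algebra L E] (f g : K1L M L →ₐ[L] E)
    (hj : ∀ (d : ℕ) [NeZero d] (hdM : d ∣ M),
      f ⟨coeffEmb L (qExpand ℚ d jq), coeffEmb_jd_mem_K1L M hdM⟩ =
        g ⟨coeffEmb L (qExpand ℚ d jq), coeffEmb_jd_mem_K1L M hdM⟩)
    (hW : ∀ (a : ℕ) (ha : 0 < a) (haM : a < M),
      f ⟨coeffEmb L (weberQ M a), coeffEmb_weberQ_mem_K1L M ha haM⟩ =
        g ⟨coeffEmb L (weberQ M a), coeffEmb_weberQ_mem_K1L M ha haM⟩) : f = g := by
  have key : (f : K1L M L →+* E) = (g : K1L M L →+* E) := by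
    refine ringHom_ext_laurentBaseChange_adjoin (divisorExpansions M ∪ weberSet M) _ _ ?_ ?_
    · intro a
      show f (algebraMap L _ a) = g (algebraMap L _ a)
      rw [AlgHom.commutes, AlgHom.commutes]
    · rintro s (⟨d, hd, hdM, rfl⟩ | ⟨a, ha, haM, rfl⟩)
      · haveI := hd
        exact hj d hdM
      · exact hW a ha haM
  ext x
  exact congrArg (fun h : K1L M L →+* E => h x) key

end Hom

section Equiv

variable {L : Type*} [Field L] [Algebra ℚ L] (ι : L →+* ℂ)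
variable (M : ℕ) [NeZero M] (An : WeberAnalytic M)
  (γ : SL(2, ℤ)) (hγ : γ ∈ CongruenceSubgroup.Gamma0 M)

theorem diaVal_diaVal (c c' : ZMod M) (a : ℕ) :
    diaVal M c' (diaVal M c a) = diaVal M (c * c') a := by
  rw [diaVal, diaVal_cast, diaVal, mul_assoc]

theorem diaVal_one {a : ℕ} (haM : a < M) : diaVal M 1 a = a := by
  rw [diaVal, mul_one, ZMod.val_natCast, Nat.mod_eq_of_lt haM]

include hγ in
theorem inv_mem_Gamma0 : γ⁻¹ ∈ CongruenceSubgroup.Gamma0 M :=
  (CongruenceSubgroup.Gamma0 M).inv_mem hγ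

include hγ in
theorem upperLeft_mul_inv :
    (((γ 0 0 : ℤ)) : ZMod M) * ((((γ⁻¹ : SL(2, ℤ)) 0 0 : ℤ)) : ZMod M) = 1 := by
  have h1 : ((γ⁻¹ : SL(2, ℤ)) 0 0 : ℤ) = γ 1 1 := by
    rw [Matrix.SpecialLinearGroup.SL2_inv_expl]
    rfl
  rw [h1]
  rw [CongruenceSubgroup.Gamma0_mem] at hγ
  have hdet := Matrix.SpecialLinearGroup.det_coe γ
  rw [Matrix.det_fin_two] at hdet
  have := congrArg (fun t : ℤ => (t : ZMod M)) hdet
  simp only [Int.cast_sub, Int.cast_mul, Int.cast_one] at this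
  rw [hγ, mul_zero, sub_zero] at this
  exact this

/-- composition law on generators: `⟨γ'⟩ ∘ ⟨γ⟩ = id` for `γ' = γ⁻¹` -/
theorem diamondEnd_inv_comp :
    (diamondEnd ι M An γ⁻¹ (inv_mem_Gamma0 M γ hγ)).comp (diamondEnd ι M An γ hγ) =
      AlgHom.id L (K1L M L) := by
  refine algHom_ext_K1L M _ _ ?_ ?_
  · intro d _ hdM
    apply Subtype.ext
    show diamondHom ι M An γ⁻¹ (inv_mem_Gamma0 M γ hγ) (diamondEnd ι M An γ hγ _) = _
    have e : diamondEnd ι M An γ hγ
        ⟨coeffEmb L (qExpand ℚ d jq), coeffEmb_jd_mem_K1L M hdM⟩ =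
        ⟨coeffEmb L (qExpand ℚ d jq), coeffEmb_jd_mem_K1L M hdM⟩ :=
      Subtype.ext (diamondHom_j ι M An γ hγ hdM)
    rw [e, diamondHom_j ι M An γ⁻¹ (inv_mem_Gamma0 M γ hγ) hdM]
    rfl
  · intro a ha haM
    apply Subtype.ext
    show diamondHom ι M An γ⁻¹ (inv_mem_Gamma0 M γ hγ) (diamondEnd ι M An γ hγ _) = _
    have hpos := diaVal_pos M (isUnit_upperLeft hγ) ha haM
    have hlt := diaVal_lt M (((γ 0 0 : ℤ)) : ZMod M) a
    have e : diamondEnd ι M An γ hγ
        ⟨coeffEmb L (weberQ M a), coeffEmb_weberQ_mem_K1L M ha haM⟩ =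
        ⟨coeffEmb L (weberQ M (diaVal M (((γ 0 0 : ℤ)) : ZMod M) a)),
          coeffEmb_weberQ_mem_K1L M hpos hlt⟩ :=
      Subtype.ext (diamondHom_weber ι M An γ hγ ha haM)
    rw [e, diamondHom_weber ι M An γ⁻¹ _ hpos hlt, diaVal_diaVal, upperLeft_mul_inv M γ hγ,
      diaVal_one M haM]
    rfl

/-- **The diamond automorphism attached to `γ ∈ Γ₀(M)`.** -/
def diamondGamma : K1L M L ≃ₐ[L] K1L M L :=
  AlgEquiv.ofAlgHom (diamondEnd ι M An γ hγ) (diamondEnd ι M An γ⁻¹ (inv_mem_Gamma0 M γ hγ))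
    (by
      have h := diamondEnd_inv_comp ι M An γ⁻¹ (inv_mem_Gamma0 M γ hγ)
      simpa only [inv_inv] using h)
    (diamondEnd_inv_comp ι M An γ hγ)

theorem coe_diamondGamma (x : K1L M L) :
    ((diamondGamma ι M An γ hγ x : K1L M L) : LaurentSeries L) = diamondHom ι M An γ hγ x := rfl

theorem diamondGamma_j {d : ℕ} [hd : NeZero d] (hdM : d ∣ M) :
    ((diamondGamma ι M An γ hγ ⟨coeffEmb L (qExpand ℚ d jq), coeffEmb_jd_mem_K1L M hdM⟩ :
      K1L M L) : LaurentSeries L) = coeffEmb L (qExpand ℚ d jq) :=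
  diamondHom_j ι M An γ hγ hdM

theorem diamondGamma_weber {a : ℕ} (ha : 0 < a) (haM : a < M) :
    ((diamondGamma ι M An γ hγ ⟨coeffEmb L (weberQ M a), coeffEmb_weberQ_mem_K1L M ha haM⟩ :
      K1L M L) : LaurentSeries L) =
      coeffEmb L (weberQ M (diaVal M (((γ 0 0 : ℤ)) : ZMod M) a)) :=
  diamondHom_weber ι M An γ hγ ha haM

end Equiv

section Bezout

variable {L : Type*} [Field L] [Algebra ℚ L] (ι : L →+* ℂ)
variable (M d : ℕ) [NeZero M] [NeZero d] (u v : ℤ) (huv : u * M + v * d = 1)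
  (An : WeberAnalytic M)

/-- **The diamond operator `⟨d⟩`**, `d ≥ 1` prime to `M`: transport along
`γ' = [d, -u; M, v] ∈ Γ₀(M)`. -/
def diamondL : K1L M L ≃ₐ[L] K1L M L :=
  diamondGamma ι M An (gammaPrime M d u v huv) (gammaPrime_mem_Gamma0 M d u v huv)

theorem diamondL_j {e : ℕ} [he : NeZero e] (heM : e ∣ M) :
    ((diamondL ι M d u v huv An ⟨coeffEmb L (qExpand ℚ e jq), coeffEmb_jd_mem_K1L M heM⟩ :
      K1L M L) : LaurentSeries L) = coeffEmb L (qExpand ℚ e jq) :=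
  diamondGamma_j ι M An _ _ heM

theorem diamondL_weber {a : ℕ} (ha : 0 < a) (haM : a < M) :
    ((diamondL ι M d u v huv An ⟨coeffEmb L (weberQ M a), coeffEmb_weberQ_mem_K1L M ha haM⟩ :
      K1L M L) : LaurentSeries L) = coeffEmb L (weberQ M (diaIndex M d a)) := by
  rw [diamondL, diamondGamma_weber ι M An _ _ ha haM, gammaPrime_zero_zero, Int.cast_natCast,
    diaVal_natCast]

/-- ring-isomorphism form of `diamondL` (convenient when `L = ℚ`) -/
def diamondLRing : K1L M L ≃+* K1L M L := (diamondL ι M d u v huv An).toRingEquiv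

theorem diamondLRing_j {e : ℕ} [he : NeZero e] (heM : e ∣ M) :
    ((diamondLRing ι M d u v huv An ⟨coeffEmb L (qExpand ℚ e jq), coeffEmb_jd_mem_K1L M heM⟩ :
      K1L M L) : LaurentSeries L) = coeffEmb L (qExpand ℚ e jq) :=
  diamondL_j ι M d u v huv An heM

theorem diamondLRing_weber {a : ℕ} (ha : 0 < a) (haM : a < M) :
    ((diamondLRing ι M d u v huv An ⟨coeffEmb L (weberQ M a), coeffEmb_weberQ_mem_K1L M ha haM⟩ :
      K1L M L) : LaurentSeries L) = coeffEmb L (weberQ M (diaIndex M d a)) :=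
  diamondL_weber ι M d u v huv An ha haM

theorem diamondLRing_algebraMap (a : L) :
    diamondLRing ι M d u v huv An (algebraMap L (K1L M L) a) = algebraMap L (K1L M L) a :=
  (diamondL ι M d u v huv An).commutes a

end Bezout

end Fermat.Agent.DS.ES
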