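import Mathlib
import Fermat.Agent.DS.ES.DiamondTransport
import Fermat.Agent.DS.ES.AtkinEmbeddingQ

/-!
# Programme III (S48), X1-AN leaf AN-4-LEV: the diamond operators at level `(M; p)` by transport

`p ∤ M` prime, `γ ∈ Γ₀(M p)`, `L` a field with `ι : L →+* ℂ`, `An : WeberAnalytic M`.  The analytic
transport along `τ ↦ γ τ` is an `L`-algebra automorphism

  `levDiamondGamma ι M p An γ hγ : K1LevL M p L ≃ₐ[L] K1LevL M p L`

with `j(q^e) ↦ j(q^e)` (`e ∣ M p`), `W_a ↦ W_{a γ₀₀}`, `W_a(q^p) ↦ W_{a γ₀₀}(q^p)`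
(because `p · γ z = γ̃ (p z)` with `γ̃ = [γ₀₀, p γ₀₁; γ₁₀ / p, γ₁₁] ∈ Γ₀(M)` of the same upper left
entry).  It extends `diamondGamma ι M An γ _` along both degeneracy maps:

* `levDiamond_alpha` : `τ (x) = ⟨γ⟩ x` for `x ∈ K1L M L` (coercions to `L((q))`);
* `levDiamond_beta`  : `τ (x(q^p)) = (⟨γ⟩ x)(q^p)`.
-/

set_option autoImplicit false
set_option linter.unusedSectionVars false
set_option linter.style.haveILetI false

noncomputable section

namespace Fermat.Agent.DS.ES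

open UpperHalfPlane HahnSeries ModularCurve IntermediateField Fermat.Agent.X0 Fermat.Agent.Igusa
  Fermat.Agent.ES Fermat.Agent.DS.X1 Fermat.Agent.S23 Fermat.Agent.S23.PrimEltQExp
open scoped MatrixGroups

/-! ### matrices -/

theorem Gamma0_mul_le_left {M p : ℕ} {γ : SL(2, ℤ)}
    (hγ : γ ∈ CongruenceSubgroup.Gamma0 (M * p)) : γ ∈ CongruenceSubgroup.Gamma0 M := by
  rw [CongruenceSubgroup.Gamma0_mem] at hγ ⊢
  have h1 : ((M * p : ℕ) : ℤ) ∣ γ 1 0 := (ZMod.intCast_zmod_eq_zero_iff_dvd _ _).mp hγ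
  have h2 : (M : ℤ) ∣ γ 1 0 := (Int.natCast_dvd_natCast.mpr (Dvd.intro p rfl)).trans h1
  exact (ZMod.intCast_zmod_eq_zero_iff_dvd _ _).mpr h2

/-- `p · γ z = γ̃ (p z)` with `γ̃ ∈ Γ₀(M)` of the same upper left entry, for `γ ∈ Γ₀(M p)`. -/
theorem exists_scaleH_smul_level {M p : ℕ} [NeZero p] (γ : SL(2, ℤ))
    (hγ : γ ∈ CongruenceSubgroup.Gamma0 (M * p)) :
    ∃ γ' : SL(2, ℤ), γ' ∈ CongruenceSubgroup.Gamma0 M ∧ γ' 0 0 = γ 0 0 ∧
      ∀ z : ℍ, scaleH p (γ • z) = γ' • scaleH p z := by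
  rw [CongruenceSubgroup.Gamma0_mem] at hγ
  have hN : ((M * p : ℕ) : ℤ) ∣ γ 1 0 := (ZMod.intCast_zmod_eq_zero_iff_dvd _ _).mp hγ
  obtain ⟨c', hc'⟩ := hN
  have hc'' : γ 1 0 = (p : ℤ) * ((M : ℤ) * c') := by rw [hc']; push_cast; ring
  have hdet : (γ 0 0) * (γ 1 1) - (γ 0 1) * (γ 1 0) = 1 := by
    have := γ.det_coe
    rw [Matrix.det_fin_two] at this
    exact this
  have hdet' : Matrix.det !![γ 0 0, γ 0 1 * p; (M : ℤ) * c', γ 1 1] = 1 := by
    rw [Matrix.det_fin_two_of]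
    rw [hc''] at hdet
    linarith [hdet]
  let γ' : SL(2, ℤ) := ⟨!![γ 0 0, γ 0 1 * p; (M : ℤ) * c', γ 1 1], hdet'⟩
  have h00 : γ' 0 0 = γ 0 0 := rfl
  have h01 : γ' 0 1 = γ 0 1 * p := rfl
  have h10 : γ' 1 0 = (M : ℤ) * c' := rfl
  have h11 : γ' 1 1 = γ 1 1 := rfl
  refine ⟨γ', ?_, h00, fun z => ?_⟩
  · rw [CongruenceSubgroup.Gamma0_mem, h10]
    push_cast
    rw [ZMod.natCast_self, zero_mul]
  · apply UpperHalfPlane.ext
    rw [coe_scaleH, coe_specialLinearGroup_apply, coe_specialLinearGroup_apply γ', coe_scaleH,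
      h00, h01, h10, h11, hc'']
    simp only [algebraMap_int_eq, eq_intCast, Int.cast_mul, Int.cast_natCast]
    push_cast
    rw [mul_div_assoc']
    congr 1 <;> ring

/-! ### transport pairs at level `(M; p)` -/

section Pairs

variable {L : Type*} [Field L] [Algebra ℚ L] (ι : L →+* ℂ)
variable (M p : ℕ) [NeZero M] [NeZero p] (An : WeberAnalytic M)
  (γ : SL(2, ℤ)) (hγ : γ ∈ CongruenceSubgroup.Gamma0 (M * p))

include An hγ in
/-- `W_a(q^p) ↦ W_{a γ₀₀}(q^p)`. -/
theorem transPair_weber_scale_smul (a : ℕ) (ha : 0 < a) (haM : a < M) :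
    TransPair ι (fun τ : ℍ => γ • τ) (coeffEmb L (qExpand ℚ p (weberQ M a)))
      (coeffEmb L (qExpand ℚ p (weberQ M (diaVal M (((γ 0 0 : ℤ)) : ZMod M) a)))) := by
  obtain ⟨γ', hγ', h00, hsc⟩ := exists_scaleH_smul_level (M := M) (p := p) γ hγ
  have hγM := Gamma0_mul_le_left hγ
  refine ⟨fun z => An.W (a : ZMod M) (scaleH p z), ?_, ?_⟩
  · rw [coeffMap_iota_coeffEmb ι, coeffMap_qExpand]
    exact isQExp_scaleH (An.isQExp a ha haM) p
  · rw [coeffMap_iota_coeffEmb ι, coeffMap_qExpand]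
    have e : ((fun z => An.W (a : ZMod M) (scaleH p z)) ∘ (fun τ : ℍ => γ • τ)) =
        fun z => An.W ((diaVal M (((γ 0 0 : ℤ)) : ZMod M) a : ℕ) : ZMod M) (scaleH p z) := by
      funext τ
      show An.W (a : ZMod M) (scaleH p (γ • τ)) = _
      rw [hsc, An.slash γ' hγ', h00, diaVal_cast]
    rw [e]
    exact isQExp_scaleH
      (An.isQExp _ (diaVal_pos M (isUnit_upperLeft hγM) ha haM) (diaVal_lt M _ a)) p

end Pairs

/-! ### generators of `K1LevL M p L` -/

section Gens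

variable {L : Type*} [Field L] [Algebra ℚ L]
variable (M p : ℕ) [NeZero M] [hp : Fact p.Prime] [NeZero p]

theorem coeffEmb_jLev_mem {e : ℕ} [he : NeZero e] (heM : e ∣ M * p) :
    coeffEmb L (qExpand ℚ e jq) ∈ K1LevL M p L :=
  coeffEmb_mem_laurentBaseChange L
    (IntermediateField.subset_adjoin ℚ _ (Or.inl (Or.inl ⟨e, he, heM, rfl⟩)))

theorem coeffEmb_weberLev_mem {a : ℕ} (ha : 0 < a) (haM : a < M) :
    coeffEmb L (weberQ M a) ∈ K1LevL M p L :=
  coeffEmb_mem_laurentBaseChange L (K1_le_K1Lev M p (weberQ_mem_K1 M ha haM))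

theorem coeffEmb_weberScale_mem {a : ℕ} (ha : 0 < a) (haM : a < M) :
    coeffEmb L (qExpand ℚ p (weberQ M a)) ∈ K1LevL M p L :=
  coeffEmb_mem_laurentBaseChange L (qExpand_mem_K1Lev M p (weberQ_mem_K1 M ha haM))

/-- **Generator principle for `K1LevL M p L`**: a subfield of `L((q))` containing the constants,
the `j(q^e)` (`e ∣ M p`), the `W_a` and the `W_a(q^p)` contains `K1LevL M p L`. -/
theorem mem_of_mem_K1LevL (T : Subfield (LaurentSeries L))
    (hT : ∀ a : L, algebraMap L (LaurentSeries L) a ∈ T)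
    (hj : ∀ (e : ℕ) [NeZero e], e ∣ M * p → coeffEmb L (qExpand ℚ e jq) ∈ T)
    (hW : ∀ a : ℕ, 0 < a → a < M → coeffEmb L (weberQ M a) ∈ T)
    (hWp : ∀ a : ℕ, 0 < a → a < M → coeffEmb L (qExpand ℚ p (weberQ M a)) ∈ T)
    {x : LaurentSeries L} (hx : x ∈ K1LevL M p L) : x ∈ T := by
  have hK1 : ∀ z ∈ K1 M, coeffEmb L z ∈ T := fun z hz =>
    coeffEmb_mem_of_mem_adjoin (divisorExpansions M ∪ weberSet M) T hT
      (fun s hs => by
        rcases hs with ⟨e, he, heM, rfl⟩ | ⟨a, ha, haM, rfl⟩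
        · haveI := he
          exact hj e (Dvd.dvd.mul_right heM p)
        · exact hW a ha haM) hz
  have hK1β : ∀ z ∈ K1 M, coeffEmb L (qExpand ℚ p z) ∈ T := by
    intro z hz
    let T₂ : Subfield (LaurentSeries L) := T.comap (qExpand L p)
    have hT₂ : ∀ a : L, algebraMap L (LaurentSeries L) a ∈ T₂ := by
      intro a
      show qExpand L p (algebraMap L (LaurentSeries L) a) ∈ T
      rw [qExpand_algebraMap]
      exact hT a
    have h := coeffEmb_mem_of_mem_adjoin (divisorExpansions M ∪ weberSet M) T₂ hT₂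
      (fun s hs => by
        show qExpand L p (coeffEmb L s) ∈ T
        rw [← coeffEmb_qExpand]
        rcases hs with ⟨e, he, heM, rfl⟩ | ⟨a, ha, haM, rfl⟩
        · haveI := he
          haveI : NeZero (p * e) := ⟨mul_ne_zero (NeZero.ne p) (NeZero.ne e)⟩
          rw [qExpand_qExpand_rat p e (p * e) rfl]
          exact hj (p * e) (by rw [mul_comm p e]; exact Nat.mul_dvd_mul_right heM p)
        · exact hWp a ha haM) hz
    rw [coeffEmb_qExpand]
    exact h
  refine mem_of_mem_laurentBaseChange_adjoin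
    (divisorExpansions (M * p) ∪ (K1 M : Set (LaurentSeries ℚ)) ∪
      (qExpand ℚ p '' (K1 M : Set (LaurentSeries ℚ)))) T hT ?_ hx
  rintro s ((⟨e, he, heM, rfl⟩ | hs) | ⟨z, hz, rfl⟩)
  · haveI := he
    exact hj e heM
  · exact hK1 s hs
  · exact hK1β z hz

/-- Two `L`-algebra maps out of `K1LevL M p L` agreeing on the generators are equal. -/
theorem algHom_ext_K1LevL {E : Type*} [Field E] [Algebra L E] (f g : K1LevL M p L →ₐ[L] E)
    (hj : ∀ (e : ℕ) [NeZero e] (heM : e ∣ M * p),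
      f ⟨coeffEmb L (qExpand ℚ e jq), coeffEmb_jLev_mem M p heM⟩ =
        g ⟨coeffEmb L (qExpand ℚ e jq), coeffEmb_jLev_mem M p heM⟩)
    (hW : ∀ (a : ℕ) (ha : 0 < a) (haM : a < M),
      f ⟨coeffEmb L (weberQ M a), coeffEmb_weberLev_mem M p ha haM⟩ =
        g ⟨coeffEmb L (weberQ M a), coeffEmb_weberLev_mem M p ha haM⟩)
    (hWp : ∀ (a : ℕ) (ha : 0 < a) (haM : a < M),
      f ⟨coeffEmb L (qExpand ℚ p (weberQ M a)), coeffEmb_weberScale_mem M p ha haM⟩ =
        g ⟨coeffEmb L (qExpand ℚ p (weberQ M a)), coeffEmb_weberScale_mem M p ha haM⟩) :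
    f = g := by
  let T : Subfield (LaurentSeries L) :=
    (RingHom.eqLocusField (f : K1LevL M p L →+* E) (g : K1LevL M p L →+* E)).map
      (SubringClass.subtype (K1LevL M p L))
  have hmem : ∀ x : K1LevL M p L, (x : LaurentSeries L) ∈ T → f x = g x := by
    rintro x ⟨y, hy, hyx⟩
    have : y = x := Subtype.ext hyx
    rw [← this]
    exact hy
  ext x
  apply hmem
  refine mem_of_mem_K1LevL M p T ?_ ?_ ?_ ?_ x.2
  · intro a
    refine ⟨algebraMap L (K1LevL M p L) a, ?_, rfl⟩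
    show f (algebraMap L _ a) = g (algebraMap L _ a)
    rw [AlgHom.commutes, AlgHom.commutes]
  · intro e _ heM
    exact ⟨⟨_, coeffEmb_jLev_mem M p heM⟩, hj e heM, rfl⟩
  · intro a ha haM
    exact ⟨⟨_, coeffEmb_weberLev_mem M p ha haM⟩, hW a ha haM, rfl⟩
  · intro a ha haM
    exact ⟨⟨_, coeffEmb_weberScale_mem M p ha haM⟩, hWp a ha haM, rfl⟩

end Gens

/-! ### the level diamond -/

section Hom

variable {L : Type*} [Field L] [Algebra ℚ L] (ι : L →+* ℂ)
variable (M p : ℕ) [NeZero M] [hp : Fact p.Prime] [NeZero p] (An : WeberAnalytic M)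
  (γ : SL(2, ℤ)) (hγ : γ ∈ CongruenceSubgroup.Gamma0 (M * p))

include An hγ in
theorem K1LevL_le_transField_smul : K1LevL M p L ≤ transField ι (fun τ : ℍ => γ • τ) := by
  haveI : NeZero (M * p) := ⟨mul_ne_zero (NeZero.ne M) (NeZero.ne p)⟩
  intro x hx
  refine mem_of_mem_K1LevL M p (transField ι (fun τ : ℍ => γ • τ)).toSubfield
    (fun a => (transField ι (fun τ : ℍ => γ • τ)).algebraMap_mem a) ?_ ?_ ?_ hx
  · intro e _ heM
    exact mem_transField_of_pair _ _ (transPair_j_smul ι (M * p) γ hγ e heM)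
  · intro a ha haM
    exact mem_transField_of_pair _ _
      (transPair_weber_smul ι M An γ (Gamma0_mul_le_left hγ) a ha haM)
  · intro a ha haM
    exact mem_transField_of_pair _ _ (transPair_weber_scale_smul ι M p An γ hγ a ha haM)

/-- the transport along `γ` as an algebra map `K1LevL M p L → L((q))` -/
def levDiamondHom : K1LevL M p L →ₐ[L] LaurentSeries L :=
  (transFieldHom ι (fun τ : ℍ => γ • τ) (smul_surjective_upperHalfPlane γ)).comp
    (IntermediateField.inclusion (K1LevL_le_transField_smul ι M p An γ hγ))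

theorem levDiamondHom_of_pair {s s' : LaurentSeries L}
    (h : TransPair ι (fun τ : ℍ => γ • τ) s s') (hs : s ∈ K1LevL M p L) :
    levDiamondHom ι M p An γ hγ ⟨s, hs⟩ = s' :=
  transFieldHom_apply_of_pair ι _ (smul_surjective_upperHalfPlane γ) h

theorem levDiamondHom_j {e : ℕ} [he : NeZero e] (heM : e ∣ M * p) :
    levDiamondHom ι M p An γ hγ ⟨coeffEmb L (qExpand ℚ e jq), coeffEmb_jLev_mem M p heM⟩ =
      coeffEmb L (qExpand ℚ e jq) := by
  haveI : NeZero (M * p) := ⟨mul_ne_zero (NeZero.ne M) (NeZero.ne p)⟩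
  exact levDiamondHom_of_pair ι M p An γ hγ (transPair_j_smul ι (M * p) γ hγ e heM) _

theorem levDiamondHom_weber {a : ℕ} (ha : 0 < a) (haM : a < M) :
    levDiamondHom ι M p An γ hγ ⟨coeffEmb L (weberQ M a), coeffEmb_weberLev_mem M p ha haM⟩ =
      coeffEmb L (weberQ M (diaVal M (((γ 0 0 : ℤ)) : ZMod M) a)) :=
  levDiamondHom_of_pair ι M p An γ hγ
    (transPair_weber_smul ι M An γ (Gamma0_mul_le_left hγ) a ha haM) _

theorem levDiamondHom_weberScale {a : ℕ} (ha : 0 < a) (haM : a < M) :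
    levDiamondHom ι M p An γ hγ
        ⟨coeffEmb L (qExpand ℚ p (weberQ M a)), coeffEmb_weberScale_mem M p ha haM⟩ =
      coeffEmb L (qExpand ℚ p (weberQ M (diaVal M (((γ 0 0 : ℤ)) : ZMod M) a))) :=
  levDiamondHom_of_pair ι M p An γ hγ (transPair_weber_scale_smul ι M p An γ hγ a ha haM) _

/-- the image of `levDiamondHom` lies in `K1LevL M p L` -/
theorem levDiamondHom_mem (x : K1LevL M p L) :
    levDiamondHom ι M p An γ hγ x ∈ K1LevL M p L := by
  have hγM := Gamma0_mul_le_left hγ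
  let T : Subfield (LaurentSeries L) :=
    ((K1LevL M p L).toSubfield.comap (levDiamondHom ι M p An γ hγ).toRingHom).map
      (SubringClass.subtype (K1LevL M p L))
  have hmem : ∀ y : K1LevL M p L, (y : LaurentSeries L) ∈ T →
      levDiamondHom ι M p An γ hγ y ∈ K1LevL M p L := by
    rintro y ⟨z, hz, hzy⟩
    have : z = y := Subtype.ext hzy
    rw [← this]
    exact hz
  apply hmem
  refine mem_of_mem_K1LevL M p T ?_ ?_ ?_ ?_ x.2
  · intro a
    refine ⟨algebraMap L (K1LevL M p L) a, ?_, rfl⟩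
    show levDiamondHom ι M p An γ hγ (algebraMap L (K1LevL M p L) a) ∈ K1LevL M p L
    rw [AlgHom.commutes]
    exact (K1LevL M p L).algebraMap_mem a
  · intro e _ heM
    refine ⟨⟨_, coeffEmb_jLev_mem M p heM⟩, ?_, rfl⟩
    show levDiamondHom ι M p An γ hγ _ ∈ K1LevL M p L
    rw [levDiamondHom_j ι M p An γ hγ heM]
    exact coeffEmb_jLev_mem M p heM
  · intro a ha haM
    refine ⟨⟨_, coeffEmb_weberLev_mem M p ha haM⟩, ?_, rfl⟩
    show levDiamondHom ι M p An γ hγ _ ∈ K1LevL M p L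
    rw [levDiamondHom_weber ι M p An γ hγ ha haM]
    exact coeffEmb_weberLev_mem M p (diaVal_pos M (isUnit_upperLeft hγM) ha haM)
      (diaVal_lt M _ a)
  · intro a ha haM
    refine ⟨⟨_, coeffEmb_weberScale_mem M p ha haM⟩, ?_, rfl⟩
    show levDiamondHom ι M p An γ hγ _ ∈ K1LevL M p L
    rw [levDiamondHom_weberScale ι M p An γ hγ ha haM]
    exact coeffEmb_weberScale_mem M p (diaVal_pos M (isUnit_upperLeft hγM) ha haM)
      (diaVal_lt M _ a)

/-- the transport along `γ` as an endomorphism of `K1LevL M p L` -/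
def levDiamondEnd : K1LevL M p L →ₐ[L] K1LevL M p L :=
  (levDiamondHom ι M p An γ hγ).codRestrict (K1LevL M p L).toSubalgebra
    (levDiamondHom_mem ι M p An γ hγ)

theorem coe_levDiamondEnd (x : K1LevL M p L) :
    ((levDiamondEnd ι M p An γ hγ x : K1LevL M p L) : LaurentSeries L) =
      levDiamondHom ι M p An γ hγ x := rfl

include hγ in
theorem inv_mem_Gamma0_level : γ⁻¹ ∈ CongruenceSubgroup.Gamma0 (M * p) :=
  (CongruenceSubgroup.Gamma0 (M * p)).inv_mem hγ

theorem levDiamondEnd_inv_comp :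
    (levDiamondEnd ι M p An γ⁻¹ (inv_mem_Gamma0_level M p γ hγ)).comp
        (levDiamondEnd ι M p An γ hγ) = AlgHom.id L (K1LevL M p L) := by
  have hγM := Gamma0_mul_le_left hγ
  have hγi := inv_mem_Gamma0_level M p γ hγ
  refine algHom_ext_K1LevL M p _ _ ?_ ?_ ?_
  · intro e _ heM
    apply Subtype.ext
    show levDiamondHom ι M p An γ⁻¹ hγi (levDiamondEnd ι M p An γ hγ _) = _
    have e1 : levDiamondEnd ι M p An γ hγ
        ⟨coeffEmb L (qExpand ℚ e jq), coeffEmb_jLev_mem M p heM⟩ =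
        ⟨coeffEmb L (qExpand ℚ e jq), coeffEmb_jLev_mem M p heM⟩ :=
      Subtype.ext (levDiamondHom_j ι M p An γ hγ heM)
    rw [e1, levDiamondHom_j ι M p An γ⁻¹ hγi heM]
    rfl
  · intro a ha haM
    apply Subtype.ext
    show levDiamondHom ι M p An γ⁻¹ hγi (levDiamondEnd ι M p An γ hγ _) = _
    have hpos := diaVal_pos M (isUnit_upperLeft hγM) ha haM
    have hlt := diaVal_lt M (((γ 0 0 : ℤ)) : ZMod M) a
    have e1 : levDiamondEnd ι M p An γ hγ
        ⟨coeffEmb L (weberQ M a), coeffEmb_weberLev_mem M p ha haM⟩ =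
        ⟨coeffEmb L (weberQ M (diaVal M (((γ 0 0 : ℤ)) : ZMod M) a)),
          coeffEmb_weberLev_mem M p hpos hlt⟩ :=
      Subtype.ext (levDiamondHom_weber ι M p An γ hγ ha haM)
    rw [e1, levDiamondHom_weber ι M p An γ⁻¹ hγi hpos hlt, diaVal_diaVal,
      upperLeft_mul_inv M γ hγM, diaVal_one M haM]
    rfl
  · intro a ha haM
    apply Subtype.ext
    show levDiamondHom ι M p An γ⁻¹ hγi (levDiamondEnd ι M p An γ hγ _) = _
    have hpos := diaVal_pos M (isUnit_upperLeft hγM) ha haM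
    have hlt := diaVal_lt M (((γ 0 0 : ℤ)) : ZMod M) a
    have e1 : levDiamondEnd ι M p An γ hγ
        ⟨coeffEmb L (qExpand ℚ p (weberQ M a)), coeffEmb_weberScale_mem M p ha haM⟩ =
        ⟨coeffEmb L (qExpand ℚ p (weberQ M (diaVal M (((γ 0 0 : ℤ)) : ZMod M) a))),
          coeffEmb_weberScale_mem M p hpos hlt⟩ :=
      Subtype.ext (levDiamondHom_weberScale ι M p An γ hγ ha haM)
    rw [e1, levDiamondHom_weberScale ι M p An γ⁻¹ hγi hpos hlt, diaVal_diaVal,
      upperLeft_mul_inv M γ hγM, diaVal_one M haM]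
    rfl

/-- **The level `(M; p)` diamond automorphism attached to `γ ∈ Γ₀(M p)`.** -/
def levDiamondGamma : K1LevL M p L ≃ₐ[L] K1LevL M p L :=
  AlgEquiv.ofAlgHom (levDiamondEnd ι M p An γ hγ)
    (levDiamondEnd ι M p An γ⁻¹ (inv_mem_Gamma0_level M p γ hγ))
    (by
      have h := levDiamondEnd_inv_comp ι M p An γ⁻¹ (inv_mem_Gamma0_level M p γ hγ)
      simpa only [inv_inv] using h)
    (levDiamondEnd_inv_comp ι M p An γ hγ)

theorem coe_levDiamondGamma (x : K1LevL M p L) :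
    ((levDiamondGamma ι M p An γ hγ x : K1LevL M p L) : LaurentSeries L) =
      levDiamondHom ι M p An γ hγ x := rfl

end Hom

end Fermat.Agent.DS.ES
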