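import Mathlib
import Fermat.Agent.DS.ES.DiamondTransport
import Fermat.Agent.DS.ES.AtkinEmbeddingQ

/-!
# Programme III (S48), X1-AN leaf AN-4 over `ℚ`: the diamond operators of `K1 M`

`diamondRat M d u v huv An : K1 M ≃+* K1 M` (`d ≥ 1` prime to `M`, `u M + v d = 1`), the rational
form of `diamondL` (`DiamondTransport.lean`, `L = ℚ`):

* `diamondRat_j`      : `⟨d⟩ j(q^e) = j(q^e)` for `e ∣ M`;
* `diamondRat_weber`  : `⟨d⟩ W_a = W_{a d mod M}` (convention C4);
* `diamondRat_of_mem_full` : `⟨d⟩` fixes `modularFunctionFieldFull M` pointwise;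
* `atkinEmbQ_beta`    : `ι' (x(q^ℓ)) = ⟨ℓ⟩ x` for `x ∈ K1 M` (IRR-4, closed form).
-/

set_option autoImplicit false
set_option linter.unusedSectionVars false
set_option linter.style.haveILetI false

noncomputable section

namespace Fermat.Agent.DS.ES

open HahnSeries ModularCurve IntermediateField Fermat.Agent.DS.X1

variable (M : ℕ) [NeZero M]

theorem mem_K1_of_mem_K1L_rat {x : LaurentSeries ℚ} (hx : x ∈ K1L M ℚ) : x ∈ K1 M := by
  refine mem_of_mem_laurentBaseChange_adjoin (divisorExpansions M ∪ weberSet M)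
    (K1 M).toSubfield (fun a => (K1 M).algebraMap_mem a) ?_ hx
  intro s hs
  rw [coeffEmb_rat]
  exact IntermediateField.subset_adjoin ℚ _ hs

/-- `K1 M ≃ K1L M ℚ` (the same subset of `ℚ((q))`) -/
def k1RatEquiv : K1 M ≃+* K1L M ℚ where
  toFun x := ⟨(x : LaurentSeries ℚ), mem_laurentBaseChange_rat x.2⟩
  invFun y := ⟨(y : LaurentSeries ℚ), mem_K1_of_mem_K1L_rat M y.2⟩
  left_inv _ := rfl
  right_inv _ := rfl
  map_mul' _ _ := rfl
  map_add' _ _ := rfl

variable (d : ℕ) [NeZero d] (u v : ℤ) (huv : u * M + v * d = 1) (An : WeberAnalytic M)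

/-- **The diamond operator `⟨d⟩` of `K1 M`** (ring automorphism). -/
def diamondRat : K1 M ≃+* K1 M :=
  ((k1RatEquiv M).trans (diamondLRing (algebraMap ℚ ℂ) M d u v huv An)).trans (k1RatEquiv M).symm

theorem k1RatEquiv_symm_apply (y : K1L M ℚ) :
    (k1RatEquiv M).symm y = ⟨(y : LaurentSeries ℚ), mem_K1_of_mem_K1L_rat M y.2⟩ := rfl

theorem k1RatEquiv_apply (x : K1 M) :
    k1RatEquiv M x = ⟨(x : LaurentSeries ℚ), mem_laurentBaseChange_rat x.2⟩ := rfl

theorem coe_k1RatEquiv_symm (y : K1L M ℚ) :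
    (((k1RatEquiv M).symm y : K1 M) : LaurentSeries ℚ) = (y : LaurentSeries ℚ) :=
  (congrArg Subtype.val (k1RatEquiv_symm_apply M y)).trans (Subtype.coe_mk _ _)

theorem coe_k1RatEquiv (x : K1 M) :
    ((k1RatEquiv M x : K1L M ℚ) : LaurentSeries ℚ) = (x : LaurentSeries ℚ) :=
  (congrArg Subtype.val (k1RatEquiv_apply M x)).trans (Subtype.coe_mk _ _)

theorem coe_diamondRat (x : K1 M) :
    ((diamondRat M d u v huv An x : K1 M) : LaurentSeries ℚ) =
      ((diamondLRing (algebraMap ℚ ℂ) M d u v huv An (k1RatEquiv M x) : K1L M ℚ) :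
        LaurentSeries ℚ) := by
  rw [diamondRat, RingEquiv.trans_apply, RingEquiv.trans_apply, coe_k1RatEquiv_symm]

theorem jd_mem_K1 {e : ℕ} [he : NeZero e] (heM : e ∣ M) : qExpand ℚ e jq ∈ K1 M :=
  IntermediateField.subset_adjoin ℚ _ (Or.inl ⟨e, he, heM, rfl⟩)

theorem diamondRat_j {e : ℕ} [he : NeZero e] (heM : e ∣ M) :
    ((diamondRat M d u v huv An ⟨qExpand ℚ e jq, jd_mem_K1 M heM⟩ : K1 M) : LaurentSeries ℚ) =
      qExpand ℚ e jq := by
  rw [coe_diamondRat]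
  have e1 : k1RatEquiv M ⟨qExpand ℚ e jq, jd_mem_K1 M heM⟩ =
      ⟨coeffEmb ℚ (qExpand ℚ e jq), coeffEmb_jd_mem_K1L M heM⟩ :=
    Subtype.ext ((coe_k1RatEquiv M _).trans (coeffEmb_rat _).symm)
  rw [e1, diamondLRing_j (algebraMap ℚ ℂ) M d u v huv An heM, coeffEmb_rat]

theorem diamondRat_weber {a : ℕ} (ha : 0 < a) (haM : a < M) :
    ((diamondRat M d u v huv An ⟨weberQ M a, weberQ_mem_K1 M ha haM⟩ : K1 M) :
      LaurentSeries ℚ) = weberQ M (diaIndex M d a) := by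
  rw [coe_diamondRat]
  have e1 : k1RatEquiv M ⟨weberQ M a, weberQ_mem_K1 M ha haM⟩ =
      ⟨coeffEmb ℚ (weberQ M a), coeffEmb_weberQ_mem_K1L M ha haM⟩ :=
    Subtype.ext ((coe_k1RatEquiv M _).trans (coeffEmb_rat _).symm)
  rw [e1, diamondLRing_weber (algebraMap ℚ ℂ) M d u v huv An ha haM, coeffEmb_rat]

/-- `⟨d⟩` fixes the level `Γ₀(M)` field pointwise. -/
theorem diamondRat_of_mem_full {x : LaurentSeries ℚ} (hx : x ∈ modularFunctionFieldFull M) :
    ((diamondRat M d u v huv An ⟨x, modularFunctionFieldFull_le_K1 M hx⟩ : K1 M) :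
      LaurentSeries ℚ) = x := by
  let T : Subfield (LaurentSeries ℚ) :=
    (RingHom.eqLocusField ((SubringClass.subtype (K1 M)).comp
        (diamondRat M d u v huv An : K1 M →+* K1 M)) (SubringClass.subtype (K1 M))).map
      (SubringClass.subtype (K1 M))
  have hmem : ∀ y : K1 M, (y : LaurentSeries ℚ) ∈ T →
      ((diamondRat M d u v huv An y : K1 M) : LaurentSeries ℚ) = y := by
    rintro y ⟨z, hz, hzy⟩
    have : z = y := Subtype.ext hzy
    rw [← this]
    exact hz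
  have hT : ∀ r : ℚ, algebraMap ℚ (LaurentSeries ℚ) r ∈ T := by
    intro r
    refine ⟨((r : ℚ) : K1 M), ?_, ?_⟩
    · show ((diamondRat M d u v huv An ((r : ℚ) : K1 M) : K1 M) : LaurentSeries ℚ) =
        (((r : ℚ) : K1 M) : LaurentSeries ℚ)
      rw [map_ratCast]
    · show (((r : ℚ) : K1 M) : LaurentSeries ℚ) = algebraMap ℚ (LaurentSeries ℚ) r
      rw [eq_ratCast]
      rfl
  have hle : modularFunctionFieldFull M ≤ T.toIntermediateField hT := by
    rw [modularFunctionFieldFull, IntermediateField.adjoin_le_iff]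
    rintro s ⟨e, he, heM, rfl⟩
    haveI := he
    exact ⟨⟨_, jd_mem_K1 M heM⟩, diamondRat_j M d u v huv An heM, rfl⟩
  exact hmem ⟨x, modularFunctionFieldFull_le_K1 M hx⟩ (hle hx)

section IRR4

variable (ℓ : ℕ) [hℓ : Fact ℓ.Prime] [NeZero ℓ] (u' v' : ℤ) (huv' : u' * M + v' * ℓ = 1)

/-- **IRR-4, closed form**: `ι' (x(q^ℓ)) = ⟨ℓ⟩ x` for `x ∈ K1 M`. -/
theorem atkinEmbQ_beta (x : K1 M) :
    atkinEmbQ M ℓ u' v' huv' An
        ⟨qExpand ℚ ℓ (x : LaurentSeries ℚ), qExpand_mem_K1Lev M ℓ x.2⟩ =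
      ((diamondRat M ℓ u' v' huv' An x : K1 M) : LaurentSeries ℚ) := by
  refine atkinEmbQ_qExpand M ℓ u' v' huv' An
    ((SubringClass.subtype (K1 M)).comp (diamondRat M ℓ u' v' huv' An : K1 M →+* K1 M))
    ?_ ?_ x
  · rintro s ⟨e, he, heM, rfl⟩
    haveI := he
    exact diamondRat_j M ℓ u' v' huv' An heM
  · intro a ha haM
    exact diamondRat_weber M ℓ u' v' huv' An ha haM

end IRR4

end Fermat.Agent.DS.ES
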