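import Mathlib
import Fermat.Agent.DS.ES.AtkinEmbedding
import Fermat.Agent.Jac.CorrComm
import Fermat.Agent.ES.Generators

/-!
# Programme III (S48), J1-port leaf ES₁: the product formula for the Hecke norm on `X₁(M)`

`F = K1Bar M`, `L = K1LevBar M ℓ` (`ℓ ∤ M` prime), `α β : F →ₐ[ℚ̄] L` the two degeneracy maps
(`α x = x`, `β x = x(q^ℓ)` on `q`-expansions), `δ = ⟨ℓ⟩ : F ≃ₐ[ℚ̄] F` the diamond operator
(`W_a ↦ W_{aℓ}`, `j(q^d) ↦ j(q^d)`).  Assume `[L : αF] = ℓ + 1` (AN-5) and the analytic inputs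
`WeberAnalytic M`.  Then for every primitive `ℓ`-th root of unity `ζ`

  `Nm_{L/αF}(β y)(q^ℓ) = y(q^{ℓ²}) · ∏_{b<ℓ} (δ y)(ζ^b q)`        (`productFormula_one`),

the product formula with nebentypus, étale-type (hypothesis `hPF'` of `ES.mapDomain_hecke_et`).

Proof: the `ℓ + 1` embeddings of `L` over `αF` into `ℚ̄((q))` (`αF ↪ ℚ̄((q))` by `q ↦ q^ℓ`) are
`τ_∞ = (q ↦ q^ℓ)` and `τ_b = (q ↦ ζ^b q) ∘ Φ₀`, `Φ₀` the Atkin–Lehner embedding
(`AtkinEmbedding.lean`); they are pairwise distinct (already on `j(q^ℓ)`), so they are all the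
embeddings, and the norm is the product of the conjugates.
-/

set_option autoImplicit false
set_option linter.unusedSectionVars false
set_option linter.style.haveILetI false

noncomputable section

namespace Fermat.Agent.DS.ES

open UpperHalfPlane HahnSeries ModularCurve IntermediateField AlgebraicCurve Fermat.Agent.X0
  Fermat.Agent.Igusa Fermat.Agent.ES Fermat.Agent.DS.X1

variable (M ℓ : ℕ) [NeZero M] [hℓ : Fact ℓ.Prime] [NeZero ℓ] (u v : ℤ)
  (huv : u * M + v * ℓ = 1) (An : WeberAnalytic M)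
  (α β : K1Bar M →ₐ[Kb] K1LevBar M ℓ)
  (hα : ∀ x : K1Bar M, ((α x : K1LevBar M ℓ) : LaurentSeries Kb) = (x : LaurentSeries Kb))
  (hβ : ∀ x : K1Bar M, ((β x : K1LevBar M ℓ) : LaurentSeries Kb) =
    qExpand Kb ℓ (x : LaurentSeries Kb))

/-- the generator `coeffEmb s`, `s ∈ divisorExpansions M ∪ weberSet M`, of `K1Bar M` -/
def genOne {s : LaurentSeries ℚ} (hs : s ∈ divisorExpansions M ∪ weberSet M) : K1Bar M :=
  ⟨coeffEmb Kb s, coeffEmb_mem_laurentBaseChange Kb (IntermediateField.subset_adjoin ℚ _ hs)⟩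

/-- **The diamond hypothesis** (AN-4): `δ` fixes the `j(q^d)` and maps `W_a` to `W_{aℓ mod M}`. -/
def IsDiamondAt (δ : K1Bar M ≃ₐ[Kb] K1Bar M) : Prop :=
  (∀ (s : LaurentSeries ℚ) (hs : s ∈ divisorExpansions M),
    ((δ (genOne M (Or.inl hs)) : K1Bar M) : LaurentSeries Kb) = coeffEmb Kb s) ∧
  ∀ (a : ℕ) (ha : 0 < a) (haM : a < M),
    ((δ (genOne M (Or.inr ⟨a, ha, haM, rfl⟩)) : K1Bar M) : LaurentSeries Kb) =
      coeffEmb Kb (weberQ M (diaIndex M ℓ a))

include hα in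
/-- (P1) `Φ₀ (α x) = x(q^ℓ)`. -/
theorem atkinEmb_alpha (x : K1Bar M) :
    atkinEmb iotaC M ℓ u v huv An (α x) = qExpand Kb ℓ (x : LaurentSeries Kb) := by
  have key : ((atkinEmb iotaC M ℓ u v huv An).toRingHom.comp α.toRingHom : K1Bar M →+* _) =
      (qExpand Kb ℓ).comp (K1Bar M).val.toRingHom := by
    refine ringHom_ext_laurentBaseChange_adjoin (divisorExpansions M ∪ weberSet M) _ _ ?_ ?_
    · intro a
      show atkinEmb iotaC M ℓ u v huv An (α (algebraMap Kb _ a)) =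
        qExpand Kb ℓ (algebraMap Kb (LaurentSeries Kb) a)
      rw [AlgHom.commutes, AlgHom.commutes, qExpand_algebraMap]
    · intro s hs
      show atkinEmb iotaC M ℓ u v huv An (α ⟨coeffEmb Kb s, _⟩) = qExpand Kb ℓ (coeffEmb Kb s)
      have hmem : coeffEmb Kb s ∈ K1LevBar M ℓ := by
        have := (α ⟨coeffEmb Kb s, coeffEmb_mem_laurentBaseChange Kb
          (IntermediateField.subset_adjoin ℚ _ hs)⟩).2
        rwa [hα] at this
      have e : α ⟨coeffEmb Kb s, coeffEmb_mem_laurentBaseChange Kb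
          (IntermediateField.subset_adjoin ℚ _ hs)⟩ = ⟨coeffEmb Kb s, hmem⟩ :=
        Subtype.ext (hα _)
      rw [e, ← coeffEmb_qExpand]
      rcases hs with ⟨d, hd, hdM, rfl⟩ | ⟨a, ha, haM, rfl⟩
      · haveI := hd
        exact atkinEmb_of_pair iotaC M ℓ u v huv An (transPair_j iotaC M ℓ u v huv d hdM) hmem
      · exact atkinEmb_of_pair iotaC M ℓ u v huv An (transPair_weber iotaC M ℓ u v huv An a ha haM) hmem
  exact congrArg (fun f : K1Bar M →+* LaurentSeries Kb => f x) key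

include hβ in
/-- (P2) `Φ₀ (β x) = ⟨ℓ⟩ x`. -/
theorem atkinEmb_beta (δ : K1Bar M ≃ₐ[Kb] K1Bar M) (hδ : IsDiamondAt M ℓ δ) (x : K1Bar M) :
    atkinEmb iotaC M ℓ u v huv An (β x) = ((δ x : K1Bar M) : LaurentSeries Kb) := by
  have key : ((atkinEmb iotaC M ℓ u v huv An).toRingHom.comp β.toRingHom : K1Bar M →+* _) =
      (K1Bar M).val.toRingHom.comp (δ : K1Bar M →+* K1Bar M) := by
    refine ringHom_ext_laurentBaseChange_adjoin (divisorExpansions M ∪ weberSet M) _ _ ?_ ?_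
    · intro a
      show atkinEmb iotaC M ℓ u v huv An (β (algebraMap Kb _ a)) =
        ((δ (algebraMap Kb (K1Bar M) a) : K1Bar M) : LaurentSeries Kb)
      rw [AlgHom.commutes, AlgHom.commutes, AlgEquiv.commutes]
      rfl
    · intro s hs
      show atkinEmb iotaC M ℓ u v huv An (β ⟨coeffEmb Kb s, _⟩) =
        ((δ (genOne M hs) : K1Bar M) : LaurentSeries Kb)
      have hmem : coeffEmb Kb (qExpand ℚ ℓ s) ∈ K1LevBar M ℓ := by
        have := (β ⟨coeffEmb Kb s, coeffEmb_mem_laurentBaseChange Kb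
          (IntermediateField.subset_adjoin ℚ _ hs)⟩).2
        rwa [hβ, ← coeffEmb_qExpand] at this
      have e : β ⟨coeffEmb Kb s, coeffEmb_mem_laurentBaseChange Kb
          (IntermediateField.subset_adjoin ℚ _ hs)⟩ = ⟨coeffEmb Kb (qExpand ℚ ℓ s), hmem⟩ :=
        Subtype.ext ((hβ _).trans (coeffEmb_qExpand ℓ s).symm)
      rw [e]
      rcases hs with ⟨d, hd, hdM, rfl⟩ | ⟨a, ha, haM, rfl⟩
      · haveI := hd
        rw [hδ.1 _ ⟨d, hd, hdM, rfl⟩]
        exact atkinEmb_of_pair iotaC M ℓ u v huv An (transPair_j_beta iotaC M ℓ u v huv d hdM) hmem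
      · rw [hδ.2 a ha haM]
        exact atkinEmb_of_pair iotaC M ℓ u v huv An
          (transPair_weber_beta iotaC M ℓ u v huv An a (diaIndex M ℓ a) ha haM
            (diaIndex_pos M ℓ u v huv ha haM) (diaIndex_lt M ℓ a) (by rw [diaIndex_cast])) hmem
  exact congrArg (fun f : K1Bar M →+* LaurentSeries Kb => f x) key

/-! ### The norm as the product of the conjugates -/

section Norm

open Fermat.Agent.Jac

variable (δ : K1Bar M ≃ₐ[Kb] K1Bar M) (hδ : IsDiamondAt M ℓ δ)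
  (ζ : Kbˣ) (hζ : IsPrimitiveRoot ζ ℓ)

/-- `j(q)` as an element of `K1Bar M` -/
def jOne : K1Bar M := genOne M (Or.inl ⟨1, ⟨one_ne_zero⟩, one_dvd M, rfl⟩)

theorem coe_jOne : ((jOne M : K1Bar M) : LaurentSeries Kb) = J (1 : Kbˣ) 1 := by
  show coeffEmb Kb (qExpand ℚ 1 jq) = _
  rw [coeffEmb_qExpand_jq, J_one_unit_eq_jqNModC]

include hζ in
theorem scale_zeta_pow_qExpand (b : ℕ) (x : LaurentSeries Kb) :
    scale (ζ ^ b) (qExpand Kb ℓ x) = qExpand Kb ℓ x := by
  rw [scale_qExpand, ← pow_mul, mul_comm, pow_mul, hζ.pow_eq_one, one_pow, scale_one_apply]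

theorem J_congr {C : Type*} [CommRing C] (c : Cˣ) {m m' : ℕ} [NeZero m] [NeZero m'] (h : m = m') :
    J c m = J c m' := by
  subst h; rfl

include huv An hα hβ hδ hζ in
/-- **The product formula with nebentypus for `X₁(M)`** (étale-type), from the UPPER bound
`[L : αF] ≤ ℓ + 1` alone (the lower bound comes from the `ℓ + 1` distinct embeddings):
`Nm_{L/αF}(β y)(q^ℓ) = y(q^{ℓ²}) · ∏_{b<ℓ} (⟨ℓ⟩ y)(ζ^b q)`, and `[L : αF] = ℓ + 1`. -/
theorem productFormula_one_le (hfin : FiniteAlong Kb α) (hdeg : finrankAlong Kb α ≤ ℓ + 1)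
    (y : K1Bar M) :
    finrankAlong Kb α = ℓ + 1 ∧
    qExpand Kb ℓ ((normAlong α (β y) : K1Bar M) : LaurentSeries Kb) =
      qExpand Kb (ℓ * ℓ) (y : LaurentSeries Kb) *
        ∏ b ∈ Finset.range ℓ, scale (ζ ^ b) ((δ y : K1Bar M) : LaurentSeries Kb) := by
  classical
  letI algFL : Algebra (K1Bar M) (K1LevBar M ℓ) := algebraAlong α
  haveI : Module.Finite (K1Bar M) (K1LevBar M ℓ) := hfin
  haveI : FiniteDimensional (K1Bar M) (K1LevBar M ℓ) := hfin
  haveI : Algebra.IsSeparable (K1Bar M) (K1LevBar M ℓ) := inferInstance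
  -- the target
  let E := AlgebraicClosure (LaurentSeries Kb)
  let ιF : K1Bar M →+* LaurentSeries Kb := (qExpand Kb ℓ).comp (K1Bar M).val.toRingHom
  letI algFE : Algebra (K1Bar M) E := ((algebraMap (LaurentSeries Kb) E).comp ιF).toAlgebra
  have halgFE : ∀ x : K1Bar M, algebraMap (K1Bar M) E x =
      algebraMap (LaurentSeries Kb) E (qExpand Kb ℓ (x : LaurentSeries Kb)) := fun _ => rfl
  have halgFL : ∀ x : K1Bar M, algebraMap (K1Bar M) (K1LevBar M ℓ) x = α x := fun _ => rfl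
  have hinjE : Function.Injective (algebraMap (LaurentSeries Kb) E) :=
    (algebraMap (LaurentSeries Kb) E).injective
  -- the embeddings
  let Φ₀ := atkinEmb iotaC M ℓ u v huv An
  let τinf : K1LevBar M ℓ →ₐ[K1Bar M] E :=
    { toRingHom := (algebraMap (LaurentSeries Kb) E).comp
        ((qExpand Kb ℓ).comp (K1LevBar M ℓ).val.toRingHom)
      commutes' := fun x => by
        show algebraMap (LaurentSeries Kb) E (qExpand Kb ℓ ((α x : K1LevBar M ℓ) : _)) = _
        rw [hα, halgFE] }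
  let τb : ℕ → (K1LevBar M ℓ →ₐ[K1Bar M] E) := fun b =>
    { toRingHom := (algebraMap (LaurentSeries Kb) E).comp
        ((scale (ζ ^ b)).comp Φ₀.toRingHom)
      commutes' := fun x => by
        show algebraMap (LaurentSeries Kb) E (scale (ζ ^ b) (Φ₀ (α x))) = _
        rw [atkinEmb_alpha M ℓ u v huv An α hα, scale_zeta_pow_qExpand ℓ ζ hζ, halgFE] }
  have hτinf : ∀ x : K1Bar M, τinf (β x) =
      algebraMap (LaurentSeries Kb) E (qExpand Kb (ℓ * ℓ) (x : LaurentSeries Kb)) := by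
    intro x
    show algebraMap (LaurentSeries Kb) E (qExpand Kb ℓ ((β x : K1LevBar M ℓ) : _)) = _
    rw [hβ, qExpand_qExpand]
  have hτb : ∀ (b : ℕ) (x : K1Bar M), τb b (β x) =
      algebraMap (LaurentSeries Kb) E (scale (ζ ^ b) ((δ x : K1Bar M) : LaurentSeries Kb)) := by
    intro b x
    show algebraMap (LaurentSeries Kb) E (scale (ζ ^ b) (Φ₀ (β x))) = _
    rw [atkinEmb_beta M ℓ u v huv An β hβ δ hδ]
  let τ : Option (Fin ℓ) → (K1LevBar M ℓ →ₐ[K1Bar M] E) := fun i =>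
    i.elim τinf (fun b => τb b)
  -- distinctness, tested on `β j`
  have hδj : ((δ (jOne M) : K1Bar M) : LaurentSeries Kb) = J (1 : Kbˣ) 1 := by
    rw [← coe_jOne M]
    exact hδ.1 _ ⟨1, ⟨one_ne_zero⟩, one_dvd M, rfl⟩
  have hvalinf : τinf (β (jOne M)) = algebraMap (LaurentSeries Kb) E (J (1 : Kbˣ) (ℓ * ℓ)) := by
    rw [hτinf, coe_jOne M, qExpand_J]
    exact congrArg _ (J_congr _ (mul_one (ℓ * ℓ)))
  have hvalb : ∀ b : ℕ, τb b (β (jOne M)) =
      algebraMap (LaurentSeries Kb) E (J (ζ ^ b) 1) := by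
    intro b
    rw [hτb, hδj, J_def, J_def, subst_one_nat, subst_one_nat, scale_scale, mul_one]
  have hℓ2 : 2 ≤ ℓ := hℓ.out.two_le
  have hne : ∀ b : ℕ, J (ζ ^ b) 1 ≠ J (1 : Kbˣ) (ℓ * ℓ) := by
    intro b h
    have h1 := congrArg HahnSeries.order h
    rw [order_J, order_J] at h1
    have : (ℓ * ℓ : ℕ) = 1 := by exact_mod_cast (neg_injective h1).symm
    nlinarith
  have hτinj : Function.Injective τ := by
    intro i i' h
    have h' := congrArg (fun f : K1LevBar M ℓ →ₐ[K1Bar M] E => f (β (jOne M))) h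
    rcases i with _ | b <;> rcases i' with _ | b'
    · rfl
    · exfalso
      simp only [τ, Option.elim] at h'
      rw [hvalinf, hvalb] at h'
      exact hne _ (hinjE h').symm
    · exfalso
      simp only [τ, Option.elim] at h'
      rw [hvalinf, hvalb] at h'
      exact hne _ (hinjE h')
    · simp only [τ, Option.elim] at h'
      rw [hvalb, hvalb] at h'
      have h2 := J_pow_injOn (C := Kb) 1 hζ (Finset.mem_coe.mpr (Finset.mem_range.mpr b.2))
        (Finset.mem_coe.mpr (Finset.mem_range.mpr b'.2)) (hinjE h')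
      exact congrArg some (Fin.ext h2)
  have hcard0 : Fintype.card (K1LevBar M ℓ →ₐ[K1Bar M] E) =
      Module.finrank (K1Bar M) (K1LevBar M ℓ) := AlgHom.card (K1Bar M) (K1LevBar M ℓ) E
  have hge : ℓ + 1 ≤ Fintype.card (K1LevBar M ℓ →ₐ[K1Bar M] E) := by
    have h := Fintype.card_le_of_injective τ hτinj
    rwa [Fintype.card_option, Fintype.card_fin] at h
  have hfr : Module.finrank (K1Bar M) (K1LevBar M ℓ) = ℓ + 1 :=
    le_antisymm hdeg (hcard0 ▸ hge)
  have hcard : Fintype.card (K1LevBar M ℓ →ₐ[K1Bar M] E) = ℓ + 1 := by rw [hcard0, hfr]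
  refine ⟨hfr, ?_⟩
  have hbij : Function.Bijective τ := by
    rw [Fintype.bijective_iff_injective_and_card]
    refine ⟨hτinj, ?_⟩
    rw [hcard, Fintype.card_option, Fintype.card_fin]
  -- the norm
  have hnorm := Algebra.norm_eq_prod_embeddings (K1Bar M) E (β y)
  rw [← Fintype.prod_bijective τ hbij (fun i => τ i (β y)) (fun σ => σ (β y)) (fun _ => rfl),
    Fintype.prod_option] at hnorm
  have h1 : τ none (β y) =
      algebraMap (LaurentSeries Kb) E (qExpand Kb (ℓ * ℓ) (y : LaurentSeries Kb)) := hτinf y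
  have h2 : ∀ b : Fin ℓ, τ (some b) (β y) =
      algebraMap (LaurentSeries Kb) E
        (scale (ζ ^ (b : ℕ)) ((δ y : K1Bar M) : LaurentSeries Kb)) := fun b => hτb b y
  rw [h1, Finset.prod_congr rfl (fun b _ => h2 b), ← map_prod, ← map_mul, halgFE,
    Fin.prod_univ_eq_prod_range
      (fun b => scale (ζ ^ b) ((δ y : K1Bar M) : LaurentSeries Kb)) ℓ] at hnorm
  exact hinjE hnorm

include huv An hα hβ hδ hζ in
/-- **The product formula with nebentypus for `X₁(M)`** (étale-type):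
`Nm_{L/αF}(β y)(q^ℓ) = y(q^{ℓ²}) · ∏_{b<ℓ} (⟨ℓ⟩ y)(ζ^b q)`. -/
theorem productFormula_one (hfin : FiniteAlong Kb α) (hdeg : finrankAlong Kb α = ℓ + 1)
    (y : K1Bar M) :
    qExpand Kb ℓ ((normAlong α (β y) : K1Bar M) : LaurentSeries Kb) =
      qExpand Kb (ℓ * ℓ) (y : LaurentSeries Kb) *
        ∏ b ∈ Finset.range ℓ, scale (ζ ^ b) ((δ y : K1Bar M) : LaurentSeries Kb) :=
  (productFormula_one_le M ℓ u v huv An α β hα hβ δ hδ ζ hζ hfin hdeg.le y).2

include huv An hα hβ hδ hζ in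
/-- the exact degree `[L : αF] = ℓ + 1` from the upper bound -/
theorem finrankAlong_alpha_eq (hfin : FiniteAlong Kb α) (hdeg : finrankAlong Kb α ≤ ℓ + 1) :
    finrankAlong Kb α = ℓ + 1 :=
  (productFormula_one_le M ℓ u v huv An α β hα hβ δ hδ ζ hζ hfin hdeg 1).1

end Norm

end Fermat.Agent.DS.ES
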