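import Mathlib
import Fermat.Agent.DS.ES.DiamondTransport
import Fermat.Agent.DS.ES.ProductFormulaOne

/-!
# Programme III (S48), X1-ES: the product formula with the transported diamond

`diamondL iotaC M ℓ u v huv An` (`DiamondTransport.lean`) satisfies `IsDiamondAt M ℓ`, so the
product formula `productFormula_one` holds with `δ := ⟨ℓ⟩` the transported diamond: the only
inputs left are `An : WeberAnalytic M` (AN-1b), the degree `[K1LevBar : α K1Bar] = ℓ + 1` (AN-5)
and the two degeneracy maps `α β` with their coercion lemmas (X1-HECKE).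
-/

set_option autoImplicit false
set_option linter.unusedSectionVars false
set_option linter.style.haveILetI false

noncomputable section

namespace Fermat.Agent.DS.ES

open UpperHalfPlane HahnSeries ModularCurve IntermediateField AlgebraicCurve Fermat.Agent.X0
  Fermat.Agent.Igusa Fermat.Agent.ES Fermat.Agent.DS.X1 Fermat.Agent.Jac

variable (M ℓ : ℕ) [NeZero M] [hℓ : Fact ℓ.Prime] [NeZero ℓ] (u v : ℤ)
  (huv : u * M + v * ℓ = 1) (An : WeberAnalytic M)

/-- **The diamond operator `⟨ℓ⟩` on `K1Bar M`.** -/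
def diamondBar : K1Bar M ≃ₐ[Kb] K1Bar M := diamondL iotaC M ℓ u v huv An

theorem isDiamondAt_diamondBar : IsDiamondAt M ℓ (diamondBar M ℓ u v huv An) := by
  refine ⟨?_, ?_⟩
  · rintro s ⟨d, hd, hdM, rfl⟩
    haveI := hd
    exact diamondL_j iotaC M ℓ u v huv An hdM
  · intro a ha haM
    exact diamondL_weber iotaC M ℓ u v huv An ha haM

/-- **The product formula with nebentypus for `X₁(M)`**, with the transported diamond. -/
theorem productFormula_diamondBar
    (α β : K1Bar M →ₐ[Kb] K1LevBar M ℓ)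
    (hα : ∀ x : K1Bar M, ((α x : K1LevBar M ℓ) : LaurentSeries Kb) = (x : LaurentSeries Kb))
    (hβ : ∀ x : K1Bar M, ((β x : K1LevBar M ℓ) : LaurentSeries Kb) =
      qExpand Kb ℓ (x : LaurentSeries Kb))
    (ζ : Kbˣ) (hζ : IsPrimitiveRoot ζ ℓ)
    (hfin : FiniteAlong Kb α) (hdeg : finrankAlong Kb α = ℓ + 1) (y : K1Bar M) :
    qExpand Kb ℓ ((normAlong α (β y) : K1Bar M) : LaurentSeries Kb) =
      qExpand Kb (ℓ * ℓ) (y : LaurentSeries Kb) *
        ∏ b ∈ Finset.range ℓ,
          scale (ζ ^ b) ((diamondBar M ℓ u v huv An y : K1Bar M) : LaurentSeries Kb) :=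
  productFormula_one M ℓ u v huv An α β hα hβ (diamondBar M ℓ u v huv An)
    (isDiamondAt_diamondBar M ℓ u v huv An) ζ hζ hfin hdeg y

end Fermat.Agent.DS.ES
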