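import Mathlib
import Fermat.Agent.DS.Div.Weber
import Fermat.Agent.DS.ES.DiamondQ
import Fermat.Agent.DS.ES.ProductFormulaDia
import Fermat.Agent.Jac.HeckeCommPF

/-!
# Programme III (S48), X1-ES: the analytic inputs are theorems

helper16's AN-1b (`DS/Div/Weber.lean`: `weberAnZ`, `isQExp_weberAnZ`, `weberAnZ_smul`) gives the
term `weberAnalytic M : WeberAnalytic M`; hence the Atkin–Lehner embedding, the transported
diamonds and the product formula are unconditional in the analytic inputs: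

* `atkinEmbQ' M ℓ u v huv : K1Lev M ℓ →+* ℚ((q))` (IRR-4), `atkinEmbQ'_alpha`, `atkinEmbQ'_beta`;
* `diamondRat' M d u v huv : K1 M ≃+* K1 M`, `diamondBar' M ℓ u v huv : K1Bar M ≃ₐ[ℚ̄] K1Bar M`;
* `productFormula_one'` : the product formula with nebentypus for `X₁(M)`; remaining inputs:
  the degree bound `[K1LevBar : α K1Bar] ≤ ℓ + 1` (AN-5) and the two degeneracy maps;
* `finrankAlong_alpha_eq'` : `[K1LevBar : α K1Bar] = ℓ + 1` from the upper bound.
-/

set_option autoImplicit false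
set_option linter.unusedSectionVars false

noncomputable section

namespace Fermat.Agent.DS.ES

open UpperHalfPlane HahnSeries ModularCurve IntermediateField AlgebraicCurve Fermat.Agent.X0
  Fermat.Agent.Igusa Fermat.Agent.ES Fermat.Agent.DS.X1 Fermat.Agent.Jac

/-- **The analytic Weber functions** (helper16, AN-1b). -/
def weberAnalytic (M : ℕ) [NeZero M] : WeberAnalytic M where
  W := Fermat.Agent.DS.Div.weberAnZ M
  isQExp := fun a ha haM => Fermat.Agent.DS.Div.isQExp_weberAnZ a ha haM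
  slash := fun γ hγ x τ => Fermat.Agent.DS.Div.weberAnZ_smul γ hγ x τ

variable (M ℓ : ℕ) [NeZero M] [hℓ : Fact ℓ.Prime] [NeZero ℓ] (u v : ℤ)
  (huv : u * M + v * ℓ = 1)

/-- **IRR-4**: the second embedding `ι'` of `K1Lev M ℓ` into `ℚ((q))`, unconditional. -/
def atkinEmbQ' : K1Lev M ℓ →+* LaurentSeries ℚ := atkinEmbQ M ℓ u v huv (weberAnalytic M)

/-- the diamond `⟨ℓ⟩` of `K1 M`, unconditional -/
def diamondRat' : K1 M ≃+* K1 M := diamondRat M ℓ u v huv (weberAnalytic M)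

theorem atkinEmbQ'_alpha (x : K1 M) :
    atkinEmbQ' M ℓ u v huv ⟨(x : LaurentSeries ℚ), K1_le_K1Lev M ℓ x.2⟩ =
      qExpand ℚ ℓ (x : LaurentSeries ℚ) :=
  atkinEmbQ_of_mem_K1 M ℓ u v huv (weberAnalytic M) x

theorem atkinEmbQ'_beta (x : K1 M) :
    atkinEmbQ' M ℓ u v huv ⟨qExpand ℚ ℓ (x : LaurentSeries ℚ), qExpand_mem_K1Lev M ℓ x.2⟩ =
      ((diamondRat' M ℓ u v huv x : K1 M) : LaurentSeries ℚ) :=
  atkinEmbQ_beta M (weberAnalytic M) ℓ u v huv x

theorem diamondRat'_weber {a : ℕ} (ha : 0 < a) (haM : a < M) :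
    ((diamondRat' M ℓ u v huv ⟨weberQ M a, weberQ_mem_K1 M ha haM⟩ : K1 M) : LaurentSeries ℚ) =
      weberQ M (diaIndex M ℓ a) :=
  diamondRat_weber M ℓ u v huv (weberAnalytic M) ha haM

theorem diamondRat'_of_mem_full {x : LaurentSeries ℚ} (hx : x ∈ modularFunctionFieldFull M) :
    ((diamondRat' M ℓ u v huv ⟨x, modularFunctionFieldFull_le_K1 M hx⟩ : K1 M) :
      LaurentSeries ℚ) = x :=
  diamondRat_of_mem_full M ℓ u v huv (weberAnalytic M) hx

/-- the diamond `⟨ℓ⟩` of `K1Bar M`, unconditional -/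
def diamondBar' : K1Bar M ≃ₐ[Kb] K1Bar M := diamondBar M ℓ u v huv (weberAnalytic M)

theorem isDiamondAt_diamondBar' : IsDiamondAt M ℓ (diamondBar' M ℓ u v huv) :=
  isDiamondAt_diamondBar M ℓ u v huv (weberAnalytic M)

include huv in
/-- **The product formula with nebentypus for `X₁(M)`**, for any automorphism `δ` acting on the
generators as the diamond `⟨ℓ⟩`; the analytic inputs are discharged and only the UPPER bound
`[K1LevBar : α K1Bar] ≤ ℓ + 1` is needed. -/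
theorem productFormula_one'
    (α β : K1Bar M →ₐ[Kb] K1LevBar M ℓ)
    (hα : ∀ x : K1Bar M, ((α x : K1LevBar M ℓ) : LaurentSeries Kb) = (x : LaurentSeries Kb))
    (hβ : ∀ x : K1Bar M, ((β x : K1LevBar M ℓ) : LaurentSeries Kb) =
      qExpand Kb ℓ (x : LaurentSeries Kb))
    (δ : K1Bar M ≃ₐ[Kb] K1Bar M) (hδ : IsDiamondAt M ℓ δ)
    (ζ : Kbˣ) (hζ : IsPrimitiveRoot ζ ℓ)
    (hfin : FiniteAlong Kb α) (hdeg : finrankAlong Kb α ≤ ℓ + 1) (y : K1Bar M) :
    qExpand Kb ℓ ((normAlong α (β y) : K1Bar M) : LaurentSeries Kb) =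
      qExpand Kb (ℓ * ℓ) (y : LaurentSeries Kb) *
        ∏ b ∈ Finset.range ℓ, scale (ζ ^ b) ((δ y : K1Bar M) : LaurentSeries Kb) :=
  (productFormula_one_le M ℓ u v huv (weberAnalytic M) α β hα hβ δ hδ ζ hζ hfin hdeg y).2

include huv in
/-- the exact degree `[K1LevBar : α K1Bar] = ℓ + 1` from the upper bound (the lower bound is given
by the `ℓ + 1` distinct embeddings) -/
theorem finrankAlong_alpha_eq'
    (α β : K1Bar M →ₐ[Kb] K1LevBar M ℓ)
    (hα : ∀ x : K1Bar M, ((α x : K1LevBar M ℓ) : LaurentSeries Kb) = (x : LaurentSeries Kb))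
    (hβ : ∀ x : K1Bar M, ((β x : K1LevBar M ℓ) : LaurentSeries Kb) =
      qExpand Kb ℓ (x : LaurentSeries Kb))
    (hfin : FiniteAlong Kb α) (hdeg : finrankAlong Kb α ≤ ℓ + 1) :
    finrankAlong Kb α = ℓ + 1 := by
  obtain ⟨ζ, hζ⟩ := Fermat.Agent.Jac.exists_primitiveRoot_unit ℓ
  exact finrankAlong_alpha_eq M ℓ u v huv (weberAnalytic M) α β hα hβ (diamondBar' M ℓ u v huv)
    (isDiamondAt_diamondBar' M ℓ u v huv) ζ hζ hfin hdeg

end Fermat.Agent.DS.ES
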