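import Mathlib
import Fermat.Agent.DS.ES.DiamondLev
import Fermat.Agent.DS.ES.WeberInst
import Fermat.Agent.DS.X1Hecke.Comm

/-!
# Programme III (S48), X1-AN leaf AN-4-LEV: every diamond extends to level `(M; p)`

`extendsToLevel_of_generators` : let `δ` be an `L`-algebra automorphism of `K1L L M`
(`L` any field with an embedding `ι : L →+* ℂ`) acting on the generators as the diamond `⟨c⟩`,
`c ∈ (ℤ/M)ˣ`: `δ j(q^e) = j(q^e)` (`e ∣ M`), `δ W_a = W_{a c mod M}`.  Then for every prime `p ∤ M`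
`δ` extends to level `(M; p)` compatibly with both degeneracy maps
(`X1Hecke.ExtendsToLevel δ p`, the field `dia_ext` of helper24's `HeckeInputsOne`).

The extension is the analytic transport of `K1LevL L M p` along `γ ∈ Γ₀(M p)` with
`γ₀₀ ≡ c mod M` (`DiamondLev.lean`); the analytic inputs are discharged by `weberAnalytic M`.
-/

set_option autoImplicit false
set_option linter.unusedSectionVars false
set_option linter.style.haveILetI false

noncomputable section

namespace Fermat.Agent.DS.ES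

open UpperHalfPlane HahnSeries ModularCurve IntermediateField Fermat.Agent.X0 Fermat.Agent.Igusa
  Fermat.Agent.ES Fermat.Agent.DS.X1 Fermat.Agent.S23 Fermat.Agent.S23.PrimEltQExp
open scoped MatrixGroups

/-- a matrix of `Γ₀(M p)` with prescribed upper left entry mod `M` -/
theorem exists_Gamma0_level_upperLeft (M p : ℕ) [NeZero M] (hp : p.Prime) (hpM : ¬ p ∣ M)
    (c : (ZMod M)ˣ) :
    ∃ γ : SL(2, ℤ), γ ∈ CongruenceSubgroup.Gamma0 (M * p) ∧
      (((γ 0 0 : ℤ)) : ZMod M) = (c : ZMod M) := by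
  have hcop : Nat.Coprime M p := ((Nat.Prime.coprime_iff_not_dvd hp).mpr hpM).symm
  obtain ⟨a, ha1, ha2⟩ := Nat.chineseRemainder hcop (c : ZMod M).val 1
  have haM : ((a : ℕ) : ZMod M) = (c : ZMod M) := by
    have := (ZMod.natCast_eq_natCast_iff a (c : ZMod M).val M).mpr ha1
    rw [this, ZMod.natCast_zmod_val]
  have hcopM : Nat.Coprime a M := by
    rw [← ZMod.isUnit_iff_coprime, haM]
    exact c.isUnit
  have hcopp : Nat.Coprime a p := by
    have h := Nat.ModEq.gcd_eq ha2
    rw [Nat.Coprime, h]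
    exact Nat.gcd_one_left p
  have hcopMp : Nat.Coprime a (M * p) := Nat.Coprime.mul_right hcopM hcopp
  have hbez := Nat.gcd_eq_gcd_ab a (M * p)
  rw [hcopMp.gcd_eq_one] at hbez
  have hdet : Matrix.det !![(a : ℤ), -(Nat.gcdB a (M * p)); ((M * p : ℕ) : ℤ), Nat.gcdA a (M * p)]
      = 1 := by
    rw [Matrix.det_fin_two_of]
    push_cast at hbez ⊢
    linarith
  refine ⟨⟨_, hdet⟩, ?_, ?_⟩
  · rw [CongruenceSubgroup.Gamma0_mem]
    show ((((M * p : ℕ) : ℤ)) : ZMod (M * p)) = 0
    rw [Int.cast_natCast, ZMod.natCast_self]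
  · show (((a : ℤ)) : ZMod M) = (c : ZMod M)
    rw [Int.cast_natCast, haM]

section Ext

variable {L : Type*} [Field L] [Algebra ℚ L] (ι : L →+* ℂ)
variable (M p : ℕ) [NeZero M] [hp : Fact p.Prime] [NeZero p]

include ι in
/-- **Every diamond extends to level `(M; p)`.** -/
theorem extendsToLevel_of_generators (hpM : ¬ p ∣ M)
    (δ : K1L M L ≃ₐ[L] K1L M L) (c : (ZMod M)ˣ)
    (hδj : ∀ (e : ℕ) [NeZero e] (heM : e ∣ M),
      ((δ ⟨coeffEmb L (qExpand ℚ e jq), coeffEmb_jd_mem_K1L M heM⟩ : K1L M L) :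
        LaurentSeries L) = coeffEmb L (qExpand ℚ e jq))
    (hδW : ∀ (a : ℕ) (ha : 0 < a) (haM : a < M),
      ((δ ⟨coeffEmb L (weberQ M a), coeffEmb_weberQ_mem_K1L M ha haM⟩ : K1L M L) :
        LaurentSeries L) = coeffEmb L (weberQ M (diaVal M (c : ZMod M) a))) :
    Fermat.Agent.DS.X1Hecke.ExtendsToLevel δ p := by
  obtain ⟨γ, hγ, hγc⟩ := exists_Gamma0_level_upperLeft M p hp.out hpM c
  let An := weberAnalytic M
  refine ⟨levDiamondGamma ι M p An γ hγ, ?_, ?_⟩
  · -- `α`
    have key : (Fermat.Agent.DS.X1Hecke.alphaOneBar L M p).comp (δ : K1L M L →ₐ[L] K1L M L) =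
        ((levDiamondGamma ι M p An γ hγ : K1LevL M p L ≃ₐ[L] K1LevL M p L) :
          K1LevL M p L →ₐ[L] K1LevL M p L).comp (Fermat.Agent.DS.X1Hecke.alphaOneBar L M p) := by
      refine algHom_ext_K1L M _ _ ?_ ?_
      · intro e _ heM
        apply Subtype.ext
        show ((Fermat.Agent.DS.X1Hecke.alphaOneBar L M p (δ _) : K1LevL M p L) :
            LaurentSeries L) = levDiamondHom ι M p An γ hγ
              (Fermat.Agent.DS.X1Hecke.alphaOneBar L M p _)
        have e1 : Fermat.Agent.DS.X1Hecke.alphaOneBar L M p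
            ⟨coeffEmb L (qExpand ℚ e jq), coeffEmb_jd_mem_K1L M heM⟩ =
            ⟨coeffEmb L (qExpand ℚ e jq),
              coeffEmb_jLev_mem M p (Dvd.dvd.mul_right heM p)⟩ :=
          Subtype.ext (Fermat.Agent.DS.X1Hecke.coe_alphaOneBar L M p _)
        rw [Fermat.Agent.DS.X1Hecke.coe_alphaOneBar, hδj e heM, e1,
          levDiamondHom_j ι M p An γ hγ (Dvd.dvd.mul_right heM p)]
      · intro a ha haM
        apply Subtype.ext
        show ((Fermat.Agent.DS.X1Hecke.alphaOneBar L M p (δ _) : K1LevL M p L) :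
            LaurentSeries L) = levDiamondHom ι M p An γ hγ
              (Fermat.Agent.DS.X1Hecke.alphaOneBar L M p _)
        have e1 : Fermat.Agent.DS.X1Hecke.alphaOneBar L M p
            ⟨coeffEmb L (weberQ M a), coeffEmb_weberQ_mem_K1L M ha haM⟩ =
            ⟨coeffEmb L (weberQ M a), coeffEmb_weberLev_mem M p ha haM⟩ :=
          Subtype.ext (Fermat.Agent.DS.X1Hecke.coe_alphaOneBar L M p _)
        rw [Fermat.Agent.DS.X1Hecke.coe_alphaOneBar, hδW a ha haM, e1,
          levDiamondHom_weber ι M p An γ hγ ha haM, hγc]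
    intro y
    exact congrArg (fun f : K1L M L →ₐ[L] K1LevL M p L => f y) key
  · -- `β`
    have key : (Fermat.Agent.DS.X1Hecke.betaOneBar L M p).comp (δ : K1L M L →ₐ[L] K1L M L) =
        ((levDiamondGamma ι M p An γ hγ : K1LevL M p L ≃ₐ[L] K1LevL M p L) :
          K1LevL M p L →ₐ[L] K1LevL M p L).comp (Fermat.Agent.DS.X1Hecke.betaOneBar L M p) := by
      refine algHom_ext_K1L M _ _ ?_ ?_
      · intro e _ heM
        haveI : NeZero (p * e) := ⟨mul_ne_zero (NeZero.ne p) (NeZero.ne e)⟩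
        have hdvd : p * e ∣ M * p := by rw [mul_comm p e]; exact Nat.mul_dvd_mul_right heM p
        apply Subtype.ext
        show ((Fermat.Agent.DS.X1Hecke.betaOneBar L M p (δ _) : K1LevL M p L) :
            LaurentSeries L) = levDiamondHom ι M p An γ hγ
              (Fermat.Agent.DS.X1Hecke.betaOneBar L M p _)
        have e0 : qExpand L p (coeffEmb L (qExpand ℚ e jq)) =
            coeffEmb L (qExpand ℚ (p * e) jq) := by
          rw [← coeffEmb_qExpand, qExpand_qExpand_rat p e (p * e) rfl]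
        have e1 : Fermat.Agent.DS.X1Hecke.betaOneBar L M p
            ⟨coeffEmb L (qExpand ℚ e jq), coeffEmb_jd_mem_K1L M heM⟩ =
            ⟨coeffEmb L (qExpand ℚ (p * e) jq), coeffEmb_jLev_mem M p hdvd⟩ :=
          Subtype.ext ((Fermat.Agent.DS.X1Hecke.coe_betaOneBar L M p _).trans e0)
        rw [Fermat.Agent.DS.X1Hecke.coe_betaOneBar, hδj e heM, e1,
          levDiamondHom_j ι M p An γ hγ hdvd, e0]
      · intro a ha haM
        apply Subtype.ext
        show ((Fermat.Agent.DS.X1Hecke.betaOneBar L M p (δ _) : K1LevL M p L) :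
            LaurentSeries L) = levDiamondHom ι M p An γ hγ
              (Fermat.Agent.DS.X1Hecke.betaOneBar L M p _)
        have e1 : Fermat.Agent.DS.X1Hecke.betaOneBar L M p
            ⟨coeffEmb L (weberQ M a), coeffEmb_weberQ_mem_K1L M ha haM⟩ =
            ⟨coeffEmb L (qExpand ℚ p (weberQ M a)), coeffEmb_weberScale_mem M p ha haM⟩ :=
          Subtype.ext ((Fermat.Agent.DS.X1Hecke.coe_betaOneBar L M p _).trans
            (coeffEmb_qExpand p _).symm)
        rw [Fermat.Agent.DS.X1Hecke.coe_betaOneBar, hδW a ha haM, e1,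
          levDiamondHom_weberScale ι M p An γ hγ ha haM, hγc, ← coeffEmb_qExpand]
    intro y
    exact congrArg (fun f : K1L M L →ₐ[L] K1LevL M p L => f y) key

end Ext

end Fermat.Agent.DS.ES
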