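import Mathlib
import Fermat.Agent.Hecke.ESDivisor2
import Fermat.Prelude.Def_AlgebraicCurve_BaseChangeGalois

/-!
# Programme III (S48), J1-port leaf ES₁: the abstract Eichler–Shimura congruence with nebentypus

`S : RedSetup A π` a valued function field `F/K` with residue function field `Ft/k` and conserving
place reduction `S.r`.  Let `T : Divisor K F →+ Divisor K F` be a positive additive map multiplying
degrees by a constant (the Hecke correspondence `T_ℓ`), and let `σ τ : SemilinearAut k Ft` be two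
semilinear automorphisms of the residue function field (in the application `σ` is the
coefficientwise Frobenius and `τ = δ * σ⁻¹` with `δ` the reduction of the diamond operator `⟨ℓ⟩`).

* `mapDomain_r_eq_of_norm` : **norm form**.  If for every unit `y` of `S.O` the divisor
  `T (div y)` is the divisor of a unit `Y` of `S.O` with `res Y = (τ • res y) ^ ℓ * (σ • res y)`,
  then `r_* (T D) = σ • r_* D + ℓ • (τ • r_* D)` for every divisor `D` of degree zero.
* `redPic0_congruence` : the same congruence on `Pic⁰`: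
  `red (Tb x) = σ • red x + ℓ • (τ • red x)`.
* `redPic0_nebentypus` : the specialisation `τ = δ * σ⁻¹`:
  `red (Tb x) = σ • red x + ℓ • (δ • σ⁻¹ • red x)`   (`T_ℓ ≡ F + ⟨ℓ⟩_* V`).
* `frobQuadNeb_eq_zero` : **the Eichler–Shimura relation with nebentypus on torsion**.  If `s` is an
  additive endomorphism of `Pic⁰(F)` (a Frobenius element of the decomposition group) with
  `red ∘ s = σ • red`, `dia` an additive endomorphism (the diamond operator `⟨ℓ⟩`) with
  `red ∘ dia = δ • red`, and `red` is injective on the `m`-torsion, then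
  `s (s x) - Tb (s x) + ℓ • dia x = 0` for every `x` killed by `m` (no commutation hypothesis).
-/

set_option autoImplicit false

namespace Fermat.Agent.DS.ES

open AlgebraicCurve Fermat.Agent.Red Fermat.Agent.Hecke

section Semilinear

variable {K F : Type*} [Field K] [Field F] [Algebra K F] [HasPrincipalDivisors K F]

/-- `div (g • f) = g • div f` for a semilinear automorphism `g`. -/
theorem divOf_smul_semilinear (g : SemilinearAut K F) (f : F) :
    divOf K (g • f) = g • divOf K f := by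
  ext w
  rw [SemilinearAut.divisor_smul_apply, divOf_apply, divOf_apply]
  have h := SemilinearAut.ord_smul g (g⁻¹ • w) f
  rwa [smul_inv_smul] at h

omit [HasPrincipalDivisors K F] in
theorem semilinear_smul_nonneg (g : SemilinearAut K F) {D : Divisor K F} (hD : 0 ≤ D) :
    0 ≤ g • D := by
  intro w
  rw [SemilinearAut.divisor_smul_apply]
  exact hD _

/-- The divisor of `(τ y)^ℓ · σ y`. -/
theorem divOf_pow_mul_semilinear (σ τ : SemilinearAut K F) (ℓ : ℕ) (y : F) (hy : y ≠ 0) :
    divOf K ((τ • y) ^ ℓ * (σ • y)) = σ • divOf K y + ℓ • (τ • divOf K y) := by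
  have ha0 : τ • y ≠ 0 := (smul_ne_zero_iff_ne τ).mpr hy
  have hb0 : σ • y ≠ 0 := (smul_ne_zero_iff_ne σ).mpr hy
  rw [divOf_mul (pow_ne_zero _ ha0) hb0, divOf_pow, divOf_smul_semilinear, divOf_smul_semilinear,
    add_comm]

end Semilinear

variable {K F k Ft : Type*} [Field K] [Field F] [Algebra K F] [Field k] [Field Ft] [Algebra k Ft]
  {A : ValuationSubring K} {π : A →+* k} (S : RedSetup (F := F) (Ft := Ft) A π)

/-- The additive endomorphism of divisors induced by a semilinear automorphism. -/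
noncomputable def smulHom (g : SemilinearAut k Ft) : Divisor k Ft →+ Divisor k Ft :=
  DistribSMul.toAddMonoidHom (Divisor k Ft) g

@[simp]
theorem smulHom_apply (g : SemilinearAut k Ft) (E : Divisor k Ft) : smulHom g E = g • E := rfl

section Congruence

variable [HasPrincipalDivisors K F] [HasPrincipalDivisors k Ft]
  (hF : RiemannPkg K F) (hFt : RiemannPkg k Ft)
  (T : Divisor K F →+ Divisor K F) (hT : ∀ D, 0 ≤ D → 0 ≤ T D)
  (c : ℤ) (hTdeg : ∀ D, Divisor.degree (T D) = c * Divisor.degree D)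
  (ℓ : ℕ) (σ τ : SemilinearAut k Ft)

include hF hFt hT hTdeg in
/-- **Eichler–Shimura congruence with nebentypus on divisors of degree zero, divisor form**: from
the congruence on the principal divisors of the units of `S.O`. -/
theorem mapDomain_r_eq_of_units_semilinear
    (hprin : ∀ y : S.O, S.res y ≠ 0 →
      Finsupp.mapDomain S.r (T (divOf K (y : F))) =
        σ • divOf k (S.res y) + ℓ • (τ • divOf k (S.res y)))
    (D : Divisor K F) (hD : Divisor.degree D = 0) :
    Finsupp.mapDomain S.r (T D) =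
      σ • Finsupp.mapDomain S.r D + ℓ • (τ • Finsupp.mapDomain S.r D) := by
  have key := mapDomain_r_eq_of_units' S hF hFt T hT (smulHom σ) (ℓ • smulHom τ)
    (fun E hE => semilinear_smul_nonneg σ hE)
    (fun E hE => by
      rw [AddMonoidHom.nsmul_apply, smulHom_apply]
      exact nsmul_nonneg (semilinear_smul_nonneg τ hE) ℓ)
    1 (ℓ : ℤ) c hTdeg
    (fun E => by rw [smulHom_apply, SemilinearAut.degree_smul, one_mul])
    (fun E => by
      rw [AddMonoidHom.nsmul_apply, smulHom_apply, map_nsmul, SemilinearAut.degree_smul,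
        nsmul_eq_mul])
    (fun y hy => by
      rw [hprin y hy, smulHom_apply, AddMonoidHom.nsmul_apply, smulHom_apply])
    D hD
  rw [key, smulHom_apply, AddMonoidHom.nsmul_apply, smulHom_apply]

include hF hFt hT hTdeg in
/-- **Eichler–Shimura congruence with nebentypus on divisors of degree zero, norm form.**  If
`T (div y) = div Y` with `res Y = (τ • res y) ^ ℓ * (σ • res y)` for all units `y` of `S.O`, then
`r_* (T D) = σ • r_* D + ℓ • (τ • r_* D)` for all divisors `D` of degree zero. -/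
theorem mapDomain_r_eq_of_norm
    (hnorm : ∀ y : S.O, S.res y ≠ 0 → ∃ Y : S.O, T (divOf K (y : F)) = divOf K (Y : F) ∧
      S.res Y = (τ • S.res y) ^ ℓ * (σ • S.res y))
    (D : Divisor K F) (hD : Divisor.degree D = 0) :
    Finsupp.mapDomain S.r (T D) =
      σ • Finsupp.mapDomain S.r D + ℓ • (τ • Finsupp.mapDomain S.r D) := by
  refine mapDomain_r_eq_of_units_semilinear S hF hFt T hT c hTdeg ℓ σ τ ?_ D hD
  intro y hy
  obtain ⟨Y, hY, hres⟩ := hnorm y hy
  have hYne : S.res Y ≠ 0 := by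
    rw [hres]
    exact mul_ne_zero (pow_ne_zero _ ((smul_ne_zero_iff_ne τ).mpr hy))
      ((smul_ne_zero_iff_ne σ).mpr hy)
  have h1 := pushPlaces_divOf_unit S Y hYne
  rw [pushPlaces_apply] at h1
  rw [hY, h1, hres, divOf_pow_mul_semilinear σ τ ℓ _ hy]

end Congruence

section Pic0

variable [HasPrincipalDivisors K F] [HasPrincipalDivisors k Ft]
  (T : Divisor K F →+ Divisor K F) (ℓ : ℕ) (σ τ : SemilinearAut k Ft)

/-- **Eichler–Shimura congruence with nebentypus on `Pic⁰`**: `red ∘ Tb = (σ + ℓ τ) ∘ red`. -/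
theorem redPic0_congruence
    (hcong : ∀ D : Divisor K F, Divisor.degree D = 0 →
      Finsupp.mapDomain S.r (T D) =
        σ • Finsupp.mapDomain S.r D + ℓ • (τ • Finsupp.mapDomain S.r D))
    (Tb : Pic0 K F →+ Pic0 K F)
    (hTb : ∀ D : Divisor.degZero (K := K) (F := F),
      ∃ h : T D ∈ Divisor.degZero (K := K) (F := F), Tb (Pic0.mk D) = Pic0.mk ⟨T D, h⟩)
    (x : Pic0 K F) :
    redPic0 S (Tb x) = σ • redPic0 S x + ℓ • (τ • redPic0 S x) := by
  obtain ⟨D, rfl⟩ := Pic0.mk_surjective x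
  obtain ⟨h1, e1⟩ := hTb D
  rw [e1, redPic0_mk, redPic0_mk, SemilinearAut.pic0_smul_mk, SemilinearAut.pic0_smul_mk]
  have hn : ∀ E : Divisor.degZero (K := k) (F := Ft), ℓ • Pic0.mk E = Pic0.mk (ℓ • E) :=
    fun E => rfl
  rw [hn, ← Pic0.mk_add]
  refine congrArg Pic0.mk (Subtype.ext ?_)
  exact hcong D (Divisor.mem_degZero.mp D.2)

/-- The specialisation `τ = δ * σ⁻¹`: `T_ℓ ≡ F + ⟨ℓ⟩_* V` on `Pic⁰`. -/
theorem redPic0_nebentypus (δ : SemilinearAut k Ft)
    (hcong : ∀ D : Divisor K F, Divisor.degree D = 0 →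
      Finsupp.mapDomain S.r (T D) =
        σ • Finsupp.mapDomain S.r D + ℓ • ((δ * σ⁻¹) • Finsupp.mapDomain S.r D))
    (Tb : Pic0 K F →+ Pic0 K F)
    (hTb : ∀ D : Divisor.degZero (K := K) (F := F),
      ∃ h : T D ∈ Divisor.degZero (K := K) (F := F), Tb (Pic0.mk D) = Pic0.mk ⟨T D, h⟩)
    (x : Pic0 K F) :
    redPic0 S (Tb x) = σ • redPic0 S x + ℓ • (δ • σ⁻¹ • redPic0 S x) := by
  rw [redPic0_congruence S T ℓ σ (δ * σ⁻¹) hcong Tb hTb x, mul_smul]

end Pic0

section Relation

variable [HasPrincipalDivisors K F] [HasPrincipalDivisors k Ft]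

/-- **The Eichler–Shimura relation with nebentypus**, formal part.  `red : J →+ Jt` any additive
map, `σ δ` automorphisms of `Jt` (no commutation needed), `s dia Tb` endomorphisms of `J` with
`red ∘ s = σ ∘ red`, `red ∘ dia = δ ∘ red`, `red ∘ Tb = (σ + ℓ δ σ⁻¹) ∘ red`.  Then
`red (s (s x) - Tb (s x) + ℓ • dia x) = 0`. -/
theorem red_frobQuadNeb_eq_zero {J Jt G : Type*} [AddCommGroup J] [AddCommGroup Jt] [Group G]
    [DistribMulAction G Jt] (red : J →+ Jt) (σ δ : G) (ℓ : ℕ)
    (s dia Tb : J →+ J)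
    (hs : ∀ x, red (s x) = σ • red x) (hdia : ∀ x, red (dia x) = δ • red x)
    (hTb : ∀ x, red (Tb x) = σ • red x + ℓ • (δ • σ⁻¹ • red x)) (x : J) :
    red (s (s x) - Tb (s x) + ℓ • dia x) = 0 := by
  rw [map_add, map_sub, map_nsmul, hs, hs, hTb, hs, hdia, inv_smul_smul, sub_add_eq_sub_sub,
    sub_self, zero_sub, neg_add_cancel]

/-- **The Eichler–Shimura relation with nebentypus on torsion**: if moreover `red` is injective on
the elements killed by `m`, then `s² - Tb s + ℓ ⟨ℓ⟩ = 0` on the elements killed by `m`. -/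
theorem frobQuadNeb_eq_zero {J Jt G : Type*} [AddCommGroup J] [AddCommGroup Jt] [Group G]
    [DistribMulAction G Jt] (red : J →+ Jt) (σ δ : G) (ℓ : ℕ)
    (s dia Tb : J →+ J)
    (hs : ∀ x, red (s x) = σ • red x) (hdia : ∀ x, red (dia x) = δ • red x)
    (hTb : ∀ x, red (Tb x) = σ • red x + ℓ • (δ • σ⁻¹ • red x))
    (m : ℕ) (hinj : ∀ x : J, m • x = 0 → red x = 0 → x = 0) (x : J) (hx : m • x = 0) :
    s (s x) - Tb (s x) + ℓ • dia x = 0 := by
  refine hinj _ ?_ (red_frobQuadNeb_eq_zero red σ δ ℓ s dia Tb hs hdia hTb x)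
  rw [smul_add, smul_sub, ← map_nsmul, ← map_nsmul, ← map_nsmul, ← map_nsmul, smul_comm m ℓ,
    ← map_nsmul, hx, map_zero, map_zero, map_zero, map_zero, sub_self, smul_zero, add_zero]

/-- Formal relation, μ-type model with `τ = σ⁻¹ * δ` (as produced by `mapDomain_hecke_mu`):
`red (s (s x) - s (Tb x) + ℓ • dia x) = 0`; no commutation hypothesis. -/
theorem red_frobQuadNeb_mu {J Jt G : Type*} [AddCommGroup J] [AddCommGroup Jt] [Group G]
    [DistribMulAction G Jt] (red : J →+ Jt) (σ δ : G) (ℓ : ℕ)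
    (s dia Tb : J →+ J)
    (hs : ∀ x, red (s x) = σ • red x) (hdia : ∀ x, red (dia x) = δ • red x)
    (hTb : ∀ x, red (Tb x) = σ • red x + ℓ • ((σ⁻¹ * δ) • red x)) (x : J) :
    red (s (s x) - s (Tb x) + ℓ • dia x) = 0 := by
  have h : σ • (σ⁻¹ * δ) • red x = δ • red x := by rw [smul_smul, mul_inv_cancel_left]
  rw [map_add, map_sub, map_nsmul, hs, hs, hs, hTb, hdia, smul_add, smul_comm σ ℓ, h,
    sub_add_eq_sub_sub, sub_self, zero_sub, neg_add_cancel]

/-- Formal relation, étale-type model (as produced by `mapDomain_hecke_et`):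
`red (s (dia (s x)) - Tb (s x) + ℓ • x) = 0`; no commutation hypothesis. -/
theorem red_frobQuadNeb_et {J Jt G : Type*} [AddCommGroup J] [AddCommGroup Jt] [Group G]
    [DistribMulAction G Jt] (red : J →+ Jt) (σ δ : G) (ℓ : ℕ)
    (s dia Tb : J →+ J)
    (hs : ∀ x, red (s x) = σ • red x) (hdia : ∀ x, red (dia x) = δ • red x)
    (hTb : ∀ x, red (Tb x) = (σ * δ) • red x + ℓ • (σ⁻¹ • red x)) (x : J) :
    red (s (dia (s x)) - Tb (s x) + ℓ • x) = 0 := by
  rw [map_add, map_sub, map_nsmul, hs, hdia, hs, hTb, hs, inv_smul_smul, mul_smul,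
    sub_add_eq_sub_sub, sub_self, zero_sub, neg_add_cancel]

/-- μ-type relation on the elements killed by `m`. -/
theorem frobQuadNeb_mu_eq_zero {J Jt G : Type*} [AddCommGroup J] [AddCommGroup Jt] [Group G]
    [DistribMulAction G Jt] (red : J →+ Jt) (σ δ : G) (ℓ : ℕ)
    (s dia Tb : J →+ J)
    (hs : ∀ x, red (s x) = σ • red x) (hdia : ∀ x, red (dia x) = δ • red x)
    (hTb : ∀ x, red (Tb x) = σ • red x + ℓ • ((σ⁻¹ * δ) • red x))
    (m : ℕ) (hinj : ∀ x : J, m • x = 0 → red x = 0 → x = 0) (x : J) (hx : m • x = 0) :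
    s (s x) - s (Tb x) + ℓ • dia x = 0 := by
  refine hinj _ ?_ (red_frobQuadNeb_mu red σ δ ℓ s dia Tb hs hdia hTb x)
  have h1 : m • s (s x) = 0 := by rw [← map_nsmul, ← map_nsmul, hx, map_zero, map_zero]
  have h2 : m • s (Tb x) = 0 := by rw [← map_nsmul, ← map_nsmul, hx, map_zero, map_zero]
  have h3 : m • dia x = 0 := by rw [← map_nsmul, hx, map_zero]
  rw [smul_add, smul_sub, h1, h2, smul_comm m ℓ, h3, sub_self, smul_zero, add_zero]

/-- étale-type relation on the elements killed by `m`. -/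
theorem frobQuadNeb_et_eq_zero {J Jt G : Type*} [AddCommGroup J] [AddCommGroup Jt] [Group G]
    [DistribMulAction G Jt] (red : J →+ Jt) (σ δ : G) (ℓ : ℕ)
    (s dia Tb : J →+ J)
    (hs : ∀ x, red (s x) = σ • red x) (hdia : ∀ x, red (dia x) = δ • red x)
    (hTb : ∀ x, red (Tb x) = (σ * δ) • red x + ℓ • (σ⁻¹ • red x))
    (m : ℕ) (hinj : ∀ x : J, m • x = 0 → red x = 0 → x = 0) (x : J) (hx : m • x = 0) :
    s (dia (s x)) - Tb (s x) + ℓ • x = 0 := by
  refine hinj _ ?_ (red_frobQuadNeb_et red σ δ ℓ s dia Tb hs hdia hTb x)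
  have h1 : m • s (dia (s x)) = 0 := by
    rw [← map_nsmul, ← map_nsmul, ← map_nsmul, hx, map_zero, map_zero, map_zero]
  have h2 : m • Tb (s x) = 0 := by rw [← map_nsmul, ← map_nsmul, hx, map_zero, map_zero]
  rw [smul_add, smul_sub, h1, h2, smul_comm m ℓ, hx, sub_self, smul_zero, add_zero]

end Relation

end Fermat.Agent.DS.ES
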