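import Mathlib
import Fermat.Agent.DS.X1Hecke.Inst
import Fermat.Agent.DS.J1Spec.Unramified

/-!
# Programme III (S48), X1-ES / X1-GOOD seam: good reduction with `j` as separating variable

`GoodReductionAtJ M A` = helper5's `J1Spec.GoodReductionAt (K1 M) A` together with the fact that the
separating variable of the orthonormal data is `j` (`D.xF = jOne ℚ̄ M`), so that the diamond
operators (which fix `j`) reduce.  This is the named output of X1-GOOD consumed by BOTH `KUnr`
(through `GoodReductionAtJ.goodReductionAt`) and `KES` (`DS/ES/KES.lean`).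
-/

set_option autoImplicit false

noncomputable section

namespace Fermat.Agent.DS.ES

open AlgebraicCurve ModularCurve HahnSeries IntermediateField IsLocalRing Fermat.Agent
  Fermat.Agent.Val Fermat.Agent.Red Fermat.Agent.DS.X1 Fermat.Agent.DS.X1Hecke
  Fermat.Agent.DS.J1Spec Fermat.Agent.X0

/-- **Good reduction of `K1Bar M` at `A`, with `j` as the separating variable of the orthonormal
data** (so that the diamond operators, which fix `j`, reduce). -/
def GoodReductionAtJ (M : ℕ) [NeZero M] (A : ValuationSubring Kb) : Prop :=
  ∃ (Ft : IntermediateField (ResidueField A) (LaurentSeries (ResidueField A))) (n : ℕ)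
    (D : OrthoData A (residue A) (K1L Kb M) Ft n),
    CoeffStable Ft ∧ RiemannPkg (ResidueField A) Ft ∧
      genusFF (ResidueField A) Ft = genusFF Kb (K1L Kb M) ∧ D.xF = jOne Kb M

theorem GoodReductionAtJ.goodReductionAt {M : ℕ} [NeZero M] {A : ValuationSubring Kb}
    (h : GoodReductionAtJ M A) : GoodReductionAt (K1 M) A := by
  obtain ⟨Ft, n, D, hst, hFt, hg, -⟩ := h
  exact ⟨Ft, n, D, hst, hFt, hg⟩

end Fermat.Agent.DS.ES
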