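import Mathlib
import Fermat.Agent.ES.LaurentFrob
import Fermat.Agent.Igusa.Subst

/-!
# Programme III (S48), J1-port leaf ES₁: the Kronecker norm congruence in `K((q))`, twisted form

Model-independent Laurent series part of the Eichler–Shimura congruence with nebentypus.

`K` a field, `A` a valuation subring of `K` with residue field of characteristic `ℓ`, `ζ` a primitive
`ℓ`-th root of unity of `K`.  Let `y0 y1 : A((q))` and `W : K((q))` satisfy the *product formula*

  `W(q^ℓ) = y1(q^{ℓ²}) · ∏_{b<ℓ} y0(ζ^b q)`      in `K((q))`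

(in the application `W = Nm (β y)`, `y0` is the `q`-expansion of `y` and `y1` the `q`-expansion of
`⟨ℓ⟩ y`).  Then `W` has coefficients in `A`, say `W = ι Y`, and

  `Y mod 𝔪 = (y1 mod 𝔪)(q^ℓ) · σ (y0 mod 𝔪)`,

`σ` the coefficientwise Frobenius (`normCongruence_twisted`).  The untwisted case `y1 = y0` is
`ES.normCongruence`.
-/

set_option autoImplicit false
set_option linter.style.haveILetI false
set_option linter.unusedSectionVars false

noncomputable section

namespace Fermat.Agent.DS.ES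

open HahnSeries ModularCurve Fermat.Agent.ES Fermat.Agent.Igusa

variable {K : Type*} [Field K] (A : ValuationSubring K) {ℓ : ℕ} [hℓ : Fact ℓ.Prime]

/-- Roots of unity lie in every valuation subring. -/
theorem mem_of_pow_eq_one {ζ : K} {n : ℕ} (hn : n ≠ 0) (hζ : ζ ^ n = 1) : ζ ∈ A := by
  rcases A.mem_or_inv_mem ζ with h | h
  · exact h
  · have : ζ = ζ⁻¹ ^ (n - 1) := by
      rw [inv_pow]
      refine eq_inv_of_mul_eq_one_left ?_
      rw [← pow_succ', Nat.sub_add_cancel (Nat.pos_of_ne_zero hn), hζ]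
    rw [this]
    exact pow_mem h _

/-- A root of unity of `K` as a unit of a valuation subring. -/
def rootUnit {ζ : K} {n : ℕ} (hn : n ≠ 0) (hζ : ζ ^ n = 1) : Aˣ where
  val := ⟨ζ, mem_of_pow_eq_one A hn hζ⟩
  inv := ⟨ζ ^ (n - 1), pow_mem (mem_of_pow_eq_one A hn hζ) _⟩
  val_inv := Subtype.ext (by
    show ζ * ζ ^ (n - 1) = 1
    rw [← pow_succ', Nat.sub_add_cancel (Nat.pos_of_ne_zero hn), hζ])
  inv_val := Subtype.ext (by
    show ζ ^ (n - 1) * ζ = 1
    rw [← pow_succ, Nat.sub_add_cancel (Nat.pos_of_ne_zero hn), hζ])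

@[simp]
theorem coe_rootUnit {ζ : K} {n : ℕ} (hn : n ≠ 0) (hζ : ζ ^ n = 1) :
    ((rootUnit A hn hζ : Aˣ) : A) = ⟨ζ, mem_of_pow_eq_one A hn hζ⟩ := rfl

/-- In residue characteristic `ℓ`, an `ℓ`-th root of unity reduces to `1`. -/
theorem residue_rootUnit [CharP (IsLocalRing.ResidueField A) ℓ] {ζ : K} (hζ : ζ ^ ℓ = 1) :
    Units.map (IsLocalRing.residue A : A →* IsLocalRing.ResidueField A)
      (rootUnit A hℓ.out.ne_zero hζ) = 1 := by
  haveI : ExpChar (IsLocalRing.ResidueField A) ℓ := ExpChar.prime hℓ.out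
  apply Units.ext
  apply frobenius_inj (IsLocalRing.ResidueField A) ℓ
  rw [Units.coe_map, Units.val_one, map_one, frobenius_def]
  show (IsLocalRing.residue A) (rootUnit A hℓ.out.ne_zero hζ : A) ^ ℓ = 1
  rw [← map_pow, coe_rootUnit]
  have : (⟨ζ, mem_of_pow_eq_one A hℓ.out.ne_zero hζ⟩ : A) ^ ℓ = 1 :=
    Subtype.ext (by simpa using hζ)
  rw [this, map_one]

/-- **(KN), twisted form.**  From the product formula
`W(q^ℓ) = y1(q^{ℓ²}) · ∏_b y0(ζ^b q)` with `y0 y1` integral: `W` is integral and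
`W mod 𝔪 = (y1 mod 𝔪)(q^ℓ) · σ (y0 mod 𝔪)`. -/
theorem normCongruence_twisted [CharP (IsLocalRing.ResidueField A) ℓ] [NeZero ℓ]
    (ζ : Kˣ) (hζ : IsPrimitiveRoot ζ ℓ)
    (y0 y1 : LaurentSeries A) (W : LaurentSeries K)
    (hPF : qExpand K ℓ W =
      qExpand K (ℓ * ℓ) (coeffMap A.subtype y1) *
        ∏ b ∈ Finset.range ℓ, scale (ζ ^ b) (coeffMap A.subtype y0)) :
    ∃ Y : LaurentSeries A,
      coeffMap A.subtype Y = W ∧
      coeffMap (IsLocalRing.residue A) Y =
        qExpand (IsLocalRing.ResidueField A) ℓ (coeffMap (IsLocalRing.residue A) y1) *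
          coeffMap (frobenius (IsLocalRing.ResidueField A) ℓ)
            (coeffMap (IsLocalRing.residue A) y0) := by
  classical
  set k := IsLocalRing.ResidueField A
  set π : A →+* k := IsLocalRing.residue A
  set ι : A →+* K := A.subtype
  have hι : Function.Injective ι := Subtype.val_injective
  have hℓ0 : ℓ ≠ 0 := hℓ.out.ne_zero
  have hζpow : (ζ : K) ^ ℓ = 1 := by
    have h := congrArg Units.val hζ.pow_eq_one
    rwa [Units.val_pow_eq_pow_val, Units.val_one] at h
  set ζA : Aˣ := rootUnit A hℓ0 hζpow with hζAdef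
  have hmapι : Units.map (ι : A →* K) ζA = ζ := by
    apply Units.ext
    rfl
  have hmapπ : Units.map (π : A →* k) ζA = 1 := residue_rootUnit A hζpow
  -- the product of the rotated series over `A`
  set Z : LaurentSeries A := ∏ b ∈ Finset.range ℓ, scale (ζA ^ b) y0 with hZ
  have hZι : coeffMap ι Z = ∏ b ∈ Finset.range ℓ, scale (ζ ^ b) (coeffMap ι y0) := by
    rw [hZ, map_prod]
    refine Finset.prod_congr rfl fun b _ => ?_
    rw [coeffMap_scale, map_pow, hmapι]
  have hZπ : coeffMap π Z = (coeffMap π y0) ^ ℓ := by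
    rw [hZ, map_prod]
    have : ∀ b ∈ Finset.range ℓ, coeffMap π (scale (ζA ^ b) y0) = coeffMap π y0 := by
      intro b _
      rw [coeffMap_scale, map_pow, hmapπ, one_pow, scale_one_apply]
    rw [Finset.prod_congr rfl this, Finset.prod_const, Finset.card_range]
  -- the product formula over `A`
  set T : LaurentSeries A := qExpand A (ℓ * ℓ) y1 * Z with hT
  have hTι : coeffMap ι T = qExpand K ℓ W := by
    rw [hPF, hT, map_mul, coeffMap_qExpand, hZι]
  -- coefficients of `W` lie in `A`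
  obtain ⟨Y, hY⟩ := exists_coeffMap_eq_of_forall_coeff_mem ι W (fun n => by
      refine ⟨T.coeff ((ℓ : ℤ) * n), ?_⟩
      rw [← coeffMap_coeff, hTι, qExpand_coeff_mul])
  refine ⟨Y, hY, ?_⟩
  have hYT : qExpand A ℓ Y = T := by
    apply coeffMap_injective_of_injective ι hι
    rw [coeffMap_qExpand, hY, hTι]
  have h1 := congrArg (coeffMap π) hYT
  rw [coeffMap_qExpand, hT, map_mul, coeffMap_qExpand, hZπ,
    pow_char_eq_qExpand_coeffMap_frobenius ℓ, ← qExpand_qExpand, ← map_mul] at h1
  exact qExpand_injective ℓ h1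

end Fermat.Agent.DS.ES
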