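import Mathlib
import Fermat.Agent.DS.ES.ESDivisor3
import Fermat.Agent.DS.ES.NormCongruenceLaurent

/-!
# Programme III (S48), J1-port leaf ES₁: the Eichler–Shimura congruence with nebentypus for a
function field given by `q`-expansions (model-independent assembly)

`K` a field, `A` a valuation subring with residue field `k` of characteristic `ℓ`,
`F ⊂ K((q))`, `Ft ⊂ k((q))` function fields given by `q`-expansions, `S : RedSetup A (residue A)`
a reduction setup between them such that elements with `A`-integral `q`-expansion lie in the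
valuation ring with coefficientwise residue (`IsCoeffwise S`, E5), and every unit of the valuation
ring is a fraction `u / v` with `u`, `δ u`, `v = δ v` integral, `v̄ ≠ 0` (`HasIntegralFractions S δ`,
E1; both supplied by helper5's `DS/J1Spec/ESBridge`).

Inputs:
* `σ : SemilinearAut k Ft` the coefficientwise Frobenius (`hσ`);
* `δ : F ≃ₐ[K] F` the diamond operator `⟨ℓ⟩`, preserving `S.O` and reducing to
  `δt : SemilinearAut k Ft` (`hδ`);
* `T` the Hecke correspondence on divisors with `T (div y) = div (Nm y)` (`hTN`);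
* the product formula in one of the two forms
  (μ-type) `Nm y (q^ℓ) = (δ y)(q^{ℓ²}) · ∏_b y (ζ^b q)`       (`hPF`),
  (étale-type) `Nm y (q^ℓ) = y (q^{ℓ²}) · ∏_b (δ y)(ζ^b q)`   (`hPF'`).

Outputs:
* `norm_data_mu` / `norm_data_et` : the hypothesis `hnorm` of `mapDomain_r_eq_of_norm`;
* `mapDomain_hecke_mu` : `r_* (T D) = σ • r_* D + ℓ • ((σ⁻¹ * δt) • r_* D)`   (`T_ℓ ≡ F + ⟨ℓ⟩ V`);
* `mapDomain_hecke_et` : `r_* (T D) = (σ * δt) • r_* D + ℓ • (σ⁻¹ • r_* D)`   (`T_ℓ ≡ ⟨ℓ⟩ F + V`).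
-/

set_option autoImplicit false
set_option linter.style.haveILetI false
set_option linter.unusedSectionVars false

noncomputable section

namespace Fermat.Agent.DS.ES

open AlgebraicCurve HahnSeries ModularCurve IsLocalRing Fermat.Agent.Red Fermat.Agent.Hecke
  Fermat.Agent.ES Fermat.Agent.Igusa

variable {K : Type*} [Field K] {A : ValuationSubring K} {ℓ : ℕ} [hℓ : Fact ℓ.Prime] [NeZero ℓ]
  [CharP (ResidueField A) ℓ]
  {F : IntermediateField K (LaurentSeries K)}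
  {Ft : IntermediateField (ResidueField A) (LaurentSeries (ResidueField A))}
  (S : RedSetup (F := F) (Ft := Ft) A (residue A))

/-- (E5) A series of `F` with `A`-integral coefficients lies in the valuation ring of `S`, and its
residue is the coefficientwise reduction.  (The converse is FALSE for the Gauss valuation ring:
`1 / (1 + p j)` is a unit of `S.O` with unbounded denominators, so only this direction is asked.) -/
def IsCoeffwise : Prop :=
  ∀ (y : F) (y0 : LaurentSeries A), coeffMap A.subtype y0 = (y : LaurentSeries K) →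
    ∃ h : y ∈ S.O,
      ((S.res ⟨y, h⟩ : Ft) : LaurentSeries (ResidueField A)) = coeffMap (residue A) y0

/-- (E1) Every unit of `S.O` is a fraction `u / v` with `u`, `δ u` and `v = δ v` of `A`-integral
`q`-expansion and `v̄ ≠ 0`. -/
def HasIntegralFractions (δ : F ≃ₐ[K] F) : Prop :=
  ∀ y : S.O, S.res y ≠ 0 → ∃ (u v : F) (u0 u1 v0 : LaurentSeries A),
    coeffMap A.subtype u0 = (u : LaurentSeries K) ∧
    coeffMap A.subtype u1 = ((δ u : F) : LaurentSeries K) ∧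
    coeffMap A.subtype v0 = (v : LaurentSeries K) ∧
    δ v = v ∧ coeffMap (residue A) v0 ≠ 0 ∧ (y : F) * v = u

variable {S}

/-- **Units from integral elements** (E2): if the norm datum `res (Nm u) = Φ (res u)` holds for
all `u` such that `u` and `δ u` have integral `q`-expansions, it holds for all units of `S.O`
(`Nm`, `Φ` multiplicative). -/
theorem unit_norm_data (hS : IsCoeffwise S) (δ : F ≃ₐ[K] F) (hfrac : HasIntegralFractions S δ)
    (Nm : F → F) (hNm : ∀ a b : F, Nm (a * b) = Nm a * Nm b)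
    (Φ : Ft → Ft) (hΦ : ∀ a b : Ft, Φ (a * b) = Φ a * Φ b) (hΦ0 : ∀ z : Ft, z ≠ 0 → Φ z ≠ 0)
    (hloc : ∀ (u : F) (hu : u ∈ S.O) (u0 u1 : LaurentSeries A),
      coeffMap A.subtype u0 = (u : LaurentSeries K) →
      coeffMap A.subtype u1 = ((δ u : F) : LaurentSeries K) →
      ∃ h : Nm u ∈ S.O, S.res ⟨Nm u, h⟩ = Φ (S.res ⟨u, hu⟩))
    (y : S.O) (hy : S.res y ≠ 0) :
    ∃ Y : S.O, ((Y : F)) = Nm (y : F) ∧ S.res Y = Φ (S.res y) := by
  obtain ⟨u, v, u0, u1, v0, hu0, hu1, hv0, hδv, hv0r, hyv⟩ := hfrac y hy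
  obtain ⟨hu, -⟩ := hS u u0 hu0
  obtain ⟨hv, hvres⟩ := hS v v0 hv0
  have hvne : S.res ⟨v, hv⟩ ≠ 0 := by
    intro h
    apply hv0r
    rw [← hvres, h]
    rfl
  have huyv : (⟨u, hu⟩ : S.O) = y * ⟨v, hv⟩ := Subtype.ext hyv.symm
  obtain ⟨hNu, hNures⟩ := hloc u hu u0 u1 hu0 hu1
  have hv1 : coeffMap A.subtype v0 = ((δ v : F) : LaurentSeries K) := by rw [hδv, hv0]
  obtain ⟨hNv, hNvres⟩ := hloc v hv v0 v0 hv0 hv1
  have hNvne : S.res ⟨Nm v, hNv⟩ ≠ 0 := by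
    rw [hNvres]
    exact hΦ0 _ hvne
  have hunit : IsUnit (⟨Nm v, hNv⟩ : S.O) := by
    by_contra h
    exact hNvne ((S.res_eq_zero_iff _).mpr h)
  obtain ⟨w, hw⟩ := hunit.exists_right_inv
  have hwF : Nm v * (w : F) = 1 := congrArg Subtype.val hw
  have hwres : S.res ⟨Nm v, hNv⟩ * S.res w = 1 := by rw [← map_mul, hw, map_one]
  refine ⟨⟨Nm u, hNu⟩ * w, ?_, ?_⟩
  · show Nm u * (w : F) = Nm (y : F)
    rw [← hyv, hNm, mul_assoc, hwF, mul_one]
  · rw [map_mul, hNures, huyv, map_mul, hΦ, mul_assoc, ← hNvres, hwres, mul_one]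

section Frob

variable (σ : SemilinearAut (ResidueField A) Ft)
  (hσ : ∀ z : Ft, ((σ • z : Ft) : LaurentSeries (ResidueField A)) =
    coeffMap (frobenius (ResidueField A) ℓ) (z : LaurentSeries (ResidueField A)))

include hσ in
/-- `z(q^ℓ) = (σ⁻¹ z)^ℓ` in `Ft`. -/
theorem qExpand_eq_inv_smul_pow (z : Ft) :
    qExpand (ResidueField A) ℓ (z : LaurentSeries (ResidueField A)) =
      (((σ⁻¹ • z) ^ ℓ : Ft) : LaurentSeries (ResidueField A)) := by
  have h := pow_char_eq_qExpand_coeffMap_frobenius ℓ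
    (((σ⁻¹ • z : Ft)) : LaurentSeries (ResidueField A))
  rw [← hσ, smul_inv_smul] at h
  rw [← h]
  rfl

end Frob

section Norm

variable (hS : IsCoeffwise S)
  (σ : SemilinearAut (ResidueField A) Ft)
  (hσ : ∀ z : Ft, ((σ • z : Ft) : LaurentSeries (ResidueField A)) =
    coeffMap (frobenius (ResidueField A) ℓ) (z : LaurentSeries (ResidueField A)))
  (δ : F ≃ₐ[K] F) (δt : SemilinearAut (ResidueField A) Ft)
  (hδ : ∀ y : S.O, ∃ h : δ (y : F) ∈ S.O, S.res ⟨δ (y : F), h⟩ = δt • S.res y)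
  (hfrac : HasIntegralFractions S δ)
  (Nm : F → F) (hNm : ∀ a b : F, Nm (a * b) = Nm a * Nm b)
  (ζ : Kˣ) (hζ : IsPrimitiveRoot ζ ℓ)

include hS hσ hδ hζ in
/-- Norm datum for integral elements, μ-type model. -/
theorem norm_data_mu_int
    (hPF : ∀ y : F, qExpand K ℓ ((Nm y : F) : LaurentSeries K) =
      qExpand K (ℓ * ℓ) ((δ y : F) : LaurentSeries K) *
        ∏ b ∈ Finset.range ℓ, scale (ζ ^ b) (y : LaurentSeries K))
    (u : F) (hu : u ∈ S.O) (u0 u1 : LaurentSeries A)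
    (hu0 : coeffMap A.subtype u0 = (u : LaurentSeries K))
    (hu1 : coeffMap A.subtype u1 = ((δ u : F) : LaurentSeries K)) :
    ∃ h : Nm u ∈ S.O, S.res ⟨Nm u, h⟩ =
      ((σ⁻¹ * δt) • S.res ⟨u, hu⟩) ^ ℓ * (σ • S.res ⟨u, hu⟩) := by
  obtain ⟨_, hu0r⟩ := hS u u0 hu0
  obtain ⟨hδu, hδres⟩ := hδ ⟨u, hu⟩
  obtain ⟨_, hu1r⟩ := hS (δ u) u1 hu1
  have hPFy := hPF u
  rw [← hu0, ← hu1] at hPFy
  obtain ⟨Y0, hY0, hY0r⟩ := normCongruence_twisted A ζ hζ u0 u1 _ hPFy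
  obtain ⟨hYmem, hYres⟩ := hS (Nm u) Y0 hY0
  refine ⟨hYmem, ?_⟩
  apply Subtype.ext
  rw [hYres, hY0r, ← hu1r, ← hu0r]
  have hδres' : S.res ⟨δ u, hδu⟩ = δt • S.res ⟨u, hu⟩ := hδres
  rw [hδres']
  have h1 := qExpand_eq_inv_smul_pow σ hσ (δt • S.res ⟨u, hu⟩)
  have h2 := hσ (S.res ⟨u, hu⟩)
  rw [mul_smul]
  exact congrArg₂ (· * ·) h1 h2.symm

include hS hσ hδ hζ in
/-- Norm datum for integral elements, étale-type model. -/
theorem norm_data_et_int
    (hPF' : ∀ y : F, qExpand K ℓ ((Nm y : F) : LaurentSeries K) =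
      qExpand K (ℓ * ℓ) (y : LaurentSeries K) *
        ∏ b ∈ Finset.range ℓ, scale (ζ ^ b) ((δ y : F) : LaurentSeries K))
    (u : F) (hu : u ∈ S.O) (u0 u1 : LaurentSeries A)
    (hu0 : coeffMap A.subtype u0 = (u : LaurentSeries K))
    (hu1 : coeffMap A.subtype u1 = ((δ u : F) : LaurentSeries K)) :
    ∃ h : Nm u ∈ S.O, S.res ⟨Nm u, h⟩ =
      (σ⁻¹ • S.res ⟨u, hu⟩) ^ ℓ * ((σ * δt) • S.res ⟨u, hu⟩) := by
  obtain ⟨_, hu0r⟩ := hS u u0 hu0
  obtain ⟨hδu, hδres⟩ := hδ ⟨u, hu⟩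
  obtain ⟨_, hu1r⟩ := hS (δ u) u1 hu1
  have hPFy := hPF' u
  rw [← hu0, ← hu1] at hPFy
  obtain ⟨Y0, hY0, hY0r⟩ := normCongruence_twisted A ζ hζ u1 u0 _ hPFy
  obtain ⟨hYmem, hYres⟩ := hS (Nm u) Y0 hY0
  refine ⟨hYmem, ?_⟩
  apply Subtype.ext
  rw [hYres, hY0r, ← hu1r, ← hu0r]
  have hδres' : S.res ⟨δ u, hδu⟩ = δt • S.res ⟨u, hu⟩ := hδres
  rw [hδres']
  have h1 := qExpand_eq_inv_smul_pow σ hσ (S.res ⟨u, hu⟩)
  have h2 := hσ (δt • S.res ⟨u, hu⟩)
  rw [mul_smul]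
  exact congrArg₂ (· * ·) h1 h2.symm

include hS hσ hδ hfrac hNm hζ in
/-- **Norm data, μ-type model**: from `Nm y (q^ℓ) = (δ y)(q^{ℓ²}) · ∏_b y (ζ^b q)`. -/
theorem norm_data_mu
    (hPF : ∀ y : F, qExpand K ℓ ((Nm y : F) : LaurentSeries K) =
      qExpand K (ℓ * ℓ) ((δ y : F) : LaurentSeries K) *
        ∏ b ∈ Finset.range ℓ, scale (ζ ^ b) (y : LaurentSeries K))
    (y : S.O) (hy : S.res y ≠ 0) :
    ∃ Y : S.O, ((Y : F)) = Nm (y : F) ∧
      S.res Y = ((σ⁻¹ * δt) • S.res y) ^ ℓ * (σ • S.res y) := by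
  refine unit_norm_data hS δ hfrac Nm hNm
    (fun z => ((σ⁻¹ * δt) • z) ^ ℓ * (σ • z)) ?_ ?_ ?_ y hy
  · intro a b
    show ((σ⁻¹ * δt) • (a * b)) ^ ℓ * (σ • (a * b)) = _
    rw [smul_mul', smul_mul', mul_pow]
    ring
  · intro z hz
    exact mul_ne_zero (pow_ne_zero _ ((smul_ne_zero_iff_ne _).mpr hz))
      ((smul_ne_zero_iff_ne σ).mpr hz)
  · intro u hu u0 u1 hu0 hu1
    exact norm_data_mu_int hS σ hσ δ δt hδ Nm ζ hζ hPF u hu u0 u1 hu0 hu1

include hS hσ hδ hfrac hNm hζ in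
/-- **Norm data, étale-type model**: from `Nm y (q^ℓ) = y (q^{ℓ²}) · ∏_b (δ y)(ζ^b q)`. -/
theorem norm_data_et
    (hPF' : ∀ y : F, qExpand K ℓ ((Nm y : F) : LaurentSeries K) =
      qExpand K (ℓ * ℓ) (y : LaurentSeries K) *
        ∏ b ∈ Finset.range ℓ, scale (ζ ^ b) ((δ y : F) : LaurentSeries K))
    (y : S.O) (hy : S.res y ≠ 0) :
    ∃ Y : S.O, ((Y : F)) = Nm (y : F) ∧
      S.res Y = (σ⁻¹ • S.res y) ^ ℓ * ((σ * δt) • S.res y) := by
  refine unit_norm_data hS δ hfrac Nm hNm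
    (fun z => (σ⁻¹ • z) ^ ℓ * ((σ * δt) • z)) ?_ ?_ ?_ y hy
  · intro a b
    show (σ⁻¹ • (a * b)) ^ ℓ * ((σ * δt) • (a * b)) = _
    rw [smul_mul', smul_mul', mul_pow]
    ring
  · intro z hz
    exact mul_ne_zero (pow_ne_zero _ ((smul_ne_zero_iff_ne _).mpr hz))
      ((smul_ne_zero_iff_ne _).mpr hz)
  · intro u hu u0 u1 hu0 hu1
    exact norm_data_et_int hS σ hσ δ δt hδ Nm ζ hζ hPF' u hu u0 u1 hu0 hu1

end Norm

section Main

variable [HasPrincipalDivisors K F] [HasPrincipalDivisors (ResidueField A) Ft]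
  (hF : RiemannPkg K F) (hFt : RiemannPkg (ResidueField A) Ft)
  (hS : IsCoeffwise S)
  (σ : SemilinearAut (ResidueField A) Ft)
  (hσ : ∀ z : Ft, ((σ • z : Ft) : LaurentSeries (ResidueField A)) =
    coeffMap (frobenius (ResidueField A) ℓ) (z : LaurentSeries (ResidueField A)))
  (δ : F ≃ₐ[K] F) (δt : SemilinearAut (ResidueField A) Ft)
  (hδ : ∀ y : S.O, ∃ h : δ (y : F) ∈ S.O, S.res ⟨δ (y : F), h⟩ = δt • S.res y)
  (hfrac : HasIntegralFractions S δ)
  (T : Divisor K F →+ Divisor K F) (hT : ∀ D, 0 ≤ D → 0 ≤ T D)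
  (c : ℤ) (hTdeg : ∀ D, Divisor.degree (T D) = c * Divisor.degree D)
  (Nm : F → F) (hNm : ∀ a b : F, Nm (a * b) = Nm a * Nm b)
  (hTN : ∀ y : F, y ≠ 0 → T (divOf K y) = divOf K (Nm y))
  (ζ : Kˣ) (hζ : IsPrimitiveRoot ζ ℓ)

include hF hFt hS hσ hδ hfrac hT hTdeg hNm hTN hζ in
/-- **Eichler–Shimura congruence with nebentypus, μ-type model**: `T_ℓ ≡ F + ⟨ℓ⟩ V` on divisors of
degree zero. -/
theorem mapDomain_hecke_mu
    (hPF : ∀ y : F, qExpand K ℓ ((Nm y : F) : LaurentSeries K) =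
      qExpand K (ℓ * ℓ) ((δ y : F) : LaurentSeries K) *
        ∏ b ∈ Finset.range ℓ, scale (ζ ^ b) (y : LaurentSeries K))
    (D : Divisor K F) (hD : Divisor.degree D = 0) :
    Finsupp.mapDomain S.r (T D) =
      σ • Finsupp.mapDomain S.r D + ℓ • ((σ⁻¹ * δt) • Finsupp.mapDomain S.r D) := by
  refine mapDomain_r_eq_of_norm S hF hFt T hT c hTdeg ℓ σ (σ⁻¹ * δt) ?_ D hD
  intro y hy
  obtain ⟨Y, hY, hres⟩ := norm_data_mu hS σ hσ δ δt hδ hfrac Nm hNm ζ hζ hPF y hy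
  have hy0 : ((y : F)) ≠ 0 := by
    intro h
    apply hy
    have : y = 0 := Subtype.ext h
    rw [this, map_zero]
  exact ⟨Y, by rw [hTN _ hy0, hY], hres⟩

include hF hFt hS hσ hδ hfrac hT hTdeg hNm hTN hζ in
/-- **Eichler–Shimura congruence with nebentypus, étale-type model**: `T_ℓ ≡ ⟨ℓ⟩ F + V` on
divisors of degree zero. -/
theorem mapDomain_hecke_et
    (hPF' : ∀ y : F, qExpand K ℓ ((Nm y : F) : LaurentSeries K) =
      qExpand K (ℓ * ℓ) (y : LaurentSeries K) *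
        ∏ b ∈ Finset.range ℓ, scale (ζ ^ b) ((δ y : F) : LaurentSeries K))
    (D : Divisor K F) (hD : Divisor.degree D = 0) :
    Finsupp.mapDomain S.r (T D) =
      (σ * δt) • Finsupp.mapDomain S.r D + ℓ • (σ⁻¹ • Finsupp.mapDomain S.r D) := by
  refine mapDomain_r_eq_of_norm S hF hFt T hT c hTdeg ℓ (σ * δt) σ⁻¹ ?_ D hD
  intro y hy
  obtain ⟨Y, hY, hres⟩ := norm_data_et hS σ hσ δ δt hδ hfrac Nm hNm ζ hζ hPF' y hy
  have hy0 : ((y : F)) ≠ 0 := by
    intro h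
    apply hy
    have : y = 0 := Subtype.ext h
    rw [this, map_zero]
  exact ⟨Y, by rw [hTN _ hy0, hY], hres⟩

end Main

end Fermat.Agent.DS.ES
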