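import Mathlib
import Fermat.Agent.DS.ES.LaurentAssembly
import Fermat.Agent.DS.X1Hecke.Data
import Fermat.Agent.DS.J1Spec.Unramified
import Fermat.Agent.DS.ES.GoodJDef
import Fermat.Agent.Jac.HeckeCommPF

/-!
# Programme III (S48), X1-ES: the Eichler–Shimura relation on `J₁(M)[m]` (kernel `KES`, étale type)

Assembly of

* helper24's Hecke family `I : HeckeInputsOne M` (`T_p`, diamonds, the product formula with
  nebentypus `I.pf`, `DS/X1Hecke/Data.lean`),
* helper5's mixed characteristic package (`DS/J1Spec/MixedPackage.lean`, `ESBridge.lean`):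
  reduction of `Pic⁰`, Frobenius and diamond equivariance, injectivity on prime-to-`p` torsion,
* the congruence `r_* (T_p D) = (Φ ⟨p⟩) r_* D + p Φ⁻¹ r_* D` (`LaurentAssembly.mapDomain_hecke_et`)
  and the formal relation (`ESDivisor3.frobQuadNeb_et_eq_zero`)

into: for `p ∤ M`, `A ∣ p` a place of `ℚ̄` of good reduction of `K1 M` (with `j` as separating
variable), `σ` a Frobenius element at `A`, `m` prime to `p` and `x ∈ J₁(M)[m]`:

  `⟨p⟩ (σ σ x) − T_p (σ x) + p x = 0`        (`kES_et`).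
-/

set_option autoImplicit false
set_option linter.unusedSectionVars false
set_option linter.style.haveILetI false

noncomputable section

namespace Fermat.Agent.DS.ES

open AlgebraicCurve ModularCurve HahnSeries IntermediateField IsLocalRing Fermat.Agent
  Fermat.Agent.Val Fermat.Agent.Red Fermat.Agent.Jac Fermat.Agent.Jac.RedHecke
  Fermat.Agent.DS.X1 Fermat.Agent.DS.X1Hecke Fermat.Agent.DS.J1Spec Fermat.Agent.X0
  Fermat.Agent.Igusa

/-! ### the two `redPic0` of main agree -/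

section Bridge

variable {K F k Ft : Type*} [Field K] [Field F] [Algebra K F] [Field k] [Field Ft]
  [Algebra k Ft] {A : ValuationSubring K} {π : A →+* k}
  (S : Red.RedSetup (F := F) (Ft := Ft) A π)
  [HasPrincipalDivisors K F] [HasPrincipalDivisors k Ft]

theorem redPic0_spec_eq_hecke (x : Pic0 K F) :
    Fermat.Agent.Jac.Spec.redPic0 S x = Fermat.Agent.Hecke.redPic0 S x := by
  obtain ⟨D, rfl⟩ := Pic0.mk_surjective x
  rw [Fermat.Agent.Jac.Spec.redPic0_mk, Fermat.Agent.Hecke.redPic0_mk]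
  exact congrArg Pic0.mk (Subtype.ext rfl)

end Bridge

/-! ### the assembly -/

section Main

variable {M : ℕ} [NeZero M]

/-- **KES, étale type**: the Eichler–Shimura relation on the prime-to-`p` torsion of `J₁(M)`. -/
theorem kES_et (I : HeckeInputsOne M) (hdiaJ : ∀ d, I.dia d (jOne Kb M) = jOne Kb M)
    (p : Nat.Primes) (hpM : ¬ (p : ℕ) ∣ M) (A : ValuationSubring Kb)
    (hA : A.LiesOverPrime (p : ℕ)) (hgood : GoodReductionAtJ M A)
    (σ : Kb ≃ₐ[ℚ] Kb) (hσ : A.IsFrobeniusAt σ (p : ℕ))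
    (m : ℕ) (hm : m.Coprime (p : ℕ)) (x : JOne M) (hx : m • x = 0) :
    I.D (unitOfPrime p hpM) (σ • σ • x) - I.T p (σ • x) + (p : ℕ) • x = 0 := by
  classical
  haveI hpF : Fact (p : ℕ).Prime := ⟨p.2⟩
  haveI hpN : NeZero (p : ℕ) := ⟨p.2.ne_zero⟩
  obtain ⟨Ft, n, D, hst, hFt, hg, hDx⟩ := hgood
  haveI hchar : CharP (ResidueField A) (p : ℕ) := charP_residueField_of_liesOverPrime A hA
  haveI halg : IsAlgClosed (ResidueField A) := residueField_isAlgClosed A
  have hF : RiemannPkg Kb (K1L Kb M) := I.riemannPkg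
  obtain ⟨R, hR, hG, htors, -, hdiam⟩ := exists_mixedPackage (K1 M) hst D inferInstance halg
    (Val.isRankOne A hA) hF hFt hg
  haveI := hF.principal
  haveI := hFt.principal
  -- the diamond and its reduction
  set δ : K1L Kb M ≃ₐ[Kb] K1L Kb M := I.dia (unitOfPrime p hpM) with hδdef
  have hδx : δ D.xF = D.xF := by rw [hDx]; exact hdiaJ _
  obtain ⟨δt, hcompat, hdiaRed⟩ := hdiam δ hδx
  -- the two semilinear automorphisms of the residue function field
  let Φ : SemilinearAut (ResidueField A) Ft := frobAut (p : ℕ) hst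
  let Δ : SemilinearAut (ResidueField A) Ft := SemilinearAut.ofAlgAut δt
  have hΦ : ∀ z : Ft, ((Φ • z : Ft) : LaurentSeries (ResidueField A)) =
      coeffMap (frobenius (ResidueField A) (p : ℕ)) (z : LaurentSeries (ResidueField A)) :=
    coe_frobAut_smul (p : ℕ) hst
  -- the inputs of the congruence
  have hS : IsCoeffwise R := isCoeffwise_of_isGauss R.toConstRed hG
  have hfrac : HasIntegralFractions R δ :=
    hasIntegralFractions_of_orthoData D residue_eq_zero_of_mem R.toConstRed hG δ hδx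
  have hδ : ∀ y : R.O, ∃ h : δ (y : K1L Kb M) ∈ R.O, R.res ⟨δ (y : K1L Kb M), h⟩ = Δ • R.res y :=
    fun y => ⟨hcompat.mem y y.2, hcompat.res y y.2⟩
  obtain ⟨ζ, hζ⟩ := exists_primitiveRoot_unit (p : ℕ)
  have hL : LevInputs Kb M (p : ℕ) := I.levInputs p
  -- the Hecke correspondence on divisors
  let T : Divisor Kb (K1L Kb M) →+ Divisor Kb (K1L Kb M) := heckeDivOne hL
  have hT : ∀ E, 0 ≤ E → 0 ≤ T E := fun E hE => by
    haveI := hL.princ
    exact heckeDivGen_nonneg _ _ _ hL.finA hL.finB hE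
  have hTdeg : ∀ E, Divisor.degree (T E) =
      (finrankAlong Kb (betaOneBar Kb M (p : ℕ)) : ℤ) * Divisor.degree E := fun E => by
    haveI := hL.princ
    exact degree_heckeDivGen _ _ _ hL.finA hL.finB E
  have hNm : ∀ a b : K1L Kb M, heckeNormOne M (p : ℕ) (a * b) =
      heckeNormOne M (p : ℕ) a * heckeNormOne M (p : ℕ) b :=
    fun a b => heckeNormGen_mul _ _ _ a b
  have hTN : ∀ y : K1L Kb M, y ≠ 0 → T (divOf Kb y) = divOf Kb (heckeNormOne M (p : ℕ) y) :=
    fun y hy => heckeDivOne_divOf hL hy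
  have hPF' : ∀ y : K1L Kb M,
      qExpand Kb (p : ℕ) ((heckeNormOne M (p : ℕ) y : K1L Kb M) : LaurentSeries Kb) =
        qExpand Kb ((p : ℕ) * (p : ℕ)) (y : LaurentSeries Kb) *
          ∏ b ∈ Finset.range (p : ℕ), scale (ζ ^ b) ((δ y : K1L Kb M) : LaurentSeries Kb) := by
    intro y
    rw [prod_range_scale_eq_rootProd (p : ℕ) hζ]
    exact I.pf p hpM y
  have hcong := mapDomain_hecke_et (S := R) hF hFt hS Φ hΦ δ Δ hδ hfrac T hT _ hTdeg
    (heckeNormOne M (p : ℕ)) hNm hTN ζ hζ hPF'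
  -- the congruence on `Pic⁰`
  have hTb : ∀ y : Pic0 Kb (K1L Kb M),
      Fermat.Agent.Hecke.redPic0 R (heckeOne hL y) =
        (Φ * Δ) • Fermat.Agent.Hecke.redPic0 R y +
          (p : ℕ) • (Φ⁻¹ • Fermat.Agent.Hecke.redPic0 R y) :=
    redPic0_congruence R T (p : ℕ) (Φ * Δ) Φ⁻¹ hcong (heckeOne hL)
      (fun E => ⟨heckeDivOne_mem_degZero hL E.2, heckeOne_mk hL E⟩)
  -- Frobenius and diamond equivariance of the reduction
  have hs : ∀ y : Pic0 Kb (K1L Kb M),
      Fermat.Agent.Hecke.redPic0 R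
        (DistribSMul.toAddMonoidHom (Pic0 Kb (K1L Kb M)) σ y) =
        Φ • Fermat.Agent.Hecke.redPic0 R y := by
    intro y
    rw [← redPic0_spec_eq_hecke, ← redPic0_spec_eq_hecke]
    exact redPic0_frobenius_smul (K1 M) hst R hG hF hFt hσ
      (frobeniusEquiv (ResidueField A) (p : ℕ)) (fun z => rfl) y
  have hdia : ∀ y : Pic0 Kb (K1L Kb M),
      Fermat.Agent.Hecke.redPic0 R
        (DistribSMul.toAddMonoidHom (Pic0 Kb (K1L Kb M)) (SemilinearAut.ofAlgAut δ) y) =
        Δ • Fermat.Agent.Hecke.redPic0 R y := by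
    intro y
    rw [← redPic0_spec_eq_hecke, ← redPic0_spec_eq_hecke]
    exact hdiaRed y
  have hinj : ∀ y : Pic0 Kb (K1L Kb M), m • y = 0 →
      Fermat.Agent.Hecke.redPic0 R y = 0 → y = 0 := by
    intro y hy hred
    rw [← redPic0_spec_eq_hecke] at hred
    exact htors m (natCast_residueField_ne_zero hA hm) y hy hred
  have key := frobQuadNeb_et_eq_zero (Fermat.Agent.Hecke.redPic0 R) Φ Δ (p : ℕ)
    (DistribSMul.toAddMonoidHom (Pic0 Kb (K1L Kb M)) σ)
    (DistribSMul.toAddMonoidHom (Pic0 Kb (K1L Kb M)) (SemilinearAut.ofAlgAut δ))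
    (heckeOne hL) hs hdia hTb m hinj x hx
  have hgal := I.S_galois σ (Sum.inr (unitOfPrime p hpM)) (σ • x)
  show SemilinearAut.ofAlgAut δ • (σ • σ • x) - heckeOne hL (σ • x) + (p : ℕ) • x = 0
  have hgal' : SemilinearAut.ofAlgAut δ • (σ • σ • x) =
      σ • (SemilinearAut.ofAlgAut δ • (σ • x)) := hgal
  rw [hgal']
  exact key

/-- **KES, étale type, in the shape of the `X₁`-out skeleton** (`S = I.S`). -/
theorem kES_et_S (I : HeckeInputsOne M) (hdiaJ : ∀ d, I.dia d (jOne Kb M) = jOne Kb M)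
    (hgood : ∀ p : ℕ, p.Prime → ¬ p ∣ M → ∀ A : ValuationSubring Kb, A.LiesOverPrime p →
      GoodReductionAtJ M A)
    (p : ℕ) (hp : p.Prime) (hpM : ¬ p ∣ M) (A : ValuationSubring Kb) (hA : A.LiesOverPrime p)
    (σ : Kb ≃ₐ[ℚ] Kb) (hσ : A.IsFrobeniusAt σ p) (m : ℕ) (hm : m.Coprime p) (x : JOne M)
    (hx : m • x = 0) :
    I.S (Sum.inr (unitOfPrime ⟨p, hp⟩ hpM)) (σ • σ • x) -
      I.S (Sum.inl ⟨⟨p, hp⟩, hpM⟩) (σ • x) + p • x = 0 :=
  kES_et I hdiaJ ⟨p, hp⟩ hpM A hA (hgood p hp hpM A hA) σ hσ m hm x hx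

end Main

end Fermat.Agent.DS.ES
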