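import Mathlib
import Fermat.Agent.DS.ES.KES
import Fermat.Agent.DS.X1Hecke.DataTw

/-!
# Programme III (S48), X1-ES: the Eichler–Shimura relation for the normalised families `S^{ε,a}`

`kES_et` (`KES.lean`) reads `⟨p⟩ σ² x − T_p σ x + p x = 0` on the prime-to-`p` torsion.  Applying
`⟨p⟩⁻¹` (which commutes with `T_p` and with the Galois action) gives the mu-type relation for
helper24's family `I.Stw (-1) 1` (`S(inl p) = T_p ∘ ⟨p⟩⁻¹`, `S(inr d) = ⟨d⟩⁻¹`):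

  `σ² x − S(inl p) (σ x) + p · S(inr p) x = 0`                       (`kES_mu_Stw`),

i.e. `KES (I.Stw (-1) 1) false` of the `X₁`-out skeleton.
-/

set_option autoImplicit false
set_option linter.unusedSectionVars false

noncomputable section

namespace Fermat.Agent.DS.ES

open AlgebraicCurve ModularCurve Fermat.Agent.DS.X1 Fermat.Agent.DS.X1Hecke Fermat.Agent.X0

variable {M : ℕ} [NeZero M]

/-- `⟨d⁻¹⟩ ⟨d⟩ = 1` on `J₁(M)` -/
theorem D_inv_D (I : HeckeInputsOne M) (d : (ZMod M)ˣ) (x : JOne M) :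
    I.D d⁻¹ (I.D d x) = x := by
  rw [HeckeInputsOne.D_apply, HeckeInputsOne.D_apply, ← mul_smul, ← map_mul, ← map_mul,
    inv_mul_cancel, map_one, map_one, one_smul]

/-- **KES, mu type, for the normalised family `S^{-1,1}`.** -/
theorem kES_mu_Stw (I : HeckeInputsOne M) (hdiaJ : ∀ d, I.dia d (jOne Kb M) = jOne Kb M)
    (hgood : ∀ p : ℕ, p.Prime → ¬ p ∣ M → ∀ A : ValuationSubring Kb, A.LiesOverPrime p →
      GoodReductionAtJ M A)
    (p : ℕ) (hp : p.Prime) (hpM : ¬ p ∣ M) (A : ValuationSubring Kb) (hA : A.LiesOverPrime p)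
    (σ : Kb ≃ₐ[ℚ] Kb) (hσ : A.IsFrobeniusAt σ p) (m : ℕ) (hm : m.Coprime p) (x : JOne M)
    (hx : m • x = 0) :
    σ • σ • x - I.Stw (-1) 1 (Sum.inl ⟨⟨p, hp⟩, hpM⟩) (σ • x) +
      p • I.Stw (-1) 1 (Sum.inr (unitOfPrime ⟨p, hp⟩ hpM)) x = 0 := by
  set u : (ZMod M)ˣ := unitOfPrime ⟨p, hp⟩ hpM with hu
  have h := kES_et I hdiaJ ⟨p, hp⟩ hpM A hA (hgood p hp hpM A hA) σ hσ m hm x hx
  have h2 := congrArg (I.D u⁻¹) h
  rw [map_zero, map_add, map_sub, map_nsmul, D_inv_D] at h2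
  have hcomm : I.D u⁻¹ (I.T ⟨p, hp⟩ (σ • x)) = I.T ⟨p, hp⟩ (I.D u⁻¹ (σ • x)) := by
    have := (I.T_comm_D ⟨p, hp⟩ hpM u⁻¹).eq
    exact (congrArg (fun f : Module.End ℤ (JOne M) => f (σ • x)) this).symm
  rw [hcomm] at h2
  have e1 : I.Stw (-1) 1 (Sum.inl ⟨⟨p, hp⟩, hpM⟩) (σ • x) =
      I.T ⟨p, hp⟩ (I.D u⁻¹ (σ • x)) := by
    rw [HeckeInputsOne.Stw_inl, pow_one, zpow_neg_one]
  have e2 : I.Stw (-1) 1 (Sum.inr u) x = I.D u⁻¹ x := by
    show I.D (u ^ (-1 : ℤ)) x = I.D u⁻¹ x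
    rw [zpow_neg_one]
  rw [e1, e2]
  exact h2

end Fermat.Agent.DS.ES
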