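import Mathlib
import Fermat.Agent.DS.ES.WeberInst
import Fermat.Agent.DS.X1Hecke.Comm
import Fermat.Agent.Jac.HeckeCommPF

/-!
# Programme III (S48), X1-ES: the field `pf` of helper24's `HeckeInputsOne`

`twistedPF_of_isDiamondAt` : for `ℓ ∤ M` prime and any automorphism `δ` of `K1Bar M` acting on the
generators as the diamond `⟨ℓ⟩` (`IsDiamondAt M ℓ δ`: `j(q^d) ↦ j(q^d)`, `W_a ↦ W_{aℓ mod M}`),
the product formula with nebentypus `X1Hecke.TwistedPF M ℓ δ` holds as soon as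
`[K1LevBar M ℓ : α K1Bar M] ≤ ℓ + 1` (AN-5, upper bound only).  All analytic inputs are discharged
(`WeberInst.lean`).
-/

set_option autoImplicit false
set_option linter.unusedSectionVars false

noncomputable section

namespace Fermat.Agent.DS.ES

open HahnSeries ModularCurve IntermediateField AlgebraicCurve Fermat.Agent.X0
  Fermat.Agent.Igusa Fermat.Agent.ES Fermat.Agent.DS.X1 Fermat.Agent.Jac

/-- a Bezout relation for `ℓ ∤ M`, `ℓ` prime -/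
theorem exists_bezout_of_not_dvd (M ℓ : ℕ) (hℓ : ℓ.Prime) (hℓM : ¬ ℓ ∣ M) :
    ∃ u v : ℤ, u * M + v * ℓ = 1 := by
  have hcop : Nat.Coprime M ℓ := ((Nat.Prime.coprime_iff_not_dvd hℓ).mpr hℓM).symm
  refine ⟨Nat.gcdA M ℓ, Nat.gcdB M ℓ, ?_⟩
  have h := Nat.gcd_eq_gcd_ab M ℓ
  rw [hcop.gcd_eq_one] at h
  push_cast at h
  linarith

variable (M ℓ : ℕ) [NeZero M] [hℓ : Fact ℓ.Prime] [NeZero ℓ]

/-- **`pf`**: the product formula with nebentypus in helper24's shape. -/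
theorem twistedPF_of_isDiamondAt (hℓM : ¬ ℓ ∣ M)
    (δ : K1Bar M ≃ₐ[Kb] K1Bar M) (hδ : IsDiamondAt M ℓ δ)
    (hfin : FiniteAlong Kb (Fermat.Agent.DS.X1Hecke.alphaOneBar Kb M ℓ))
    (hdeg : finrankAlong Kb (Fermat.Agent.DS.X1Hecke.alphaOneBar Kb M ℓ) ≤ ℓ + 1) :
    Fermat.Agent.DS.X1Hecke.TwistedPF M ℓ δ := by
  obtain ⟨u, v, huv⟩ := exists_bezout_of_not_dvd M ℓ hℓ.out hℓM
  obtain ⟨ζ, hζ⟩ := exists_primitiveRoot_unit ℓ
  refine Fermat.Agent.DS.X1Hecke.twistedPF_of_range δ ζ hζ ?_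
  intro y
  exact productFormula_one' M ℓ u v huv (Fermat.Agent.DS.X1Hecke.alphaOneBar Kb M ℓ)
    (Fermat.Agent.DS.X1Hecke.betaOneBar Kb M ℓ)
    (fun x => Fermat.Agent.DS.X1Hecke.coe_alphaOneBar Kb M ℓ x)
    (fun x => Fermat.Agent.DS.X1Hecke.coe_betaOneBar Kb M ℓ x) δ hδ ζ hζ hfin hdeg y

/-- the exact degree on the `α` side from the upper bound -/
theorem finrankAlong_alphaOneBar_eq (hℓM : ¬ ℓ ∣ M)
    (hfin : FiniteAlong Kb (Fermat.Agent.DS.X1Hecke.alphaOneBar Kb M ℓ))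
    (hdeg : finrankAlong Kb (Fermat.Agent.DS.X1Hecke.alphaOneBar Kb M ℓ) ≤ ℓ + 1) :
    finrankAlong Kb (Fermat.Agent.DS.X1Hecke.alphaOneBar Kb M ℓ) = ℓ + 1 := by
  obtain ⟨u, v, huv⟩ := exists_bezout_of_not_dvd M ℓ hℓ.out hℓM
  exact finrankAlong_alpha_eq' M ℓ u v huv (Fermat.Agent.DS.X1Hecke.alphaOneBar Kb M ℓ)
    (Fermat.Agent.DS.X1Hecke.betaOneBar Kb M ℓ)
    (fun x => Fermat.Agent.DS.X1Hecke.coe_alphaOneBar Kb M ℓ x)
    (fun x => Fermat.Agent.DS.X1Hecke.coe_betaOneBar Kb M ℓ x) hfin hdeg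

end Fermat.Agent.DS.ES
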